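import Fermat.Agent.S37.Deg.Step

set_option autoImplicit false

noncomputable section

namespace Fermat.Agent.S37.Deg

open ModularCurve Polynomial

/-! ### The Dedekind `ψ` function (copied from `Fermat.Agent.S20.IndexPsi`) -/

theorem sqfree_dvd_of_dvd_mul_prime {N p d : ℕ} (hp : p.Prime) (hpN : p ∣ N)
    (hd : Squarefree d) (hdN : d ∣ N * p) : d ∣ N := by
  by_cases hpd : p ∣ d
  · obtain ⟨e, rfl⟩ := hpd
    have hcop : Nat.Coprime p e := Nat.coprime_of_squarefree_mul hd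
    have he : e ∣ N := by
      have : p * e ∣ p * N := by rwa [mul_comm p N]
      exact (Nat.mul_dvd_mul_iff_left hp.pos).mp this
    exact Nat.Coprime.mul_dvd_of_dvd_of_dvd hcop hpN he
  · have hcop : Nat.Coprime d p := (Nat.Coprime.symm ((Nat.Prime.coprime_iff_not_dvd hp).mpr hpd))
    exact hcop.dvd_of_dvd_mul_right hdN

theorem psi_mul_prime_of_dvd {N p : ℕ} (hN : N ≠ 0) (hp : p.Prime) (hpN : p ∣ N) :
    dedekindPsi (N * p) = p * dedekindPsi N := by
  unfold dedekindPsi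
  have hset : (N * p).divisors.filter Squarefree = N.divisors.filter Squarefree := by
    ext d
    simp only [Finset.mem_filter, Nat.mem_divisors]
    constructor
    · rintro ⟨⟨h1, _⟩, h3⟩
      exact ⟨⟨sqfree_dvd_of_dvd_mul_prime hp hpN h3 h1, hN⟩, h3⟩
    · rintro ⟨⟨h1, _⟩, h3⟩
      exact ⟨⟨Dvd.dvd.mul_right h1 p, Nat.mul_ne_zero hN hp.ne_zero⟩, h3⟩
  rw [hset, Finset.mul_sum]
  refine Finset.sum_congr rfl fun d hd => ?_
  have hdN : d ∣ N := (Nat.mem_divisors.mp (Finset.mem_filter.mp hd).1).1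
  rw [mul_comm N p, Nat.mul_div_assoc p hdN]

theorem psi_mul_prime_of_not_dvd {N p : ℕ} (hN : N ≠ 0) (hp : p.Prime) (hpN : ¬ p ∣ N) :
    dedekindPsi (N * p) = (p + 1) * dedekindPsi N := by
  unfold dedekindPsi
  have hcopN : Nat.Coprime N p := (Nat.Coprime.symm ((Nat.Prime.coprime_iff_not_dvd hp).mpr hpN))
  have hset : (N * p).divisors.filter Squarefree =
      N.divisors.filter Squarefree ∪ (N.divisors.filter Squarefree).image (· * p) := by
    ext d
    simp only [Finset.mem_filter, Nat.mem_divisors, Finset.mem_union, Finset.mem_image]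
    constructor
    · rintro ⟨⟨h1, _⟩, h3⟩
      by_cases hpd : p ∣ d
      · right
        obtain ⟨e, rfl⟩ := hpd
        have hcop : Nat.Coprime p e := Nat.coprime_of_squarefree_mul h3
        have he : e ∣ N := by
          have : p * e ∣ p * N := by rwa [mul_comm p N]
          exact (Nat.mul_dvd_mul_iff_left hp.pos).mp this
        exact ⟨e, ⟨⟨he, hN⟩, h3.of_mul_right⟩, mul_comm e p⟩
      · left
        have hcop : Nat.Coprime d p := (Nat.Coprime.symm ((Nat.Prime.coprime_iff_not_dvd hp).mpr hpd))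
        exact ⟨⟨hcop.dvd_of_dvd_mul_right h1, hN⟩, h3⟩
    · rintro (⟨⟨h1, _⟩, h3⟩ | ⟨e, ⟨⟨h1, _⟩, h3⟩, rfl⟩)
      · exact ⟨⟨Dvd.dvd.mul_right h1 p, Nat.mul_ne_zero hN hp.ne_zero⟩, h3⟩
      · refine ⟨⟨Nat.mul_dvd_mul_right h1 p, Nat.mul_ne_zero hN hp.ne_zero⟩, ?_⟩
        have hcop : Nat.Coprime e p := Nat.Coprime.coprime_dvd_left h1 hcopN
        exact (Nat.squarefree_mul hcop).mpr ⟨h3, hp.squarefree⟩
  have hdisj : Disjoint (N.divisors.filter Squarefree)
      ((N.divisors.filter Squarefree).image (· * p)) := by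
    rw [Finset.disjoint_left]
    intro d hd hd'
    simp only [Finset.mem_filter, Nat.mem_divisors, Finset.mem_image] at hd hd'
    obtain ⟨e, _, rfl⟩ := hd'
    exact hpN ((Dvd.intro_left e rfl).trans hd.1.1)
  rw [hset, Finset.sum_union hdisj, Finset.sum_image, add_mul, one_mul, Finset.mul_sum]
  · congr 1
    · refine Finset.sum_congr rfl fun d hd => ?_
      have hdN : d ∣ N := (Nat.mem_divisors.mp (Finset.mem_filter.mp hd).1).1
      rw [mul_comm N p, Nat.mul_div_assoc p hdN]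
    · refine Finset.sum_congr rfl fun d hd => ?_
      exact Nat.mul_div_mul_right N d hp.pos
  · intro a _ b _ h
    exact Nat.eq_of_mul_eq_mul_right hp.pos h

theorem dedekindPsi_pos {N : ℕ} (hN : N ≠ 0) : 0 < dedekindPsi N := by
  unfold dedekindPsi
  have h1 : (1 : ℕ) ∈ N.divisors.filter Squarefree := by
    simp [hN]
  have h2 := Finset.single_le_sum (f := fun d => N / d) (fun _ _ => Nat.zero_le _) h1
  simp only [Nat.div_one] at h2
  exact lt_of_lt_of_le (Nat.pos_of_ne_zero hN) h2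

/-! ### The degree theorem -/

theorem full_congr (K : Type*) [Field K] {N N' : ℕ} [NeZero N] [NeZero N'] (h : N = N') :
    modularFunctionFieldFullC K N = modularFunctionFieldFullC K N' := by
  subst h; rfl

theorem full_one (K : Type*) [Field K] :
    modularFunctionFieldFullC K 1 = IntermediateField.adjoin K {jqModC K} := by
  apply le_antisymm
  · rw [modularFunctionFieldFullC, IntermediateField.adjoin_le_iff]
    rintro x ⟨d, hne, hdvd, rfl⟩
    have hd1 : d = 1 := Nat.dvd_one.mp hdvd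
    subst hd1
    rw [qExpand_one_apply]
    exact IntermediateField.mem_adjoin_simple_self K _
  · exact IntermediateField.adjoin_simple_le_iff.mpr (jqModC_mem_full K 1)

section counting

variable (hPL : ∀ (p : ℕ) [NeZero p], p.Prime → Nonempty (PrimeLevelData p))
  (K : Type*) [Field K]

/-- the degree `[K(j_d : d ∣ N) : K(j)]` -/
def fullDeg (N : ℕ) [NeZero N] : ℕ :=
  (IntermediateField.adjoin K {jqModC K}).relfinrank (modularFunctionFieldFullC K N)

theorem fullDeg_congr {N N' : ℕ} [NeZero N] [NeZero N'] (h : N = N') :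
    fullDeg K N = fullDeg K N' := by
  subst h; rfl

theorem fullDeg_one : fullDeg K 1 = 1 := by
  rw [fullDeg, full_one]
  exact IntermediateField.relfinrank_self _

include hPL in
theorem fullDeg_mul_prime (M p : ℕ) [NeZero M] [NeZero p] [NeZero (M * p)] (hp : p.Prime)
    (hN : ((M * p : ℕ) : K) ≠ 0) :
    ∃ c : ℕ, fullDeg K (M * p) = fullDeg K M * c ∧ 0 < c ∧ c ≤ p + 1 ∧ (p ∣ M → c ≤ p) ∧
      p * fullDeg K M ≤ fullDeg K (M * p) := by
  obtain ⟨h1, h2, h3⟩ := relfinrank_step hPL K M p hp hN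
  refine ⟨_, ?_, h1, h2, h3, relfinrank_full_mul_prime_ge hPL K M p hp hN⟩
  exact (IntermediateField.relfinrank_mul_relfinrank
    (IntermediateField.adjoin_simple_le_iff.mpr (jqModC_mem_full K M))
    (full_degeneracyC_le K (Dvd.intro p rfl))).symm

include hPL in
theorem fullDeg_prime (p : ℕ) [NeZero p] (hp : p.Prime) (hpK : (p : K) ≠ 0) :
    fullDeg K p = p + 1 := by
  obtain ⟨D⟩ := hPL p hp
  have h1p : NeZero (1 * p) := ⟨by simpa using hp.ne_zero⟩
  have hp1 : NeZero (p ^ (0 + 1)) := ⟨by simpa using hp.ne_zero⟩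
  have hN : ((1 * p : ℕ) : K) ≠ 0 := by simpa using hpK
  have hgen := full_mul_prime_eq_sup hPL K 1 p 0 hp (by simp) (by simpa using hp.one_lt.ne') hN
  rw [fullDeg, full_congr K (one_mul p).symm, hgen, full_one,
    jqNModC_congr K (show p ^ (0 + 1) = p by simp)]
  have hint := isIntegral_of_ev2 (IntermediateField.adjoin K {jqModC K})
    (IntermediateField.mem_adjoin_simple_self K (jqModC K)) D.Φ_monic (ev2_jqN_jq K D)
  rw [relfinrank_sup_adjoin_simple _ hint.1]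
  exact natDegree_minpoly_jqN_prime p hp D K hpK

include hPL in
theorem fullDeg_step_dvd (M p : ℕ) [NeZero M] [NeZero p] [NeZero (M * p)] (hp : p.Prime)
    (hpM : p ∣ M) (hN : ((M * p : ℕ) : K) ≠ 0) (hM : fullDeg K M = dedekindPsi M) :
    fullDeg K (M * p) = dedekindPsi (M * p) := by
  obtain ⟨c, h1, -, -, h4, h5⟩ := fullDeg_mul_prime hPL K M p hp hN
  have hψ : 0 < dedekindPsi M := dedekindPsi_pos (NeZero.ne M)
  rw [psi_mul_prime_of_dvd (NeZero.ne M) hp hpM, h1, hM]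
  rw [h1, hM] at h5
  have hc : c ≤ p := h4 hpM
  have hc' : p ≤ c := by
    by_contra hlt
    push Not at hlt
    have : dedekindPsi M * c < dedekindPsi M * p := Nat.mul_lt_mul_of_pos_left hlt hψ
    nlinarith
  rw [le_antisymm hc hc', mul_comm]

include hPL in
theorem fullDeg_step_two (M₀ p₁ p₂ : ℕ) [NeZero M₀] [NeZero p₁] [NeZero p₂] [NeZero (M₀ * p₂)]
    [NeZero (M₀ * p₁)] [NeZero (M₀ * p₂ * p₁)] [NeZero (M₀ * p₁ * p₂)]
    (hp₁ : p₁.Prime) (hp₂ : p₂.Prime) (hne : p₁ ≠ p₂) (h1 : ¬ p₁ ∣ M₀) (h2 : ¬ p₂ ∣ M₀)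
    (hN : ((M₀ * p₂ * p₁ : ℕ) : K) ≠ 0) (ha1 : fullDeg K (M₀ * p₂) = dedekindPsi (M₀ * p₂))
    (ha2 : fullDeg K (M₀ * p₁) = dedekindPsi (M₀ * p₁)) :
    fullDeg K (M₀ * p₂ * p₁) = dedekindPsi (M₀ * p₂ * p₁) := by
  have hN' : ((M₀ * p₁ * p₂ : ℕ) : K) ≠ 0 := by
    rwa [show M₀ * p₁ * p₂ = M₀ * p₂ * p₁ by ring]
  obtain ⟨c₁, e1, -, u1, -, l1⟩ := fullDeg_mul_prime hPL K (M₀ * p₂) p₁ hp₁ hN
  obtain ⟨c₂, e2, -, u2, -, l2⟩ := fullDeg_mul_prime hPL K (M₀ * p₁) p₂ hp₂ hN'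
  rw [fullDeg_congr K (show M₀ * p₁ * p₂ = M₀ * p₂ * p₁ by ring)] at e2 l2
  have hM₀ : M₀ ≠ 0 := NeZero.ne M₀
  have hψ : 0 < dedekindPsi M₀ := dedekindPsi_pos hM₀
  have hψ1 : dedekindPsi (M₀ * p₂) = (p₂ + 1) * dedekindPsi M₀ :=
    psi_mul_prime_of_not_dvd hM₀ hp₂ h2
  have hψ2 : dedekindPsi (M₀ * p₁) = (p₁ + 1) * dedekindPsi M₀ :=
    psi_mul_prime_of_not_dvd hM₀ hp₁ h1
  have h1' : ¬ p₁ ∣ M₀ * p₂ := by
    intro h
    rcases hp₁.dvd_mul.mp h with h | h
    · exact h1 h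
    · exact hne ((Nat.prime_dvd_prime_iff_eq hp₁ hp₂).mp h)
  have hψN : dedekindPsi (M₀ * p₂ * p₁) = (p₁ + 1) * ((p₂ + 1) * dedekindPsi M₀) := by
    rw [psi_mul_prime_of_not_dvd (NeZero.ne (M₀ * p₂)) hp₁ h1', hψ1]
  rw [ha1, hψ1] at e1 l1
  rw [ha2, hψ2] at e2 l2
  set P := dedekindPsi M₀ with hP
  set a := fullDeg K (M₀ * p₂ * p₁) with ha
  rw [hψN]
  -- `a = (p₂+1) P c₁ = (p₁+1) P c₂`, `p₁ (p₂+1) P ≤ a`, `p₂ (p₁+1) P ≤ a`
  have hc₁ : p₁ ≤ c₁ := by
    by_contra hlt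
    push Not at hlt
    have : (p₂ + 1) * P * c₁ < (p₂ + 1) * P * p₁ :=
      Nat.mul_lt_mul_of_pos_left hlt (Nat.mul_pos (Nat.succ_pos _) hψ)
    nlinarith
  have hc₂ : p₂ ≤ c₂ := by
    by_contra hlt
    push Not at hlt
    have : (p₁ + 1) * P * c₂ < (p₁ + 1) * P * p₂ :=
      Nat.mul_lt_mul_of_pos_left hlt (Nat.mul_pos (Nat.succ_pos _) hψ)
    nlinarith
  have hcc : (p₂ + 1) * c₁ = (p₁ + 1) * c₂ := by
    have h : P * ((p₂ + 1) * c₁) = P * ((p₁ + 1) * c₂) := by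
      calc P * ((p₂ + 1) * c₁) = (p₂ + 1) * P * c₁ := by ring
        _ = a := e1.symm
        _ = (p₁ + 1) * P * c₂ := e2
        _ = P * ((p₁ + 1) * c₂) := by ring
    exact Nat.eq_of_mul_eq_mul_left hψ h
  have hc₁' : c₁ = p₁ + 1 := by
    rcases (show c₁ = p₁ ∨ c₁ = p₁ + 1 by omega) with h | h
    · exfalso
      rcases (show c₂ = p₂ ∨ c₂ = p₂ + 1 by omega) with h' | h'
      · rw [h, h'] at hcc
        apply hne
        nlinarith
      · rw [h, h'] at hcc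
        nlinarith
    · exact h
  rw [e1, hc₁']
  ring

include hPL in
/-- **The degree theorem.** For every field `K` in which `N ≠ 0`:
`[K(j(q^d) : d ∣ N) : K(j)] = ψ(N)`. -/
theorem fullDeg_eq_dedekindPsi :
    ∀ (N : ℕ) [NeZero N], (N : K) ≠ 0 → fullDeg K N = dedekindPsi N := by
  intro N
  induction N using Nat.strong_induction_on with
  | _ N ih =>
    intro hN0 hN
    by_cases h1 : N = 1
    · subst h1
      rw [fullDeg_one, dedekindPsi_one]
    set p := N.minFac with hpdef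
    have hp : p.Prime := Nat.minFac_prime h1
    have hpN : p ∣ N := Nat.minFac_dvd N
    obtain ⟨M, hM⟩ := hpN
    have hNM : N = M * p := by rw [hM, mul_comm]
    have hM0 : M ≠ 0 := by
      rintro rfl
      exact (NeZero.ne N) (by rw [hNM, zero_mul])
    have : NeZero M := ⟨hM0⟩
    have : NeZero p := ⟨hp.ne_zero⟩
    have : NeZero (M * p) := ⟨mul_ne_zero hM0 hp.ne_zero⟩
    have hMltN : M < N := by
      rw [hNM]
      have := hp.two_le
      have : 0 < M := Nat.pos_of_ne_zero hM0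
      nlinarith
    have hNK : ((M * p : ℕ) : K) ≠ 0 := by rwa [← hNM]
    have hMK : (M : K) ≠ 0 := natCast_ne_zero_of_dvd (Dvd.intro p rfl) hNK
    have hpK : (p : K) ≠ 0 := natCast_ne_zero_of_dvd (Dvd.intro_left M rfl) hNK
    have ihM : fullDeg K M = dedekindPsi M := ih M hMltN hMK
    rw [fullDeg_congr K hNM, hNM]
    by_cases hpM : p ∣ M
    · exact fullDeg_step_dvd hPL K M p hp hpM hNK ihM
    by_cases hM1 : M = 1
    · subst hM1
      rw [fullDeg_congr K (one_mul p), fullDeg_prime hPL K p hp hpK,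
        psi_mul_prime_of_not_dvd one_ne_zero hp hpM, dedekindPsi_one, mul_one]
    set p₂ := M.minFac with hp₂def
    have hp₂ : p₂.Prime := Nat.minFac_prime hM1
    obtain ⟨M₀, hM₀⟩ := Nat.minFac_dvd M
    have hMM₀ : M = M₀ * p₂ := by rw [hM₀, mul_comm]
    have hM₀0 : M₀ ≠ 0 := by
      rintro rfl
      exact hM0 (by rw [hMM₀, zero_mul])
    have hne : p ≠ p₂ := by
      intro h
      exact hpM (h ▸ Nat.minFac_dvd M)
    have : NeZero M₀ := ⟨hM₀0⟩
    have : NeZero p₂ := ⟨hp₂.ne_zero⟩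
    have : NeZero (M₀ * p₂) := ⟨mul_ne_zero hM₀0 hp₂.ne_zero⟩
    have : NeZero (M₀ * p) := ⟨mul_ne_zero hM₀0 hp.ne_zero⟩
    have : NeZero (M₀ * p₂ * p) := ⟨mul_ne_zero (mul_ne_zero hM₀0 hp₂.ne_zero) hp.ne_zero⟩
    have : NeZero (M₀ * p * p₂) := ⟨mul_ne_zero (mul_ne_zero hM₀0 hp.ne_zero) hp₂.ne_zero⟩
    have hNeq : M * p = M₀ * p₂ * p := by rw [hMM₀]
    have hNK' : ((M₀ * p₂ * p : ℕ) : K) ≠ 0 := by rwa [← hNeq]
    have hM₂lt : M₀ * p < N := by
      rw [hNM, hMM₀]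
      have := hp₂.two_le
      have : 0 < M₀ * p := Nat.pos_of_ne_zero (mul_ne_zero hM₀0 hp.ne_zero)
      nlinarith
    have hM₂K : ((M₀ * p : ℕ) : K) ≠ 0 :=
      natCast_ne_zero_of_dvd (Dvd.intro p₂ (by ring)) hNK'
    have ihM₂ : fullDeg K (M₀ * p) = dedekindPsi (M₀ * p) := ih (M₀ * p) hM₂lt hM₂K
    rw [fullDeg_congr K hNeq, hNeq]
    by_cases hp₂M₀ : p₂ ∣ M₀
    · have hNeq' : M₀ * p₂ * p = M₀ * p * p₂ := by ring
      rw [fullDeg_congr K hNeq', hNeq']
      refine fullDeg_step_dvd hPL K (M₀ * p) p₂ hp₂ (hp₂M₀.mul_right p) ?_ ihM₂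
      rwa [← hNeq']
    · have hpM₀ : ¬ p ∣ M₀ := fun h => hpM (hMM₀ ▸ h.mul_right p₂)
      have ihM' : fullDeg K (M₀ * p₂) = dedekindPsi (M₀ * p₂) := by
        rw [← fullDeg_congr K hMM₀, ← hMM₀]
        exact ihM
      exact fullDeg_step_two hPL K M₀ p p₂ hp hp₂ hne hpM₀ hp₂M₀ hNK' ihM' ihM₂

include hPL in
/-- **The degree theorem**, unfolded. -/
theorem relfinrank_modularFunctionFieldFullC (N : ℕ) [NeZero N] (hN : (N : K) ≠ 0) :
    (IntermediateField.adjoin K {jqModC K}).relfinrank (modularFunctionFieldFullC K N) =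
      dedekindPsi N :=
  fullDeg_eq_dedekindPsi hPL K N hN

end counting

end Fermat.Agent.S37.Deg
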