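/-
S28, Route H (Hecke / modular-polynomial route): the PRIME LEVEL INTERFACE.

`PrimeLevelData p` packages, for a prime `p`, the zeta-free formal identities over `ℤ((q))`
that the tower argument (files `H/…`) consumes.  With `j = jqModC ℤ`, `j_p = j(q^p)` and the
modular unit `η = p^12 Δ(q^p)/Δ(q)`:

* `Φ ∈ ℤ[Y][X]` monic of `X`-degree `p + 1` (the modular polynomial), `Φ(j_p; j) = 0`,
  `Φ(j; j_p) = 0`;
* `H ∈ ℤ[Y][X]` monic with `H(η; j) = 0`  (`η` is integral over `ℤ[j]`);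
* `L ∈ ℤ[Y][X]` with `η * Φ'(j_p; j) = L(j_p; j)`  (Lagrange interpolation);
* the coefficient of `q^(-p^2)` in `Φ'(j_p; j)` is `1`.

All of it follows formally (Newton identities, descent `ℤ[ζ_p] ∩ ℚ = ℤ`) from
`hecke_levelOne_formal` (file `HeckeFormal`).
-/
import Mathlib
import Fermat.Prelude.Def_ModularCurve_X0ModL

set_option autoImplicit false

noncomputable section

namespace Fermat.Agent.S37.Deg

open ModularCurve

/-- Evaluation of a two-variable polynomial `P(X; Y) ∈ ℤ[Y][X]` at `X = x`, `Y = y`. -/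
def ev2 {A : Type*} [CommRing A] (x y : A) (P : Polynomial (Polynomial ℤ)) : A :=
  Polynomial.eval₂ (Polynomial.eval₂RingHom (Int.castRingHom A) y) x P

/-- The modular unit `p^12 Δ(q^p)/Δ(q) = p^12 q^(p-1) ∏ (1-q^(pn))^24 / ∏ (1-q^n)^24`
as an integral Laurent series. -/
def etaUnitZ (p : ℕ) [NeZero p] : LaurentSeries ℤ :=
  (p : LaurentSeries ℤ) ^ 12 * (HahnSeries.single ((p : ℤ) - 1) (1 : ℤ) *
    qExpand ℤ p (HahnSeries.ofPowerSeries ℤ ℤ dedekindEtaUnit) *
    HahnSeries.ofPowerSeries ℤ ℤ dedekindEtaUnitInv)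

/-- The prime level interface (see the file header). -/
structure PrimeLevelData (p : ℕ) [NeZero p] where
  /-- the modular polynomial `Φ_p(X; Y)` -/
  Φ : Polynomial (Polynomial ℤ)
  /-- a monic polynomial killing the modular unit -/
  H : Polynomial (Polynomial ℤ)
  /-- the Lagrange numerator -/
  L : Polynomial (Polynomial ℤ)
  Φ_monic : Φ.Monic
  Φ_natDegree : Φ.natDegree = p + 1
  H_monic : H.Monic
  root_jp : ev2 (jqNModC ℤ p) (jqModC ℤ) Φ = 0
  root_j : ev2 (jqModC ℤ) (jqNModC ℤ p) Φ = 0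
  root_eta : ev2 (etaUnitZ p) (jqModC ℤ) H = 0
  lagrange : etaUnitZ p * ev2 (jqNModC ℤ p) (jqModC ℤ) (Polynomial.derivative Φ) =
    ev2 (jqNModC ℤ p) (jqModC ℤ) L
  deriv_coeff :
    (ev2 (jqNModC ℤ p) (jqModC ℤ) (Polynomial.derivative Φ)).coeff (-((p : ℤ) ^ 2)) = 1

end Fermat.Agent.S37.Deg
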