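/-
S28 Route H: basic consequences of `PrimeLevelData` over an arbitrary commutative ring / field
(base change of the formal identities, substitution `q ↦ q^m`, coefficients of the modular unit).
-/
import Fermat.Agent.S37.Deg.PrimeLevel

set_option autoImplicit false

noncomputable section

namespace Fermat.Agent.S37.Deg

open ModularCurve Polynomial

section ev2

variable {A B : Type*} [CommRing A] [CommRing B]

theorem map_ev2 (f : A →+* B) (x y : A) (P : ℤ[X][X]) : f (ev2 x y P) = ev2 (f x) (f y) P := by
  unfold ev2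
  rw [Polynomial.hom_eval₂]
  congr 1
  ext a
  · simp
  · simp

/-- The one-variable polynomial `P(X; y) ∈ A[X]`. -/
def polyAt (y : A) (P : ℤ[X][X]) : A[X] := P.map (eval₂RingHom (Int.castRingHom A) y)

theorem ev2_eq_eval (x y : A) (P : ℤ[X][X]) : ev2 x y P = (polyAt y P).eval x := by
  rw [polyAt, eval_map]; rfl

theorem polyAt_monic (y : A) {P : ℤ[X][X]} (hP : P.Monic) : (polyAt y P).Monic := hP.map _

theorem natDegree_polyAt [Nontrivial A] (y : A) {P : ℤ[X][X]} (hP : P.Monic) :
    (polyAt y P).natDegree = P.natDegree := hP.natDegree_map _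

theorem derivative_polyAt (y : A) (P : ℤ[X][X]) :
    derivative (polyAt y P) = polyAt y (derivative P) := by
  rw [polyAt, polyAt, derivative_map]

theorem map_polyAt (f : A →+* B) (y : A) (P : ℤ[X][X]) :
    (polyAt y P).map f = polyAt (f y) P := by
  rw [polyAt, polyAt, Polynomial.map_map]
  congr 1
  ext a
  · simp
  · simp

end ev2

section baseChange

variable {p : ℕ} [NeZero p] (D : PrimeLevelData p) (R : Type*) [CommRing R]

/-- The ring homomorphism `ℤ((q)) → R((q))`, `f(q) ↦ f(q^m)` with coefficients cast to `R`. -/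
def castExpand (m : ℕ) [NeZero m] : LaurentSeries ℤ →+* LaurentSeries R :=
  (qExpand R m).comp (coeffMap (Int.castRingHom R))

theorem castExpand_jqModC (m : ℕ) [NeZero m] : castExpand R m (jqModC ℤ) = jqNModC R m := by
  rw [castExpand, RingHom.comp_apply, coeffMap_jqModC, jqNModC]

theorem castExpand_jqNModC (m : ℕ) [NeZero m] (d : ℕ) [NeZero d] [NeZero (m * d)] :
    castExpand R m (jqNModC ℤ d) = jqNModC R (m * d) := by
  rw [castExpand, RingHom.comp_apply, coeffMap_jqNModC, jqNModC, qExpand_qExpand, jqNModC]

theorem PrimeLevelData.root_jp_expand (m : ℕ) [NeZero m] [NeZero (m * p)] :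
    ev2 (jqNModC R (m * p)) (jqNModC R m) D.Φ = 0 := by
  have h := congrArg (castExpand R m) D.root_jp
  rwa [map_ev2, castExpand_jqNModC, castExpand_jqModC, map_zero] at h

theorem PrimeLevelData.root_j_expand (m : ℕ) [NeZero m] [NeZero (m * p)] :
    ev2 (jqNModC R m) (jqNModC R (m * p)) D.Φ = 0 := by
  have h := congrArg (castExpand R m) D.root_j
  rwa [map_ev2, castExpand_jqNModC, castExpand_jqModC, map_zero] at h

end baseChange

end Fermat.Agent.S37.Deg
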