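/-
S28 Route H: the PRIME CASE (Igusa at prime level, via the modular unit).
For a field `K` in which `p ≠ 0`: `j(q^p) ∉ K(j)`.

Proof: if `j_p ∈ K(j)` then by the Lagrange relation `η ∈ K(j)`; `η` is integral over `K[j]`,
which is integrally closed, so `η = P(j)` for a polynomial `P`; but `η = p^12 q^(p-1) (1 + …)`
has positive `q`-order and is nonzero, whereas a nonzero polynomial in `j` has order `≤ 0`.
-/
import Fermat.Agent.S37.Deg.Base

set_option autoImplicit false

noncomputable section

namespace Fermat.Agent.S37.Deg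

open ModularCurve Polynomial

/-! ### `q ↦ q^p` on power series -/

/-- `f(q) ↦ f(q^p)` on power series. -/
def psExpand {R : Type*} [CommRing R] (p : ℕ) (f : PowerSeries R) : PowerSeries R :=
  PowerSeries.mk fun n => if p ∣ n then PowerSeries.coeff (n / p) f else 0

theorem constantCoeff_psExpand {R : Type*} [CommRing R] (p : ℕ) (f : PowerSeries R) :
    PowerSeries.constantCoeff (psExpand p f) = PowerSeries.constantCoeff f := by
  rw [← PowerSeries.coeff_zero_eq_constantCoeff_apply, psExpand, PowerSeries.coeff_mk]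
  simp

theorem qExpand_ofPowerSeries {R : Type*} [CommRing R] (p : ℕ) [NeZero p] (f : PowerSeries R) :
    qExpand R p (HahnSeries.ofPowerSeries ℤ R f) = HahnSeries.ofPowerSeries ℤ R (psExpand p f) := by
  have hp0 : p ≠ 0 := NeZero.ne p
  ext k
  rcases lt_or_ge k 0 with hk | hk
  · rw [ofPowerSeries_coeff_of_neg _ hk]
    by_cases hd : (p : ℤ) ∣ k
    · obtain ⟨k', rfl⟩ := hd
      have hk' : k' < 0 := by
        by_contra h
        exact absurd hk (not_lt.mpr (mul_nonneg (Int.natCast_nonneg p) (not_lt.mp h)))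
      rw [qExpand_coeff_mul, ofPowerSeries_coeff_of_neg _ hk']
    · exact qExpand_coeff_of_not_dvd p _ hd
  · lift k to ℕ using hk
    rw [HahnSeries.ofPowerSeries_apply_coeff, psExpand, PowerSeries.coeff_mk]
    by_cases hd : p ∣ k
    · obtain ⟨k', rfl⟩ := hd
      rw [if_pos (dvd_mul_right p k'), Nat.mul_div_cancel_left _ (Nat.pos_of_ne_zero hp0),
        Nat.cast_mul, qExpand_coeff_mul, HahnSeries.ofPowerSeries_apply_coeff]
    · rw [if_neg hd]
      exact qExpand_coeff_of_not_dvd p _ (fun h => hd (Int.natCast_dvd_natCast.mp h))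

/-! ### The modular unit -/

/-- The modular unit as a power series. -/
def etaUnitPS (p : ℕ) : PowerSeries ℤ :=
  (p : PowerSeries ℤ) ^ 12 * (PowerSeries.X ^ (p - 1) *
    (psExpand p dedekindEtaUnit * dedekindEtaUnitInv))

theorem etaUnitZ_eq (p : ℕ) [NeZero p] :
    etaUnitZ p = HahnSeries.ofPowerSeries ℤ ℤ (etaUnitPS p) := by
  have hp1 : ((p - 1 : ℕ) : ℤ) = (p : ℤ) - 1 := by
    have : 1 ≤ p := Nat.one_le_iff_ne_zero.mpr (NeZero.ne p)
    push_cast [this]; ring
  rw [etaUnitZ, etaUnitPS, qExpand_ofPowerSeries, map_mul, map_mul, map_mul, map_pow, map_natCast,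
    HahnSeries.ofPowerSeries_X_pow, hp1, mul_assoc]

theorem coeff_etaUnitPS_of_lt (p : ℕ) {n : ℕ} (hn : n < p - 1) :
    PowerSeries.coeff n (etaUnitPS p) = 0 := by
  have e : (p : PowerSeries ℤ) ^ 12 = PowerSeries.C ((p : ℤ) ^ 12) := by
    rw [map_pow, map_natCast]
  rw [etaUnitPS, e, PowerSeries.coeff_C_mul, PowerSeries.coeff_X_pow_mul', if_neg (not_le.mpr hn),
    mul_zero]

theorem coeff_etaUnitPS_self (p : ℕ) :
    PowerSeries.coeff (p - 1) (etaUnitPS p) = (p : ℤ) ^ 12 := by
  have e : (p : PowerSeries ℤ) ^ 12 = PowerSeries.C ((p : ℤ) ^ 12) := by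
    rw [map_pow, map_natCast]
  rw [etaUnitPS, e, PowerSeries.coeff_C_mul, PowerSeries.coeff_X_pow_mul', if_pos le_rfl,
    Nat.sub_self, PowerSeries.coeff_zero_eq_constantCoeff_apply, map_mul, constantCoeff_psExpand,
    constantCoeff_dedekindEtaUnit, constantCoeff_dedekindEtaUnitInv, mul_one, mul_one]

/-- The modular unit over a commutative ring `R`. -/
def etaUnit (R : Type*) [CommRing R] (p : ℕ) [NeZero p] : LaurentSeries R :=
  coeffMap (Int.castRingHom R) (etaUnitZ p)

theorem etaUnit_coeff_of_lt (R : Type*) [CommRing R] (p : ℕ) [NeZero p] {k : ℤ}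
    (hk : k < (p : ℤ) - 1) : (etaUnit R p).coeff k = 0 := by
  rw [etaUnit, etaUnitZ_eq, coeffMap_ofPowerSeries]
  rcases lt_or_ge k 0 with hk0 | hk0
  · exact ofPowerSeries_coeff_of_neg _ hk0
  · lift k to ℕ using hk0
    rw [HahnSeries.ofPowerSeries_apply_coeff, PowerSeries.coeff_map, coeff_etaUnitPS_of_lt, map_zero]
    omega

theorem etaUnit_coeff_self (R : Type*) [CommRing R] (p : ℕ) [NeZero p] :
    (etaUnit R p).coeff ((p : ℤ) - 1) = (p : R) ^ 12 := by
  have hp1 : ((p - 1 : ℕ) : ℤ) = (p : ℤ) - 1 := by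
    have : 1 ≤ p := Nat.one_le_iff_ne_zero.mpr (NeZero.ne p)
    push_cast [this]; ring
  rw [etaUnit, etaUnitZ_eq, coeffMap_ofPowerSeries, ← hp1, HahnSeries.ofPowerSeries_apply_coeff,
    PowerSeries.coeff_map, coeff_etaUnitPS_self]
  simp

/-! ### Polynomials in `j` -/

theorem algebraMap_laurent_eq_C (K : Type*) [CommRing K] (c : K) :
    algebraMap K (LaurentSeries K) c = HahnSeries.C c := by
  have h1 : algebraMap K (PowerSeries K) c = PowerSeries.C c := by simp
  rw [HahnSeries.algebraMap_apply', h1, HahnSeries.ofPowerSeries_C]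

theorem algebra_smul_coeff (K : Type*) [CommRing K] (c : K) (f : LaurentSeries K) (k : ℤ) :
    (@HSMul.hSMul K (LaurentSeries K) (LaurentSeries K) (@instHSMul _ _ Algebra.toSMul) c f).coeff k
      = c * f.coeff k := by
  rw [Algebra.smul_def, algebraMap_laurent_eq_C, HahnSeries.C_mul_eq_smul, HahnSeries.coeff_smul]
  rfl

theorem coeff_aeval_jqModC (K : Type*) [CommRing K] (P : K[X]) :
    (aeval (jqModC K) P).coeff (-(P.natDegree : ℤ)) = P.leadingCoeff := by
  rw [aeval_eq_sum_range, HahnSeries.coeff_sum, Finset.sum_range_succ,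
    Finset.sum_eq_zero, zero_add, algebra_smul_coeff, coeff_jqModC_pow_self,
    mul_one, leadingCoeff]
  intro i hi
  have hi' : i < P.natDegree := Finset.mem_range.mp hi
  rw [algebra_smul_coeff, coeff_jqModC_pow_of_lt, mul_zero]
  exact neg_lt_neg (by exact_mod_cast hi')

theorem aeval_jqModC_ne_zero (K : Type*) [CommRing K] {P : K[X]} (hP : P ≠ 0) :
    aeval (jqModC K) P ≠ 0 := by
  intro h
  have := coeff_aeval_jqModC K P
  rw [h, HahnSeries.coeff_zero] at this
  exact hP (leadingCoeff_eq_zero.mp this.symm)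

theorem aeval_jqModC_injective (K : Type*) [CommRing K] :
    Function.Injective (aeval (jqModC K) : K[X] →ₐ[K] LaurentSeries K) := by
  rw [injective_iff_map_eq_zero]
  intro P hP
  by_contra h
  exact aeval_jqModC_ne_zero K h hP

/-! ### The prime case -/

theorem ev2_mem_subring {A : Type*} [CommRing A] (S : Subring A) {x y : A} (hx : x ∈ S)
    (hy : y ∈ S) (P : ℤ[X][X]) : ev2 x y P ∈ S := by
  have h := map_ev2 S.subtype ⟨x, hx⟩ ⟨y, hy⟩ P
  simp only [Subring.coe_subtype] at h
  rw [← h]
  exact (ev2 (⟨x, hx⟩ : S) ⟨y, hy⟩ P).2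

/-- **Prime case.** Over a field in which `p ≠ 0` (`p ≥ 2`), `j(q^p)` is not a rational
function of `j`. -/
theorem jqN_prime_not_mem_adjoin (p : ℕ) [NeZero p] (hp : 2 ≤ p) (D : PrimeLevelData p)
    (K : Type*) [Field K] (hpK : (p : K) ≠ 0) :
    jqNModC K p ∉ IntermediateField.adjoin K {jqModC K} := by
  intro hmem
  set J : LaurentSeries K := jqModC K with hJ
  set Jp : LaurentSeries K := jqNModC K p with hJp
  set η : LaurentSeries K := etaUnit K p with hη
  have hcJ : coeffMap (Int.castRingHom K) (jqModC ℤ) = J := coeffMap_jqModC _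
  have hcJp : coeffMap (Int.castRingHom K) (jqNModC ℤ p) = Jp := coeffMap_jqNModC _ p
  -- the identities over `K`
  have hH : ev2 η J D.H = 0 := by
    have h := congrArg (coeffMap (Int.castRingHom K)) D.root_eta
    rwa [map_ev2, hcJ, map_zero] at h
  have hLag : η * ev2 Jp J (derivative D.Φ) = ev2 Jp J D.L := by
    have h := congrArg (coeffMap (Int.castRingHom K)) D.lagrange
    rwa [map_mul, map_ev2, map_ev2, hcJ, hcJp] at h
  have hder : (ev2 Jp J (derivative D.Φ)).coeff (-((p : ℤ) ^ 2)) = 1 := by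
    have h := congrArg (Int.castRingHom K) D.deriv_coeff
    rw [← coeffMap_coeff, map_ev2, hcJ, hcJp] at h
    simpa using h
  have hder0 : ev2 Jp J (derivative D.Φ) ≠ 0 := by
    intro h
    rw [h, HahnSeries.coeff_zero] at hder
    exact zero_ne_one hder
  have hη0 : η ≠ 0 := by
    intro h
    have := etaUnit_coeff_self K p
    rw [← hη, h, HahnSeries.coeff_zero] at this
    exact pow_ne_zero 12 hpK this.symm
  -- `η ∈ K(j)`
  have hJmem : J ∈ IntermediateField.adjoin K {J} := IntermediateField.mem_adjoin_simple_self K J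
  have hηmem : η ∈ IntermediateField.adjoin K {J} := by
    have h1 : ev2 Jp J D.L ∈ (IntermediateField.adjoin K {J}).toSubring :=
      ev2_mem_subring _ hmem hJmem _
    have h2 : ev2 Jp J (derivative D.Φ) ∈ (IntermediateField.adjoin K {J}).toSubring :=
      ev2_mem_subring _ hmem hJmem _
    have h3 : η = ev2 Jp J D.L / ev2 Jp J (derivative D.Φ) := (eq_div_iff hder0).mpr hLag
    rw [h3]
    exact div_mem h1 h2
  obtain ⟨r, s, hrs⟩ := (IntermediateField.mem_adjoin_simple_iff K η).mp hηmem
  have hs : s ≠ 0 := by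
    rintro rfl
    rw [map_zero, div_zero] at hrs
    exact hη0 hrs
  -- the fraction field of `K[X]` embeds via `X ↦ j`
  let φ : K[X] →+* LaurentSeries K := (aeval J : K[X] →ₐ[K] LaurentSeries K).toRingHom
  have hφ : Function.Injective φ := aeval_jqModC_injective K
  let ψ : FractionRing K[X] →+* LaurentSeries K := IsFractionRing.lift hφ
  have hψ : ∀ a : K[X], ψ (algebraMap K[X] (FractionRing K[X]) a) = aeval J a :=
    fun a => IsFractionRing.lift_algebraMap hφ a
  set x : FractionRing K[X] :=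
    algebraMap K[X] (FractionRing K[X]) r / algebraMap K[X] (FractionRing K[X]) s with hx
  have hψx : ψ x = η := by rw [hx, map_div₀, hψ, hψ, hrs]
  have hint : IsIntegral K[X] x := by
    refine ⟨D.H.map (mapRingHom (Int.castRingHom K)), D.H_monic.map _, ?_⟩
    apply ψ.injective
    rw [map_zero, Polynomial.hom_eval₂, hψx, eval₂_map]
    have hcomp : (ψ.comp (algebraMap K[X] (FractionRing K[X]))).comp
        (mapRingHom (Int.castRingHom K)) = eval₂RingHom (Int.castRingHom (LaurentSeries K)) J := by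
      ext a
      · simp
      · simp [hψ]
    rw [hcomp]
    exact hH
  obtain ⟨P, hP⟩ := IsIntegrallyClosed.isIntegral_iff.mp hint
  have hηP : η = aeval J P := by rw [← hψx, ← hP, hψ]
  have hP0 : P ≠ 0 := by
    rintro rfl
    rw [map_zero] at hηP
    exact hη0 hηP
  have hc := coeff_aeval_jqModC K P
  rw [← hηP, hη, etaUnit_coeff_of_lt] at hc
  · exact hP0 (leadingCoeff_eq_zero.mp hc.symm)
  · have : (2 : ℤ) ≤ p := by exact_mod_cast hp
    have : (0 : ℤ) ≤ P.natDegree := Int.natCast_nonneg _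
    linarith

end Fermat.Agent.S37.Deg
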