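/-
S28 Route H support (helper471): the field `K(j) ⊆ K((q))` as the fraction field of `K[X]`
(`X ↦ j`), and positivity of `dedekindPsi`.  Used by `H/CharZero.lean` and `H/ModL.lean`.
-/
import Fermat.Agent.S37.Deg.PrimeCase

set_option autoImplicit false

noncomputable section

namespace Fermat.Agent.S37.Deg

open ModularCurve Polynomial IntermediateField

section FracJ

variable (K : Type) [Field K]

/-- `K(j)` inside `K((q))`. -/
abbrev fieldJ : IntermediateField K (LaurentSeries K) := IntermediateField.adjoin K {jqModC K}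

/-- the generator `j` of `K(j)`. -/
def genJ : fieldJ K := ⟨jqModC K, IntermediateField.mem_adjoin_simple_self K _⟩

theorem fieldJ_le_full (N : ℕ) [NeZero N] : fieldJ K ≤ modularFunctionFieldFullC K N := by
  rw [IntermediateField.adjoin_le_iff]
  exact Set.singleton_subset_iff.mpr (jqModC_mem_full K N)

/-- polynomials over `K` evaluated at `j`, with values in `K(j)`. -/
def polyJ : K[X] →+* fieldJ K := (aeval (genJ K) : K[X] →ₐ[K] fieldJ K).toRingHom

theorem coe_polyJ (P : K[X]) : ((polyJ K P : fieldJ K) : LaurentSeries K) = aeval (jqModC K) P := by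
  show ((aeval (genJ K) P : fieldJ K) : LaurentSeries K) = _
  rw [← IntermediateField.coe_val, ← aeval_algHom_apply]
  rfl

theorem polyJ_injective : Function.Injective (polyJ K) := by
  intro P Q h
  apply aeval_jqModC_injective K
  rw [← coe_polyJ, ← coe_polyJ, h]

theorem polyJ_surj (z : fieldJ K) : ∃ r s : K[X], z = polyJ K r / polyJ K s := by
  obtain ⟨r, s, hrs⟩ := (IntermediateField.mem_adjoin_simple_iff K (z : LaurentSeries K)).mp z.2
  refine ⟨r, s, Subtype.ext ?_⟩
  rw [IntermediateField.coe_div, coe_polyJ, coe_polyJ, hrs]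

end FracJ


theorem dedekindPsi_pos_of_neZero (N : ℕ) [NeZero N] : 0 < dedekindPsi N := by
  have hN : N ≠ 0 := NeZero.ne N
  have h1 : (1 : ℕ) ∈ N.divisors.filter Squarefree :=
    Finset.mem_filter.mpr ⟨Nat.one_mem_divisors.mpr hN, squarefree_one⟩
  have h2 : N / 1 ≤ dedekindPsi N :=
    Finset.single_le_sum (f := fun d => N / d) (fun _ _ => Nat.zero_le _) h1
  rw [Nat.div_one] at h2
  exact lt_of_lt_of_le (Nat.pos_of_ne_zero hN) h2

end Fermat.Agent.S37.Deg
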