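/-
S28 Route H, piece T-D3 (helper471): characteristic `ℓ`.  From the degree theorem over a field `K`
(`relfinrank_modularFunctionFieldFullC`, taken as a hypothesis `hT`) there are `ψ(N)` elements of
`ℤ[j(q^d) : d ∣ N]` whose images in `K((q))` are linearly independent over `K[j]`.
For `K = ZMod ℓ` the conclusion is verbatim that of `modL_independent` in helper6508's
`H/Skeleton.lean`.

Proof: `E = K(j)(j_d : d ∣ N)` is finite over `K(j)`, so it is spanned over `K(j)` by the monomials
in the `j_d`; extract a basis from the monomials and lift each monomial to `ℤ((q))`.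
-/
import Fermat.Agent.S37.Deg.FieldJ

set_option autoImplicit false

noncomputable section

namespace Fermat.Agent.S37.Deg

open ModularCurve Polynomial IntermediateField

section ModL

/-- The integral generators `j(q^d)`, `d ∣ N`. -/
def gensZ (N : ℕ) : Set (LaurentSeries ℤ) :=
  {x | ∃ (d : ℕ) (_ : NeZero d), d ∣ N ∧ x = jqNModC ℤ d}

theorem coeffMap_image_gensZ (K : Type) [Field K] (N : ℕ) :
    (coeffMap (Int.castRingHom K)) '' gensZ N = divisorExpansionsC K N := by
  ext x
  constructor
  · rintro ⟨y, ⟨d, hd, hdN, rfl⟩, rfl⟩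
    exact ⟨d, hd, hdN, by rw [coeffMap_jqNModC]; rfl⟩
  · rintro ⟨d, hd, hdN, rfl⟩
    exact ⟨jqNModC ℤ d, ⟨d, hd, hdN, rfl⟩, by rw [coeffMap_jqNModC]; rfl⟩

/-- Over any field `K` for which the degree theorem holds at level `N`: there are `ψ(N)` elements
of `ℤ[j(q^d) : d ∣ N]` whose images in `K((q))` are linearly independent over `K[j]`. -/
theorem exists_independent_of_relfinrank (K : Type) [Field K] (N : ℕ) [NeZero N]
    (hT : (IntermediateField.adjoin K {jqModC K}).relfinrank (modularFunctionFieldFullC K N) =
      dedekindPsi N) :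
    ∃ y : Fin (dedekindPsi N) → LaurentSeries ℤ,
      (∀ i, y i ∈ Subring.closure (gensZ N)) ∧
      ∀ c : Fin (dedekindPsi N) → K[X],
        ∑ i, aeval (jqModC K) (c i) * coeffMap (Int.castRingHom K) (y i) = 0 → ∀ i, c i = 0 := by
  classical
  have h := fieldJ_le_full K N
  set E : IntermediateField (fieldJ K) (LaurentSeries K) := IntermediateField.extendScalars h
    with hE
  have hfin : Module.finrank (fieldJ K) E = dedekindPsi N := by
    rw [← IntermediateField.relfinrank_eq_finrank_of_le h]
    exact hT
  have hFree : Module.Free (fieldJ K) E := Module.Free.of_divisionRing (fieldJ K) E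
  have hFD : Module.Finite (fieldJ K) E :=
    Module.finite_of_finrank_pos (by rw [hfin]; exact dedekindPsi_pos_of_neZero N)
  have hAlg : Algebra.IsAlgebraic (fieldJ K) E := Algebra.IsAlgebraic.of_finite (fieldJ K) E
  set gens : Set (LaurentSeries K) := divisorExpansionsC K N with hgens
  have hEadj : E = IntermediateField.adjoin (fieldJ K) gens :=
    IntermediateField.extendScalars_adjoin h
  have halg : ∀ x ∈ gens, IsAlgebraic (fieldJ K) x := by
    intro x hx
    have hxE : x ∈ E := by
      rw [hEadj]
      exact IntermediateField.subset_adjoin _ _ hx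
    have := (Algebra.IsAlgebraic.isAlgebraic (R := fieldJ K) (⟨x, hxE⟩ : E))
    exact (isAlgebraic_algebraMap_iff (A := LaurentSeries K)
      (algebraMap E (LaurentSeries K)).injective (a := (⟨x, hxE⟩ : E))).mpr this
  have hspan : Subalgebra.toSubmodule E.toSubalgebra =
      Submodule.span (fieldJ K) (Submonoid.closure gens : Set (LaurentSeries K)) := by
    rw [hEadj, IntermediateField.adjoin_toSubalgebra_of_isAlgebraic halg, Algebra.adjoin_eq_span]
  obtain ⟨b, hbM, hbspan, hbli⟩ := exists_linearIndependent (fieldJ K)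
    (Submonoid.closure gens : Set (LaurentSeries K))
  have hrank : Module.rank (fieldJ K) (Submodule.span (fieldJ K) b) = (dedekindPsi N : Cardinal) := by
    rw [hbspan, ← hspan, ← hfin]
    exact (Module.finrank_eq_rank (fieldJ K) E).symm
  have hcard : Cardinal.mk b = (dedekindPsi N : Cardinal) := by
    rw [← hrank]
    exact (rank_span_set hbli).symm
  obtain ⟨e⟩ := Cardinal.mk_eq_nat_iff.mp hcard
  have hli : LinearIndependent (fieldJ K) (fun i : Fin (dedekindPsi N) => ((e.symm i : b) : LaurentSeries K)) :=
    hbli.comp e.symm e.symm.injective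
  have hlift : ∀ i : Fin (dedekindPsi N), ∃ y ∈ Subring.closure (gensZ N),
      coeffMap (Int.castRingHom K) y = ((e.symm i : b) : LaurentSeries K) := by
    intro i
    have hmem : ((e.symm i : b) : LaurentSeries K) ∈ Submonoid.closure gens := hbM (e.symm i).2
    rw [hgens, ← coeffMap_image_gensZ K N, ← MonoidHom.map_mclosure] at hmem
    obtain ⟨y, hy, hyx⟩ := hmem
    refine ⟨y, ?_, hyx⟩
    exact (Submonoid.closure_le (S := (Subring.closure (gensZ N)).toSubmonoid)).mpr
      Subring.subset_closure hy
  choose y hyS hy using hlift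
  refine ⟨y, hyS, ?_⟩
  intro c hc i
  have hzero : ∑ i, polyJ K (c i) • ((e.symm i : b) : LaurentSeries K) = 0 := by
    rw [← hc]
    refine Finset.sum_congr rfl fun i _ => ?_
    rw [hy i, ← coe_polyJ]
    rfl
  have := Fintype.linearIndependent_iff.mp hli (fun i => polyJ K (c i)) hzero i
  exact polyJ_injective K (by rw [this, map_zero])

/-- (T-D3), from the degree theorem over `𝔽_ℓ`: there are `ψ(N)` elements of
`ℤ[j(q^d) : d ∣ N]` whose reductions mod `ℓ` are linearly independent over `𝔽_ℓ[j̄]`.
The conclusion is verbatim that of `modL_independent` in `H/Skeleton.lean`. -/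
theorem modL_independent_of_relfinrank (N : ℕ) [NeZero N] (ℓ : ℕ) [Fact ℓ.Prime]
    (hT : (IntermediateField.adjoin (ZMod ℓ) {jqModC (ZMod ℓ)}).relfinrank
      (modularFunctionFieldFullC (ZMod ℓ) N) = dedekindPsi N) :
    ∃ y : Fin (dedekindPsi N) → LaurentSeries ℤ,
      (∀ i, y i ∈ Subring.closure
        {x : LaurentSeries ℤ | ∃ (d : ℕ) (_ : NeZero d), d ∣ N ∧ x = jqNModC ℤ d}) ∧
      ∀ c : Fin (dedekindPsi N) → Polynomial (ZMod ℓ),
        ∑ i, Polynomial.aeval (jqModC (ZMod ℓ)) (c i) *
          coeffMap (Int.castRingHom (ZMod ℓ)) (y i) = 0 → ∀ i, c i = 0 :=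
  exists_independent_of_relfinrank (ZMod ℓ) N hT

end ModL

end Fermat.Agent.S37.Deg
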