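/-
S28 Route H, WP5 (`exists_primeLevelData`), part 2: abstract algebra.

For a finite family of "conjugate pairs" `(u i, v i)` in a commutative ring `A` whose mixed power
sums `∑ i, u i ^ a * v i ^ b` lie in a subring `S` (closed under division by positive integers):
* the coefficients of `∏ (X - C (u i))` lie in `S` (Newton identities);
* if `∏ u i` is invertible in `S` and `v i = x i * u i`, then the power sums of the `x i` and the
  sums `∑ i, u i * x i ^ k` lie in `S`, hence so do the coefficients of `Φ = ∏ (X - C (x i))` and of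
  the Lagrange numerator `L = ∑ i, C (u i) * Φ /ₘ (X - C (x i))`;
* `L(x i₀) = u i₀ * Φ'(x i₀)` when `x i₀` differs from the other `x i` (domain).
(helper2872)
-/
import Mathlib

set_option autoImplicit false

noncomputable section

namespace Fermat.Agent.S37.Deg.PL

open Polynomial

variable {A : Type*} [CommRing A]

/-- Newton identities: if the power sums of a finite family lie in a subring closed under division
by positive integers, so do its elementary symmetric functions. -/
theorem esymm_mem_of_psum_mem (S : Subring A)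
    (hdiv : ∀ (n : ℕ) (x : A), 0 < n → (n : A) * x ∈ S → x ∈ S)
    {σ : Type*} [Fintype σ] (w : σ → A)
    (hps : ∀ k : ℕ, 0 < k → ∑ i, w i ^ k ∈ S) (k : ℕ) :
    (Finset.univ.val.map w).esymm k ∈ S := by
  induction k using Nat.strong_induction_on with
  | _ k ih =>
    rcases Nat.eq_zero_or_pos k with rfl | hk
    · simp [Multiset.esymm, Multiset.powersetCard_zero_left]
    · refine hdiv k _ hk ?_
      have h := congrArg (MvPolynomial.aeval (R := ℤ) w) (MvPolynomial.mul_esymm_eq_sum σ ℤ k)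
      rw [map_mul, map_natCast, MvPolynomial.aeval_esymm_eq_multiset_esymm, map_mul, map_pow,
        map_neg, map_one, map_sum] at h
      rw [h]
      refine mul_mem (pow_mem (neg_mem (one_mem S)) _) (Subring.sum_mem _ fun a ha => ?_)
      rw [Finset.mem_filter, Finset.HasAntidiagonal.mem_antidiagonal] at ha
      rw [map_mul, map_mul, map_pow, map_neg, map_one,
        MvPolynomial.aeval_esymm_eq_multiset_esymm]
      refine mul_mem (mul_mem (pow_mem (neg_mem (one_mem S)) _) (ih a.1 ha.2)) ?_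
      have hps' : MvPolynomial.aeval (R := ℤ) w (MvPolynomial.psum σ ℤ a.2) = ∑ i, w i ^ a.2 := by
        simp [MvPolynomial.psum]
      rw [hps']
      exact hps a.2 (by omega)

/-- The coefficients of `∏ (X - C (w i))` are, up to sign, elementary symmetric functions. -/
theorem coeff_prod_X_sub_C_mem (S : Subring A) {σ : Type*} [Fintype σ] (w : σ → A)
    (h : ∀ k, (Finset.univ.val.map w).esymm k ∈ S) (n : ℕ) :
    (∏ i, (X - C (w i))).coeff n ∈ S := by
  have e : (∏ i, (X - C (w i))) =
      ((Finset.univ.val.map w).map (fun t => X - C t)).prod := by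
    rw [Finset.prod_eq_multiset_prod, Multiset.map_map]
    rfl
  rw [e, Multiset.prod_X_sub_X_eq_sum_esymm, finsetSum_coeff]
  refine Subring.sum_mem _ fun j _ => ?_
  have e2 : ((-1 : A[X]) ^ j) = C ((-1 : A) ^ j) := by simp
  rw [e2, ← mul_assoc, ← C_mul, coeff_C_mul_X_pow]
  split_ifs
  · exact mul_mem (pow_mem (neg_mem (one_mem S)) _) (h j)
  · exact zero_mem S

/-- Coefficients of `∏ (X - C (w i))` from power sums. -/
theorem coeff_prod_X_sub_C_mem_of_psum (S : Subring A)
    (hdiv : ∀ (n : ℕ) (x : A), 0 < n → (n : A) * x ∈ S → x ∈ S)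
    {σ : Type*} [Fintype σ] (w : σ → A)
    (hps : ∀ k : ℕ, 0 < k → ∑ i, w i ^ k ∈ S) (n : ℕ) :
    (∏ i, (X - C (w i))).coeff n ∈ S :=
  coeff_prod_X_sub_C_mem S w (esymm_mem_of_psum_mem S hdiv w hps) n

theorem coeff_zero_prod_X_sub_C {σ : Type*} [Fintype σ] (w : σ → A) :
    (∏ i, (X - C (w i))).coeff 0 = (-1) ^ Fintype.card σ * ∏ i, w i := by
  rw [coeff_zero_eq_eval_zero, eval_prod]
  simp only [eval_sub, eval_X, eval_C, zero_sub]
  rw [Finset.prod_neg]
  rfl

/-- The product of the family lies in `S`. -/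
theorem prod_mem_of_psum_mem (S : Subring A)
    (hdiv : ∀ (n : ℕ) (x : A), 0 < n → (n : A) * x ∈ S → x ∈ S)
    {σ : Type*} [Fintype σ] (w : σ → A)
    (hps : ∀ k : ℕ, 0 < k → ∑ i, w i ^ k ∈ S) : ∏ i, w i ∈ S := by
  have h := coeff_prod_X_sub_C_mem_of_psum S hdiv w hps 0
  rw [coeff_zero_prod_X_sub_C] at h
  have h2 := mul_mem (pow_mem (neg_mem (one_mem S)) (Fintype.card σ)) h
  rwa [← mul_assoc, ← mul_pow, neg_one_mul, neg_neg, one_pow, one_mul] at h2

/-- Polynomials with coefficients in `S`: closure under multiplication. -/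
theorem coeff_mul_mem (S : Subring A) {P Q : A[X]} (hP : ∀ n, P.coeff n ∈ S)
    (hQ : ∀ n, Q.coeff n ∈ S) (n : ℕ) : (P * Q).coeff n ∈ S := by
  rw [coeff_mul]
  exact Subring.sum_mem _ fun ij _ => mul_mem (hP _) (hQ _)

theorem coeff_pow_mem (S : Subring A) {P : A[X]} (hP : ∀ n, P.coeff n ∈ S) (k n : ℕ) :
    (P ^ k).coeff n ∈ S := by
  induction k generalizing n with
  | zero =>
    rw [pow_zero, coeff_one]
    split_ifs
    · exact one_mem S
    · exact zero_mem S
  | succ k ih =>
    rw [pow_succ]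
    exact coeff_mul_mem S ih hP n

theorem coeff_prod_mem (S : Subring A) {ι : Type*} (s : Finset ι) (P : ι → A[X])
    (hP : ∀ i ∈ s, ∀ n, (P i).coeff n ∈ S) (n : ℕ) : (∏ i ∈ s, P i).coeff n ∈ S := by
  classical
  induction s using Finset.induction_on generalizing n with
  | empty =>
    rw [Finset.prod_empty, coeff_one]
    split_ifs
    · exact one_mem S
    · exact zero_mem S
  | insert a s ha ih =>
    rw [Finset.prod_insert ha]
    exact coeff_mul_mem S (hP a (Finset.mem_insert_self a s))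
      (fun m => ih (fun i hi => hP i (Finset.mem_insert_of_mem hi)) m) n

theorem coeff_X_sub_C_mem (S : Subring A) {w : A} (hw : w ∈ S) (n : ℕ) :
    (X - C w : A[X]).coeff n ∈ S := by
  rw [coeff_sub, coeff_X, coeff_C]
  refine sub_mem ?_ ?_
  · split_ifs
    · exact one_mem S
    · exact zero_mem S
  · split_ifs
    · exact hw
    · exact zero_mem S

/-- Mixed sums against a polynomial with coefficients in `S`. -/
theorem sum_mul_eval_mem (S : Subring A) {σ : Type*} [Fintype σ] (u v : σ → A)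
    (hmix : ∀ a b : ℕ, ∑ i, u i ^ a * v i ^ b ∈ S)
    (W : A[X]) (hW : ∀ n, W.coeff n ∈ S) (a b : ℕ) :
    ∑ i, u i ^ a * v i ^ b * W.eval (u i) ∈ S := by
  have e : ∑ i, u i ^ a * v i ^ b * W.eval (u i) =
      ∑ n ∈ Finset.range (W.natDegree + 1), W.coeff n * ∑ i, u i ^ (a + n) * v i ^ b := by
    simp_rw [eval_eq_sum_range, Finset.mul_sum]
    rw [Finset.sum_comm]
    refine Finset.sum_congr rfl fun n _ => Finset.sum_congr rfl fun i _ => ?_
    rw [pow_add]; ring
  rw [e]
  exact Subring.sum_mem _ fun n _ => mul_mem (hW n) (hmix _ _)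

section Pairs

variable (S : Subring A)
  (hdiv : ∀ (n : ℕ) (x : A), 0 < n → (n : A) * x ∈ S → x ∈ S)
  {σ : Type*} [Fintype σ] (u v x : σ → A)
  (hmix : ∀ a b : ℕ, ∑ i, u i ^ a * v i ^ b ∈ S)
  (hvx : ∀ i, v i = x i * u i)
  (s : A) (hs : s ∈ S) (hprod : (∏ i, u i) * s = 1)

include hdiv hmix in
theorem coeff_prodU_mem (n : ℕ) : (∏ i, (X - C (u i))).coeff n ∈ S :=
  coeff_prod_X_sub_C_mem_of_psum S hdiv u (fun k _ => by simpa using hmix k 0) n

include hdiv hmix hvx hs hprod in
/-- Key expression of `x i` through `u i` and `v i`: there are `W ∈ S[X]` and `c ∈ S` with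
`x i = v i * W(u i) * c` for all `i`. -/
theorem exists_inv_poly :
    ∃ (W : A[X]) (c : A), (∀ n, W.coeff n ∈ S) ∧ c ∈ S ∧ ∀ i, x i = v i * W.eval (u i) * c := by
  set G : A[X] := ∏ i, (X - C (u i)) with hG
  have hGc : ∀ n, G.coeff n ∈ S := coeff_prodU_mem S hdiv u v hmix
  refine ⟨G.divX, -((-1) ^ Fintype.card σ * s), fun n => by rw [coeff_divX]; exact hGc _,
    neg_mem (mul_mem (pow_mem (neg_mem (one_mem S)) _) hs), fun i => ?_⟩
  have hroot : G.eval (u i) = 0 := by
    rw [hG, eval_prod]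
    exact Finset.prod_eq_zero (Finset.mem_univ i) (by simp)
  have hdec : G.divX.eval (u i) * u i + G.coeff 0 = 0 := by
    have h := congrArg (eval (u i)) (divX_mul_X_add G)
    rw [eval_add, eval_mul, eval_X, eval_C, hroot] at h
    exact h
  have h0 : G.coeff 0 = (-1) ^ Fintype.card σ * ∏ i, u i := coeff_zero_prod_X_sub_C u
  have hsq : ((-1 : A) ^ Fintype.card σ) * ((-1) ^ Fintype.card σ) = 1 := by
    rw [← mul_pow]; simp
  -- `u i * (W(u i) * c) = 1`
  have hinv : u i * (G.divX.eval (u i) * -((-1) ^ Fintype.card σ * s)) = 1 := by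
    have h1 : G.divX.eval (u i) * u i = -((-1) ^ Fintype.card σ * ∏ i, u i) := by
      rw [← h0]; exact eq_neg_of_add_eq_zero_left hdec
    calc u i * (G.divX.eval (u i) * -((-1) ^ Fintype.card σ * s))
        = -(G.divX.eval (u i) * u i) * ((-1) ^ Fintype.card σ * s) := by ring
      _ = ((-1 : A) ^ Fintype.card σ * (-1) ^ Fintype.card σ) * ((∏ i, u i) * s) := by
          rw [h1]; ring
      _ = 1 := by rw [hsq, hprod, one_mul]
  calc x i = x i * (u i * (G.divX.eval (u i) * -((-1) ^ Fintype.card σ * s))) := by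
        rw [hinv, mul_one]
    _ = v i * G.divX.eval (u i) * -((-1) ^ Fintype.card σ * s) := by rw [hvx i]; ring

include hdiv hmix hvx hs hprod in
/-- The sums `∑ i, u i ^ a * x i ^ k` lie in `S`. -/
theorem sum_pow_mul_pow_mem (a k : ℕ) : ∑ i, u i ^ a * x i ^ k ∈ S := by
  obtain ⟨W, c, hW, hc, hx⟩ := exists_inv_poly S hdiv u v x hmix hvx s hs hprod
  have e : ∑ i, u i ^ a * x i ^ k = c ^ k * ∑ i, u i ^ a * v i ^ k * (W ^ k).eval (u i) := by
    rw [Finset.mul_sum]
    refine Finset.sum_congr rfl fun i _ => ?_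
    rw [eval_pow]
    conv_lhs => rw [hx i]
    ring
  rw [e]
  exact mul_mem (pow_mem hc k) (sum_mul_eval_mem S u v hmix (W ^ k) (coeff_pow_mem S hW k) a k)

include hdiv hmix hvx hs hprod in
theorem coeff_prodX_mem (n : ℕ) : (∏ i, (X - C (x i))).coeff n ∈ S :=
  coeff_prod_X_sub_C_mem_of_psum S hdiv x
    (fun k _ => by simpa using sum_pow_mul_pow_mem S hdiv u v x hmix hvx s hs hprod 0 k) n

/-- The Lagrange numerator `∑ i, u i * ∏_{j ≠ i} (X - x j)`. -/
def lagrangeNum (u x : σ → A) : A[X] :=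
  ∑ i, C (u i) * ((∏ j, (X - C (x j))) /ₘ (X - C (x i)))

theorem coeff_lagrangeNum (n : ℕ) :
    (lagrangeNum u x).coeff n =
      ∑ j ∈ Finset.Icc (n + 1) (∏ j, (X - C (x j))).natDegree,
        (∏ j, (X - C (x j))).coeff j * ∑ i, u i ^ 1 * x i ^ (j - (n + 1)) := by
  rw [lagrangeNum, finsetSum_coeff]
  simp_rw [coeff_C_mul, coeff_divByMonic_X_sub_C, Finset.mul_sum]
  rw [Finset.sum_comm]
  refine Finset.sum_congr rfl fun j _ => Finset.sum_congr rfl fun i _ => ?_
  ring

include hdiv hmix hvx hs hprod in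
theorem coeff_lagrangeNum_mem (n : ℕ) : (lagrangeNum u x).coeff n ∈ S := by
  rw [coeff_lagrangeNum]
  exact Subring.sum_mem _ fun j _ =>
    mul_mem (coeff_prodX_mem S hdiv u v x hmix hvx s hs hprod j)
      (sum_pow_mul_pow_mem S hdiv u v x hmix hvx s hs hprod 1 _)

theorem divByMonic_mul_self (i : σ) :
    (X - C (x i)) * ((∏ j, (X - C (x j))) /ₘ (X - C (x i))) = ∏ j, (X - C (x j)) := by
  rw [mul_divByMonic_eq_iff_isRoot, IsRoot, eval_prod]
  exact Finset.prod_eq_zero (Finset.mem_univ i) (by simp)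

/-- Lagrange interpolation: `L(x i₀) = u i₀ * Φ'(x i₀)` when `x i₀` is a simple root. -/
theorem eval_lagrangeNum [IsDomain A] (i₀ : σ) (hne : ∀ i, i ≠ i₀ → x i ≠ x i₀) :
    (lagrangeNum u x).eval (x i₀) =
      u i₀ * (derivative (∏ j, (X - C (x j)))).eval (x i₀) := by
  classical
  rw [lagrangeNum, eval_finsetSum, Finset.sum_eq_single i₀]
  · rw [eval_mul, eval_C]
    congr 1
    have h := congrArg (fun P => (derivative P).eval (x i₀)) (divByMonic_mul_self x i₀)
    simp only [derivative_mul, derivative_sub, derivative_X, derivative_C, sub_zero, one_mul,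
      eval_add, eval_mul, eval_sub, eval_X, eval_C, sub_self, zero_mul, add_zero] at h
    exact h
  · intro i _ hi
    have hz : eval (x i₀) (∏ j, (X - C (x j))) = 0 := by
      rw [eval_prod]
      exact Finset.prod_eq_zero (Finset.mem_univ i₀) (by simp)
    have h := congrArg (eval (x i₀)) (divByMonic_mul_self x i)
    rw [hz, eval_mul, eval_sub, eval_X, eval_C] at h
    rcases mul_eq_zero.mp h with h1 | h1
    · exact absurd (sub_eq_zero.mp h1).symm (hne i hi)
    · rw [eval_mul, h1, mul_zero]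
  · intro h; exact absurd (Finset.mem_univ i₀) h

end Pairs

end Fermat.Agent.S37.Deg.PL
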