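/-
S28 Route H, WP5: `exists_primeLevelData` (the prime level interface of
`Fermat/Agent/S28/H/PrimeLevel.lean`, helper6508) proved from `hecke_levelOne_formal`.

Method (see notes/S28H_WP5_helper2872.md): conjugates over `ℂ((t))`, mixed power sums from the
level-one Hecke operator, Newton identities, Lagrange interpolation, descent of coefficients
from `ℚ[J] ∩ 𝒪((t))` to `ℤ[J]`, and transfer to `ℤ((q))` along injective ring homomorphisms.
(helper2872)
-/
import Fermat.Agent.S37.Deg.PLDescent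
import Fermat.Agent.S37.Deg.PLNewton
import Fermat.Agent.S37.Deg.PrimeLevel

set_option autoImplicit false

noncomputable section

namespace Fermat.Agent.S37.Deg.PL

open ModularCurve HahnSeries Polynomial

variable (p : ℕ) [NeZero p] (ζ : ℂˣ)

theorem single_mul_single' (a b c : ℤ) (r s t : ℂ) (h1 : a + b = c) (h2 : r * s = t) :
    HahnSeries.single a r * HahnSeries.single b s = HahnSeries.single c t := by
  rw [HahnSeries.single_mul_single, h1, h2]

/-! ### Integrality of the conjugates -/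

omit [NeZero p] in
theorem zpow_mem_OO (hp : p.Prime) (hζ : IsPrimitiveRoot ζ p) (b : ℕ) (n : ℤ) :
    (((ζ ^ b) ^ n : ℂˣ) : ℂ) ∈ OO := by
  rw [mem_OO]
  refine IsIntegral.of_pow hp.pos ?_
  have h1 : ((ζ ^ b) ^ n) ^ p = 1 := by
    rw [← zpow_natCast, ← zpow_mul, mul_comm, zpow_mul, zpow_natCast, ← pow_mul, mul_comm, pow_mul,
      hζ.pow_eq_one, one_pow, one_zpow]
  rw [← Units.val_pow_eq_pow_val, h1, Units.val_one]
  exact isIntegral_one

theorem Dl_mem_OL : Dl ∈ OL := psC_mem_OL _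

theorem Dinv_mem_OL : Dinv ∈ OL :=
  mul_mem (single_mem_coeffSubring OO (-1) (one_mem _)) (psC_mem_OL _)

omit [NeZero p] in
theorem tw_mem_OL (hp : p.Prime) (hζ : IsPrimitiveRoot ζ p) (b : ℕ) {f : LaurentSeries ℂ}
    (hf : f ∈ OL) : tw (ζ ^ b) f ∈ OL :=
  tw_mem_coeffSubring OO _ (zpow_mem_OO p ζ hp hζ b) hf

theorem uF_mem_OL (hp : p.Prime) (hζ : IsPrimitiveRoot ζ p) (i : Option (Fin p)) :
    uF p ζ i ∈ OL := by
  cases i with
  | none =>
    exact mul_mem (mul_mem (pow_mem (natCast_mem _ p) 12)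
      (qExpand_mem_coeffSubring OO p (qExpand_mem_coeffSubring OO p Dl_mem_OL)))
      (qExpand_mem_coeffSubring OO p Dinv_mem_OL)
  | some b =>
    exact mul_mem (tw_mem_OL p ζ hp hζ b Dl_mem_OL) (qExpand_mem_coeffSubring OO p Dinv_mem_OL)

theorem xF_mem_OL (hp : p.Prime) (hζ : IsPrimitiveRoot ζ p) (i : Option (Fin p)) :
    xF p ζ i ∈ OL := by
  cases i with
  | none => exact qExpand_mem_coeffSubring OO p (qExpand_mem_coeffSubring OO p Jt_mem_OL)
  | some b => exact tw_mem_OL p ζ hp hζ b Jt_mem_OL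

/-! ### The product of the unit conjugates is a nonzero constant -/

theorem uF_none_eq : uF p ζ none = HahnSeries.single ((p : ℤ) * p - p) (1 : ℂ) *
    ((p : LaurentSeries ℂ) ^ 12 * qExpand ℂ p (qExpand ℂ p (psC dedekindEtaUnit)) *
      qExpand ℂ p (psC dedekindEtaUnitInv)) := by
  have h : HahnSeries.single ((p : ℤ) * ((p : ℤ) * 1)) (1 : ℂ) * HahnSeries.single ((p : ℤ) * (-1)) 1
      = HahnSeries.single ((p : ℤ) * p - p) (1 : ℂ) :=
    single_mul_single' _ _ _ _ _ _ (by ring) (by ring)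
  show (p : LaurentSeries ℂ) ^ 12 * qExpand ℂ p (qExpand ℂ p Dl) * qExpand ℂ p Dinv = _
  rw [Dl_eq, Dinv, map_mul, map_mul, map_mul, qExpand_single, qExpand_single, qExpand_single, ← h]
  ring

theorem uF_some_eq (b : Fin p) : uF p ζ (some b) = HahnSeries.single (1 - (p : ℤ)) (1 : ℂ) *
    (HahnSeries.single 0 ((((ζ ^ (b : ℕ)) ^ (1 : ℤ) : ℂˣ) : ℂ) * 1) *
      tw (ζ ^ (b : ℕ)) (psC dedekindEtaUnit) * qExpand ℂ p (psC dedekindEtaUnitInv)) := by
  have h : HahnSeries.single (1 : ℤ) ((((ζ ^ (b : ℕ)) ^ (1 : ℤ) : ℂˣ) : ℂ) * 1) *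
      HahnSeries.single ((p : ℤ) * (-1)) (1 : ℂ) =
      HahnSeries.single (1 - (p : ℤ)) (1 : ℂ) *
        HahnSeries.single 0 ((((ζ ^ (b : ℕ)) ^ (1 : ℤ) : ℂˣ) : ℂ) * 1) := by
    rw [single_mul_single' (1 : ℤ) ((p : ℤ) * (-1)) (1 - (p : ℤ)) _ (1 : ℂ)
        ((((ζ ^ (b : ℕ)) ^ (1 : ℤ) : ℂˣ) : ℂ) * 1) (by ring) (by ring),
      single_mul_single' (1 - (p : ℤ)) 0 (1 - (p : ℤ)) (1 : ℂ) _
        ((((ζ ^ (b : ℕ)) ^ (1 : ℤ) : ℂˣ) : ℂ) * 1) (by ring) (by ring)]
  show tw (ζ ^ (b : ℕ)) Dl * qExpand ℂ p Dinv = _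
  rw [Dl_eq, Dinv, map_mul, map_mul, tw_single, qExpand_single]
  calc HahnSeries.single (1 : ℤ) ((((ζ ^ (b : ℕ)) ^ (1 : ℤ) : ℂˣ) : ℂ) * 1) *
        tw (ζ ^ (b : ℕ)) (psC dedekindEtaUnit) *
        (HahnSeries.single ((p : ℤ) * (-1)) (1 : ℂ) * qExpand ℂ p (psC dedekindEtaUnitInv))
      = (HahnSeries.single (1 : ℤ) ((((ζ ^ (b : ℕ)) ^ (1 : ℤ) : ℂˣ) : ℂ) * 1) *
          HahnSeries.single ((p : ℤ) * (-1)) (1 : ℂ)) *
          (tw (ζ ^ (b : ℕ)) (psC dedekindEtaUnit) * qExpand ℂ p (psC dedekindEtaUnitInv)) := by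
        ring
    _ = _ := by rw [h]; ring

theorem prod_uF_mem_NN : ∏ i, uF p ζ i ∈ NN ℂ := by
  rw [Fintype.prod_option, uF_none_eq]
  simp_rw [uF_some_eq]
  rw [Finset.prod_mul_distrib, Finset.prod_const, Finset.card_univ, Fintype.card_fin,
    HahnSeries.single_pow, one_pow]
  have h : HahnSeries.single ((p : ℤ) * p - p) (1 : ℂ) * HahnSeries.single (p • (1 - (p : ℤ))) 1
      = 1 := by
    rw [HahnSeries.single_mul_single]
    have e : (p : ℤ) * p - p + p • (1 - (p : ℤ)) = 0 := by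
      rw [nsmul_eq_mul]; ring
    rw [e, mul_one]
    rfl
  have hmem1 : (p : LaurentSeries ℂ) ^ 12 * qExpand ℂ p (qExpand ℂ p (psC dedekindEtaUnit)) *
      qExpand ℂ p (psC dedekindEtaUnitInv) ∈ NN ℂ :=
    mul_mem (mul_mem (pow_mem (natCast_mem _ p) 12)
      (qExpand_mem_NN p (qExpand_mem_NN p (psC_mem_NN _)))) (qExpand_mem_NN p (psC_mem_NN _))
  have hmem2 : ∏ b : Fin p, (HahnSeries.single 0 ((((ζ ^ (b : ℕ)) ^ (1 : ℤ) : ℂˣ) : ℂ) * 1) *
      tw (ζ ^ (b : ℕ)) (psC dedekindEtaUnit) * qExpand ℂ p (psC dedekindEtaUnitInv)) ∈ NN ℂ :=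
    Subring.prod_mem _ fun b _ =>
      mul_mem (mul_mem (single_mem_NN le_rfl _) (tw_mem_NN _ (psC_mem_NN _)))
        (qExpand_mem_NN p (psC_mem_NN _))
  have e : ∀ A B : LaurentSeries ℂ,
      HahnSeries.single ((p : ℤ) * p - p) (1 : ℂ) * A *
        (HahnSeries.single (p • (1 - (p : ℤ))) 1 * B) = A * B := by
    intro A B
    calc HahnSeries.single ((p : ℤ) * p - p) (1 : ℂ) * A *
          (HahnSeries.single (p • (1 - (p : ℤ))) 1 * B)
        = (HahnSeries.single ((p : ℤ) * p - p) (1 : ℂ) *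
            HahnSeries.single (p • (1 - (p : ℤ))) 1) * (A * B) := by ring
      _ = A * B := by rw [h, one_mul]
  rw [e]
  exact mul_mem hmem1 hmem2

omit [NeZero p] in
theorem natCast_ne_zero' (hp : p.Prime) : (p : LaurentSeries ℂ) ≠ 0 := by
  intro h
  have h1 := natCast_mul_coeff p (1 : LaurentSeries ℂ) 0
  rw [h, zero_mul, HahnSeries.coeff_zero, HahnSeries.coeff_one, if_pos rfl, mul_one] at h1
  exact hp.ne_zero (by exact_mod_cast h1.symm)

theorem Dl_ne_zero : Dl ≠ 0 := left_ne_zero_of_mul_eq_one Dl_mul_Dinv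

theorem Dinv_ne_zero : Dinv ≠ 0 := right_ne_zero_of_mul_eq_one Dl_mul_Dinv

theorem uF_ne_zero (hp : p.Prime) (i : Option (Fin p)) : uF p ζ i ≠ 0 := by
  have hV : ∀ x : LaurentSeries ℂ, x ≠ 0 → qExpand ℂ p x ≠ 0 := fun x hx =>
    (map_ne_zero_iff _ (qExpand_injective p)).mpr hx
  cases i with
  | none =>
    exact mul_ne_zero (mul_ne_zero (pow_ne_zero _ (natCast_ne_zero' p hp))
      (hV _ (hV _ Dl_ne_zero))) (hV _ Dinv_ne_zero)
  | some b =>
    exact mul_ne_zero ((map_ne_zero_iff _ (tw_injective _)).mpr Dl_ne_zero) (hV _ Dinv_ne_zero)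

/-! ### Distinctness and the derivative at `x_∞` -/

theorem xF_some_ne_none (hp : p.Prime) (b : Fin p) : xF p ζ (some b) ≠ xF p ζ none := by
  intro h
  have h1 := congrArg (fun x : LaurentSeries ℂ => x.coeff (-1)) h
  have hnd : ¬ (p : ℤ) ∣ (-1 : ℤ) := by
    rw [dvd_neg]
    intro hd
    have : p ∣ 1 := by exact_mod_cast hd
    exact hp.ne_one (Nat.dvd_one.mp this)
  have e1 : (xF p ζ (some b)).coeff (-1) = (((ζ ^ (b : ℕ)) ^ (-1 : ℤ) : ℂˣ) : ℂ) := by
    show (tw (ζ ^ (b : ℕ)) Jt).coeff (-1) = _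
    rw [tw_coeff, Jt, coeff_jqModC_neg_one, mul_one]
  have e2 : (xF p ζ none).coeff (-1) = 0 := qExpand_coeff_of_not_dvd p _ hnd
  simp only [e1, e2] at h1
  exact Units.ne_zero _ h1

theorem Jt_eq_single_mul : Jt = HahnSeries.single (-1) (1 : ℂ) * psC jNum := by
  rw [Jt, jqModC, psC, RingHom.comp_apply, coeffMap_ofPowerSeries]

theorem psC_jNum_coeff_zero : (psC jNum).coeff 0 = 1 := by
  have h := psC_coeff_nat jNum 0
  rw [PowerSeries.coeff_zero_eq_constantCoeff] at h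
  simpa using h

theorem xF_none_sub_some (hp : p.Prime) (b : Fin p) :
    ∃ g : LaurentSeries ℂ, g ∈ NN ℂ ∧ g.coeff 0 = 1 ∧
      xF p ζ none - xF p ζ (some b) = HahnSeries.single (-((p : ℤ) * p)) (1 : ℂ) * g := by
  have hp2 : (2 : ℤ) ≤ p := by exact_mod_cast hp.two_le
  have hpos : (0 : ℤ) < (p : ℤ) * p - 1 := by nlinarith
  set c : ℂ := (((ζ ^ (b : ℕ)) ^ (-1 : ℤ) : ℂˣ) : ℂ) * 1 with hc
  refine ⟨qExpand ℂ p (qExpand ℂ p (psC jNum)) -
      HahnSeries.single ((p : ℤ) * p - 1) c * tw (ζ ^ (b : ℕ)) (psC jNum), ?_, ?_, ?_⟩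
  · exact sub_mem (qExpand_mem_NN p (qExpand_mem_NN p (psC_mem_NN _)))
      (mul_mem (single_mem_NN hpos.le _) (tw_mem_NN _ (psC_mem_NN _)))
  · rw [HahnSeries.coeff_sub, HahnSeries.coeff_single_mul]
    have h0 : (0 : ℤ) = (p : ℤ) * ((p : ℤ) * 0) := by ring
    have e1 : (qExpand ℂ p (qExpand ℂ p (psC jNum))).coeff 0 = 1 := by
      conv_lhs => rw [h0]
      rw [qExpand_coeff_mul, qExpand_coeff_mul, psC_jNum_coeff_zero]
    have e2 : (tw (ζ ^ (b : ℕ)) (psC jNum)).coeff (0 - ((p : ℤ) * p - 1)) = 0 :=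
      tw_mem_NN _ (psC_mem_NN _) _ (by omega)
    rw [e1, e2, mul_zero, sub_zero]
  · have h1 : HahnSeries.single (-((p : ℤ) * p)) (1 : ℂ) * HahnSeries.single ((p : ℤ) * p - 1) c =
        HahnSeries.single (-1) c :=
      single_mul_single' _ _ _ _ _ _ (by ring) (by ring)
    have h2 : HahnSeries.single ((p : ℤ) * ((p : ℤ) * (-1))) (1 : ℂ) =
        HahnSeries.single (-((p : ℤ) * p)) (1 : ℂ) := by
      rw [show (p : ℤ) * ((p : ℤ) * (-1)) = -((p : ℤ) * p) by ring]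
    show qExpand ℂ p (qExpand ℂ p Jt) - tw (ζ ^ (b : ℕ)) Jt = _
    rw [Jt_eq_single_mul, map_mul, map_mul, map_mul, qExpand_single, qExpand_single, tw_single, h2,
      mul_sub, ← mul_assoc, h1]

theorem coeff_prod_sub (hp : p.Prime) :
    (∏ b : Fin p, (xF p ζ none - xF p ζ (some b))).coeff ((p : ℤ) * (-((p : ℤ) ^ 2))) = 1 := by
  choose g hgN hg0 hg using xF_none_sub_some p ζ hp
  simp_rw [hg]
  rw [Finset.prod_mul_distrib, Finset.prod_const, Finset.card_univ, Fintype.card_fin,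
    HahnSeries.single_pow, one_pow, HahnSeries.coeff_single_mul, one_mul]
  have e : (p : ℤ) * (-((p : ℤ) ^ 2)) - p • (-((p : ℤ) * p)) = 0 := by
    rw [nsmul_eq_mul]; ring
  rw [e, coeff_zero_prod_of_mem_NN _ _ (fun b _ => hgN b)]
  exact Finset.prod_eq_one fun b _ => hg0 b

theorem eval_derivative_prod :
    (derivative (∏ i, (X - Polynomial.C (xF p ζ i)))).eval (xF p ζ none) =
      ∏ b : Fin p, (xF p ζ none - xF p ζ (some b)) := by
  rw [Fintype.prod_option, derivative_mul]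
  simp only [derivative_sub, derivative_X, derivative_C, sub_zero, one_mul, eval_add, eval_mul,
    eval_sub, eval_X, eval_C, sub_self, zero_mul, add_zero, eval_prod]

/-! ### Transfer maps -/

/-- `ℤ((q)) → ℂ((t))`, `q ↦ t^p`. -/
def iota : LaurentSeries ℤ →+* LaurentSeries ℂ :=
  (qExpand ℂ p).comp (coeffMap (Int.castRingHom ℂ))

theorem coeffMap_intCast_injective :
    Function.Injective (coeffMap (Int.castRingHom ℂ) : LaurentSeries ℤ → LaurentSeries ℂ) := by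
  intro f g h
  ext k
  have := congrArg (fun x : LaurentSeries ℂ => x.coeff k) h
  simp only [coeffMap_coeff, eq_intCast] at this
  exact_mod_cast this

theorem iota_injective : Function.Injective (iota p) :=
  (qExpand_injective p).comp coeffMap_intCast_injective

theorem iota_coeff (f : LaurentSeries ℤ) (m : ℤ) :
    (iota p f).coeff ((p : ℤ) * m) = ((f.coeff m : ℤ) : ℂ) := by
  rw [iota, RingHom.comp_apply, qExpand_coeff_mul, coeffMap_coeff]
  rfl

theorem iota_j : iota p (jqModC ℤ) = JJ p := by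
  rw [iota, RingHom.comp_apply, coeffMap_jqModC]
  rfl

theorem iota_jp : iota p (jqNModC ℤ p) = xF p ζ none := by
  rw [iota, RingHom.comp_apply, coeffMap_jqNModC]
  rfl

theorem iota_eta : iota p (etaUnitZ p) = uF p ζ none := by
  rw [uF_none_eq, etaUnitZ, iota, RingHom.comp_apply]
  simp only [map_mul, map_pow, map_natCast, coeffMap_single, coeffMap_qExpand, qExpand_single,
    map_one]
  have h : HahnSeries.single ((p : ℤ) * ((p : ℤ) - 1)) (1 : ℂ) =
      HahnSeries.single ((p : ℤ) * p - p) (1 : ℂ) := by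
    rw [show (p : ℤ) * ((p : ℤ) - 1) = (p : ℤ) * p - p by ring]
  rw [h]
  simp only [psC, RingHom.comp_apply]
  ring

theorem cm_j : coeffMap (Int.castRingHom ℂ) (jqModC ℤ) = Jt := coeffMap_jqModC _

theorem cm_jp : coeffMap (Int.castRingHom ℂ) (jqNModC ℤ p) = JJ p := by
  rw [coeffMap_jqNModC]
  rfl

theorem map_ev2' {A B : Type*} [CommRing A] [CommRing B] (f : A →+* B) (x y : A)
    (P : Polynomial (Polynomial ℤ)) : f (ev2 x y P) = ev2 (f x) (f y) P := by
  unfold ev2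
  rw [Polynomial.hom_eval₂]
  congr 1
  ext a
  · simp
  · simp

theorem ev2_JJ (x : LaurentSeries ℂ) (P : Polynomial (Polynomial ℤ)) :
    ev2 x (JJ p) P = (P.map (evZ p)).eval x := by
  rw [eval_map]
  rfl

end Fermat.Agent.S37.Deg.PL

namespace Fermat.Agent.S37.Deg

open ModularCurve HahnSeries Polynomial PL

/-- (WP5) Existence of the prime level data: a formal consequence of `hecke_levelOne_formal`. -/
theorem exists_primeLevelData (p : ℕ) [NeZero p] (hp : p.Prime) : Nonempty (PrimeLevelData p) := by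
  classical
  -- a primitive `p`-th root of unity in `ℂ`
  obtain ⟨ζ, hζ⟩ : ∃ ζ : ℂˣ, IsPrimitiveRoot ζ p := by
    have h := Complex.isPrimitiveRoot_exp p hp.ne_zero
    exact ⟨(h.isUnit hp.ne_zero).unit, IsPrimitiveRoot.coe_units_iff.mp (by simpa using h)⟩
  have hmix : ∀ a b : ℕ, ∑ i, uF p ζ i ^ a * vF p ζ i ^ b ∈ SQ p := fun a b =>
    SZ_le_SQ p (mixed_sum_mem p ζ hp hζ a b)
  have hvx := vF_eq p ζ
  -- the product of the `u`-conjugates is a nonzero rational constant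
  obtain ⟨s, hs, hprod⟩ : ∃ s ∈ SQ p, (∏ i, uF p ζ i) * s = 1 := by
    have hc0Q : ∏ i, uF p ζ i ∈ SQ p :=
      prod_mem_of_psum_mem (SQ p) (SQ_div p) (uF p ζ) (fun k _ => by simpa using hmix k 0)
    obtain ⟨r, hr⟩ := eq_const_of_mem_SQ_of_mem_NN p hc0Q (prod_uF_mem_NN p ζ)
    have hr0 : r ≠ 0 := by
      rintro rfl
      rw [map_zero] at hr
      exact (Finset.prod_ne_zero_iff.mpr fun i _ => uF_ne_zero p ζ hp i) hr
    refine ⟨cQ r⁻¹, ⟨Polynomial.C r⁻¹, ?_⟩, ?_⟩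
    · rw [evQ, Polynomial.coe_eval₂RingHom, Polynomial.eval₂_C]
    · rw [hr, ← map_mul, mul_inv_cancel₀ hr0, map_one]
  -- the three polynomials over `ℂ((t))`
  set Φ : Polynomial (LaurentSeries ℂ) := ∏ i, (X - Polynomial.C (xF p ζ i)) with hΦ
  set G : Polynomial (LaurentSeries ℂ) := ∏ i, (X - Polynomial.C (uF p ζ i)) with hG
  set Lg : Polynomial (LaurentSeries ℂ) := lagrangeNum (uF p ζ) (xF p ζ) with hLg
  have hΦO : ∀ n, Φ.coeff n ∈ OL := fun n =>
    coeff_prod_mem OL _ _ (fun i _ => coeff_X_sub_C_mem OL (xF_mem_OL p ζ hp hζ i)) n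
  have hΦZ : ∀ n, Φ.coeff n ∈ SZ p := fun n =>
    mem_SZ_of_mem_SQ_of_mem_OL p
      (coeff_prodX_mem (SQ p) (SQ_div p) (uF p ζ) (vF p ζ) (xF p ζ) hmix hvx s hs hprod n) (hΦO n)
  have hGZ : ∀ n, G.coeff n ∈ SZ p := fun n =>
    mem_SZ_of_mem_SQ_of_mem_OL p
      (coeff_prodU_mem (SQ p) (SQ_div p) (uF p ζ) (vF p ζ) hmix n)
      (coeff_prod_mem OL _ _ (fun i _ => coeff_X_sub_C_mem OL (uF_mem_OL p ζ hp hζ i)) n)
  have hLZ : ∀ n, Lg.coeff n ∈ SZ p := fun n => by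
    refine mem_SZ_of_mem_SQ_of_mem_OL p
      (coeff_lagrangeNum_mem (SQ p) (SQ_div p) (uF p ζ) (vF p ζ) (xF p ζ) hmix hvx s hs hprod n) ?_
    rw [hLg, coeff_lagrangeNum]
    exact Subring.sum_mem _ fun j _ => mul_mem (hΦO j) (Subring.sum_mem _ fun i _ =>
      mul_mem (pow_mem (uF_mem_OL p ζ hp hζ i) _) (pow_mem (xF_mem_OL p ζ hp hζ i) _))
  -- lifts to `ℤ[Y][X]`
  have hΦmonic : Φ.Monic := monic_prod_of_monic _ _ fun i _ => monic_X_sub_C _
  have hGmonic : G.Monic := monic_prod_of_monic _ _ fun i _ => monic_X_sub_C _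
  have hΦdeg : Φ.natDegree = p + 1 := by
    rw [hΦ, natDegree_finsetProd_X_sub_C_eq_card, Finset.card_univ, Fintype.card_option,
      Fintype.card_fin]
  obtain ⟨Φ', hΦ'map, hΦ'deg, hΦ'monic⟩ :=
    lifts_and_natDegree_eq_and_monic ((lifts_iff_coeff_lifts _).mpr hΦZ) hΦmonic
  obtain ⟨G', hG'map, -, hG'monic⟩ :=
    lifts_and_natDegree_eq_and_monic ((lifts_iff_coeff_lifts _).mpr hGZ) hGmonic
  obtain ⟨L', hL'map⟩ := (mem_lifts _).mp ((lifts_iff_coeff_lifts Lg).mpr hLZ)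
  -- roots
  have hrootΦ : ∀ i, Φ.eval (xF p ζ i) = 0 := fun i => by
    rw [hΦ, eval_prod]
    exact Finset.prod_eq_zero (Finset.mem_univ i) (by simp)
  have hrootG : ∀ i, G.eval (uF p ζ i) = 0 := fun i => by
    rw [hG, eval_prod]
    exact Finset.prod_eq_zero (Finset.mem_univ i) (by simp)
  have hlag : Lg.eval (xF p ζ none) = uF p ζ none * (derivative Φ).eval (xF p ζ none) :=
    eval_lagrangeNum (uF p ζ) (xF p ζ) none (fun i hi => by
      cases i with
      | none => exact absurd rfl hi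
      | some b => exact xF_some_ne_none p ζ hp b)
  have hderiv : iota p (ev2 (jqNModC ℤ p) (jqModC ℤ) (derivative Φ')) =
      (derivative Φ).eval (xF p ζ none) := by
    rw [map_ev2', iota_j, iota_jp p ζ, ev2_JJ, ← derivative_map, hΦ'map]
  refine ⟨{
    Φ := Φ'
    H := G'
    L := L'
    Φ_monic := hΦ'monic
    Φ_natDegree := by rw [hΦ'deg, hΦdeg]
    H_monic := hG'monic
    root_jp := ?_
    root_j := ?_
    root_eta := ?_
    lagrange := ?_
    deriv_coeff := ?_ }⟩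
  · apply iota_injective p
    rw [map_ev2', iota_j, iota_jp p ζ, ev2_JJ, hΦ'map, hrootΦ, map_zero]
  · apply coeffMap_intCast_injective
    rw [map_ev2', cm_j, cm_jp, ev2_JJ, hΦ'map, map_zero]
    have h0 : xF p ζ (some ⟨0, hp.pos⟩) = Jt := by
      show tw (ζ ^ (0 : ℕ)) Jt = Jt
      rw [pow_zero, tw_one_apply]
    rw [← h0]
    exact hrootΦ _
  · apply iota_injective p
    rw [map_ev2', iota_j, iota_eta p ζ, ev2_JJ, hG'map, hrootG, map_zero]
  · apply iota_injective p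
    rw [map_mul, hderiv, iota_eta p ζ, map_ev2', iota_j, iota_jp p ζ, ev2_JJ, hL'map, hlag]
  · have h1 := iota_coeff p (ev2 (jqNModC ℤ p) (jqModC ℤ) (derivative Φ')) (-((p : ℤ) ^ 2))
    rw [hderiv, eval_derivative_prod, coeff_prod_sub p ζ hp] at h1
    exact_mod_cast h1.symm

end Fermat.Agent.S37.Deg
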