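/-
S37 support (helper7251): the residue field of the Gauss valuation on the modular function field.

For a valuation subring `A` of a field `L ⊇ ℚ` and a ring hom `π : A → k` to a field `k` in which
`N ≠ 0`, every nonzero element `f` of the level-`N` function field `F_L ⊆ L((q))` can be written
`f · V = c · U` with `c ∈ Lˣ` and `U, V` having `A`-integral `q`-expansions whose reductions
`coeffMap π u`, `coeffMap π v` are NONZERO elements of the function field `F_k ⊆ k((q))`.
Consequences:

* `coeffMap_residue_mem_fullC`: an `A`-integral element of `F_L` reduces into `F_k`;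
* `principalGeneratedByIntegral`: `PrincipalGeneratedByIntegral A π N`.

The input is the degree theorem `[K(j(q^d) : d ∣ N) : K(j)] = ψ(N)` in every characteristic prime
to `N` (Route H of S28: helper6508, helper2872, helper471), applied to both `L` and `k`.
-/
import Fermat.Agent.S37.Deg.Degree
import Fermat.Agent.S37.Deg.PLMain
import Fermat.Agent.S37.Deg.ModL
import Fermat.Prelude.Def_ModularCurve_ReductionModL
import Fermat.Prelude.Def_FLTPrelim_Ramification

set_option autoImplicit false

noncomputable section

namespace Fermat.Agent.S37.Deg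

open ModularCurve Polynomial IntermediateField AlgebraicCurve

/-! ### 0. The unconditional degree theorem -/

/-- **Degree theorem**, unconditional: for every field `K` in which `N ≠ 0`,
`[K(j(q^d) : d ∣ N) : K(j)] = ψ(N)`. -/
theorem relfinrank_full_eq_dedekindPsi (K : Type*) [Field K] (N : ℕ) [NeZero N]
    (hN : (N : K) ≠ 0) :
    (IntermediateField.adjoin K {jqModC K}).relfinrank (modularFunctionFieldFullC K N) =
      dedekindPsi N :=
  relfinrank_modularFunctionFieldFullC (fun p _ hp => exists_primeLevelData p hp) K N hN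

/-! ### 1. Base change of the function field -/

section BaseChange

variable (L : Type*) [Field L] [Algebra ℚ L] (N : ℕ)

theorem coeffEmb_divisorExpansion (d : ℕ) [NeZero d] :
    coeffEmb L (qExpand ℚ d jq) = qExpand L d (jqModC L) := by
  rw [coeffEmb, coeffMap_qExpand, ← jqModC_rat, coeffMap_jqModC]

theorem coeffEmb_mem_fullC {x : LaurentSeries ℚ} (hx : x ∈ modularFunctionFieldFull N) :
    coeffEmb L x ∈ modularFunctionFieldFullC L N := by
  let S : Subfield (LaurentSeries ℚ) :=
    (modularFunctionFieldFullC L N).toSubfield.comap (coeffEmb L)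
  have hS : ∀ c : ℚ, algebraMap ℚ (LaurentSeries ℚ) c ∈ S := by
    intro c
    show coeffEmb L (algebraMap ℚ (LaurentSeries ℚ) c) ∈ modularFunctionFieldFullC L N
    rw [algebraMap_laurentSeries_eq_single, coeffEmb, coeffMap_single,
      ← algebraMap_laurentSeries_eq_single]
    exact (modularFunctionFieldFullC L N).algebraMap_mem _
  have hle : modularFunctionFieldFull N ≤ S.toIntermediateField hS := by
    rw [modularFunctionFieldFull, IntermediateField.adjoin_le_iff]
    rintro x ⟨d, hd, hdN, rfl⟩
    show coeffEmb L (qExpand ℚ d jq) ∈ modularFunctionFieldFullC L N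
    rw [coeffEmb_divisorExpansion]
    exact jqModCd_mem_full L N hdN
  exact hle hx

/-- The base change to `L` of the rational function field is the function field over `L`. -/
theorem laurentBaseChange_full_eq :
    laurentBaseChange L (modularFunctionFieldFull N) = modularFunctionFieldFullC L N := by
  apply le_antisymm
  · rw [laurentBaseChange, IntermediateField.adjoin_le_iff]
    rintro _ ⟨x, hx, rfl⟩
    exact coeffEmb_mem_fullC L N hx
  · rw [modularFunctionFieldFullC, IntermediateField.adjoin_le_iff]
    rintro x ⟨d, hd, hdN, rfl⟩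
    rw [← coeffEmb_divisorExpansion]
    exact coeffEmb_mem_laurentBaseChange L (jqd_mem_full N hdN)

end BaseChange

/-! ### 2. Scaling into a valuation ring -/

section Scale

variable {L : Type*} [Field L] (A : ValuationSubring L)

theorem exists_scale {ι : Type*} (s : Finset ι) (a : ι → L) (h : ∃ i ∈ s, a i ≠ 0) :
    ∃ c : L, c ≠ 0 ∧ (∀ i ∈ s, c * a i ∈ A) ∧ ∃ i ∈ s, c * a i = 1 := by
  obtain ⟨i₁, hi₁, hne⟩ := h
  obtain ⟨i₀, hi₀, hmax⟩ := Finset.exists_max_image s (fun i => A.valuation (a i)) ⟨i₁, hi₁⟩
  have h0 : a i₀ ≠ 0 := by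
    intro h0
    have h1 := hmax i₁ hi₁
    simp only [h0, map_zero] at h1
    exact hne ((A.valuation).zero_iff.mp (le_antisymm h1 zero_le))
  refine ⟨(a i₀)⁻¹, inv_ne_zero h0, fun i hi => ?_, i₀, hi₀, inv_mul_cancel₀ h0⟩
  rw [← A.valuation_le_one_iff, map_mul, map_inv₀]
  have hpos : 0 < A.valuation (a i₀) := by
    rw [zero_lt_iff]
    exact (A.valuation).ne_zero_iff.mpr h0
  rw [inv_mul_le_iff₀ hpos, mul_one]
  exact hmax i hi

theorem exists_scale_poly {n : ℕ} (c : Fin n → L[X]) (h : ∃ i, c i ≠ 0) :
    ∃ (t : L) (C : Fin n → (↥A)[X]), t ≠ 0 ∧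
      (∀ i, (C i).map A.subtype = Polynomial.C t * c i) ∧ ∃ i m, (C i).coeff m = 1 := by
  classical
  obtain ⟨i₁, hi₁⟩ := h
  obtain ⟨m₁, hm₁⟩ : ∃ m, (c i₁).coeff m ≠ 0 := by
    by_contra hall
    push Not at hall
    exact hi₁ (Polynomial.ext (by simpa using hall))
  let s : Finset (Σ _ : Fin n, ℕ) := Finset.univ.sigma (fun i => (c i).support)
  obtain ⟨t, ht, hA, ⟨⟨i₀, m₀⟩, -, h1⟩⟩ := exists_scale A s (fun x => (c x.1).coeff x.2)
    ⟨⟨i₁, m₁⟩, by simp [s, Polynomial.mem_support_iff, hm₁], hm₁⟩
  have hlift : ∀ i, ∃ q : (↥A)[X], q.map A.subtype = Polynomial.C t * c i := by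
    intro i
    have hmem : Polynomial.C t * c i ∈ Polynomial.lifts A.subtype := by
      rw [Polynomial.lifts_iff_coeff_lifts]
      intro m
      rw [Polynomial.coeff_C_mul]
      by_cases hm : (c i).coeff m = 0
      · rw [hm, mul_zero]
        exact ⟨0, map_zero _⟩
      · exact ⟨⟨_, hA ⟨i, m⟩ (by simp [s, Polynomial.mem_support_iff, hm])⟩, rfl⟩
    exact (Polynomial.mem_lifts _).mp hmem
  choose C hC using hlift
  refine ⟨t, C, ht, hC, i₀, m₀, ?_⟩
  apply Subtype.ext
  have h2 := congrArg (fun p => p.coeff m₀) (hC i₀)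
  simp only [Polynomial.coeff_map, Polynomial.coeff_C_mul] at h2
  exact h2.trans h1

end Scale

/-! ### 3. Coefficient maps: generic identities -/

section Generic

variable {R S : Type*} [CommRing R] [CommRing S]

theorem res_algebraMap_eq_single (T : Type*) [CommRing T] (c : T) :
    algebraMap T (LaurentSeries T) c = HahnSeries.single 0 c := by
  have h1 : algebraMap T (PowerSeries T) c = PowerSeries.C c := by
    simp
  rw [HahnSeries.algebraMap_apply', h1, HahnSeries.ofPowerSeries_C]
  rfl

theorem res_coeffMap_algebraMap (f : R →+* S) (r : R) :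
    coeffMap f (algebraMap R (LaurentSeries R) r) = algebraMap S (LaurentSeries S) (f r) := by
  rw [res_algebraMap_eq_single, res_algebraMap_eq_single, coeffMap_single]

theorem res_coeffMap_aeval (f : R →+* S) (P : R[X]) :
    coeffMap f (aeval (jqModC R) P) = aeval (jqModC S) (P.map f) := by
  rw [aeval_def, aeval_def, Polynomial.hom_eval₂, Polynomial.eval₂_map, coeffMap_jqModC]
  congr 1
  exact RingHom.ext fun r => res_coeffMap_algebraMap f r

theorem res_coeffMap_injective {f : R →+* S} (hf : Function.Injective f) :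
    Function.Injective (coeffMap f) := by
  intro x y h
  ext m
  exact hf (by simpa using congrArg (fun z => z.coeff m) h)

theorem res_coeffMap_int (f : R →+* S) (y : LaurentSeries ℤ) :
    coeffMap f (coeffMap (Int.castRingHom R) y) = coeffMap (Int.castRingHom S) y := by
  rw [coeffMap_coeffMap]
  exact coeffMap_congr (RingHom.ext_int _ _) y

theorem res_map_ne_zero_of_coeff_one [Nontrivial S] (f : R →+* S) {P : R[X]} {m : ℕ}
    (h : P.coeff m = 1) : P.map f ≠ 0 := by
  intro h0
  have h1 := congrArg (fun p => p.coeff m) h0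
  simp only [Polynomial.coeff_map, h, map_one, Polynomial.coeff_zero] at h1
  exact one_ne_zero h1

end Generic

section Membership

variable (K : Type) [Field K] (N : ℕ) [NeZero N]

omit [NeZero N] in
theorem coeffMap_int_mem_fullC {y : LaurentSeries ℤ} (hy : y ∈ Subring.closure (gensZ N)) :
    coeffMap (Int.castRingHom K) y ∈ modularFunctionFieldFullC K N := by
  have hle : Subring.closure (gensZ N) ≤
      (modularFunctionFieldFullC K N).toSubfield.toSubring.comap (coeffMap (Int.castRingHom K)) := by
    rw [Subring.closure_le]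
    intro x hx
    show coeffMap (Int.castRingHom K) x ∈ modularFunctionFieldFullC K N
    have hmem : coeffMap (Int.castRingHom K) x ∈ divisorExpansionsC K N := by
      rw [← coeffMap_image_gensZ]
      exact ⟨x, hx, rfl⟩
    exact IntermediateField.subset_adjoin K _ hmem
  exact hle hy

theorem aeval_jqModC_mem_fullC (P : K[X]) :
    aeval (jqModC K) P ∈ modularFunctionFieldFullC K N := by
  rw [← coe_polyJ]
  exact fieldJ_le_full K N (polyJ K P).2

end Membership

/-! ### 4. The integral basis and the normal form -/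

section Main

variable {L : Type} [Field L] [Algebra ℚ L]
variable {k : Type} [Field k] (N : ℕ) [NeZero N]

omit [Algebra ℚ L] in
/-- `ψ(N)` elements of `ℤ[j(q^d) : d ∣ N]` that are linearly independent over `k[j]` after
reduction and over `L[j]` in characteristic zero. -/
theorem exists_integral_basis (A : ValuationSubring L) (π : A →+* k) (hN : (N : k) ≠ 0) :
    ∃ y : Fin (dedekindPsi N) → LaurentSeries ℤ,
      (∀ i, y i ∈ Subring.closure (gensZ N)) ∧
      (∀ c : Fin (dedekindPsi N) → k[X],
        ∑ i, aeval (jqModC k) (c i) * coeffMap (Int.castRingHom k) (y i) = 0 → ∀ i, c i = 0) ∧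
      (∀ c : Fin (dedekindPsi N) → L[X],
        ∑ i, aeval (jqModC L) (c i) * coeffMap (Int.castRingHom L) (y i) = 0 → ∀ i, c i = 0) := by
  obtain ⟨y, hyS, hyk⟩ := exists_independent_of_relfinrank k N
    (relfinrank_full_eq_dedekindPsi k N hN)
  refine ⟨y, hyS, hyk, ?_⟩
  intro c hc
  by_contra hne
  push Not at hne
  obtain ⟨t, C, ht, hC, i₀, m₀, h1⟩ := exists_scale_poly A c hne
  -- the relation with `A`-integral coefficients
  have hA : ∑ i, aeval (jqModC A) (C i) * coeffMap (Int.castRingHom A) (y i) = 0 := by
    apply res_coeffMap_injective (f := A.subtype) Subtype.val_injective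
    rw [map_zero, map_sum]
    have h2 : ∀ i, coeffMap A.subtype (aeval (jqModC A) (C i) * coeffMap (Int.castRingHom A) (y i)) =
        algebraMap L (LaurentSeries L) t *
          (aeval (jqModC L) (c i) * coeffMap (Int.castRingHom L) (y i)) := by
      intro i
      rw [map_mul, res_coeffMap_aeval, res_coeffMap_int, hC i, map_mul, aeval_C, mul_assoc]
    rw [Finset.sum_congr rfl fun i _ => h2 i, ← Finset.mul_sum, hc, mul_zero]
  have hk : ∑ i, aeval (jqModC k) ((C i).map π) * coeffMap (Int.castRingHom k) (y i) = 0 := by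
    have h3 := congrArg (coeffMap π) hA
    rw [map_zero, map_sum] at h3
    rw [← h3]
    refine Finset.sum_congr rfl fun i _ => ?_
    rw [map_mul, res_coeffMap_aeval, res_coeffMap_int]
  exact res_map_ne_zero_of_coeff_one π h1 (hyk _ hk i₀)

omit [Algebra ℚ L] in
/-- Over a field `L` in which `N ≠ 0`, a family of `ψ(N)` elements of the function field that is
independent over `L[j]` spans it over `L(j)`: every element is a combination with coefficients
in `L[j]` after multiplication by a nonzero element of `L[j]`. -/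
theorem exists_poly_combination (hL : (N : L) ≠ 0)
    (y : Fin (dedekindPsi N) → LaurentSeries ℤ)
    (hyS : ∀ i, y i ∈ Subring.closure (gensZ N))
    (hyL : ∀ c : Fin (dedekindPsi N) → L[X],
      ∑ i, aeval (jqModC L) (c i) * coeffMap (Int.castRingHom L) (y i) = 0 → ∀ i, c i = 0)
    {f : LaurentSeries L} (hf : f ∈ modularFunctionFieldFullC L N) :
    ∃ (b : L[X]) (a : Fin (dedekindPsi N) → L[X]), b ≠ 0 ∧
      aeval (jqModC L) b * f =
        ∑ i, aeval (jqModC L) (a i) * coeffMap (Int.castRingHom L) (y i) := by
  classical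
  have h := fieldJ_le_full L N
  set E : IntermediateField (fieldJ L) (LaurentSeries L) := IntermediateField.extendScalars h
    with hE
  have hfin : Module.finrank (fieldJ L) E = dedekindPsi N := by
    rw [← IntermediateField.relfinrank_eq_finrank_of_le h]
    exact relfinrank_full_eq_dedekindPsi L N hL
  have hFree : Module.Free (fieldJ L) E := Module.Free.of_divisionRing (fieldJ L) E
  have hFD : Module.Finite (fieldJ L) E :=
    Module.finite_of_finrank_pos (by rw [hfin]; exact dedekindPsi_pos_of_neZero N)
  let v : Fin (dedekindPsi N) → E := fun i =>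
    ⟨coeffMap (Int.castRingHom L) (y i), coeffMap_int_mem_fullC L N (hyS i)⟩
  let _ : Algebra L[X] (fieldJ L) := (polyJ L).toAlgebra
  have : FaithfulSMul L[X] (fieldJ L) :=
    (faithfulSMul_iff_algebraMap_injective L[X] (fieldJ L)).mpr (polyJ_injective L)
  have : IsFractionRing L[X] (fieldJ L) :=
    IsFractionRing.of_field (R := L[X]) (K := fieldJ L) (polyJ_surj L)
  let _ : Module L[X] E := Module.compHom E (polyJ L)
  have : IsScalarTower L[X] (fieldJ L) E := IsScalarTower.of_algebraMap_smul fun _ _ => rfl
  have hliX : LinearIndependent L[X] v := by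
    rw [Fintype.linearIndependent_iff]
    intro g hg
    apply hyL g
    have hcoe := congrArg (fun x : E => (x : LaurentSeries L)) hg
    simp only [AddSubmonoidClass.coe_finsetSum, ZeroMemClass.coe_zero] at hcoe
    rw [← hcoe]
    refine Finset.sum_congr rfl fun i _ => ?_
    rw [← coe_polyJ]
    rfl
  have hli : LinearIndependent (fieldJ L) v :=
    (LinearIndependent.iff_fractionRing L[X] (fieldJ L)).mp hliX
  have hspan : Submodule.span (fieldJ L) (Set.range v) = ⊤ :=
    hli.span_eq_top_of_card_eq_finrank' (by rw [Fintype.card_fin, hfin])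
  have hfE : (⟨f, hf⟩ : E) ∈ Submodule.span (fieldJ L) (Set.range v) := by
    rw [hspan]
    trivial
  obtain ⟨g, hg⟩ := (Submodule.mem_span_range_iff_exists_fun (fieldJ L)).mp hfE
  obtain ⟨b, hb⟩ := IsLocalization.exist_integer_multiples (nonZeroDivisors L[X]) Finset.univ g
  choose a ha using fun i => hb i (Finset.mem_univ i)
  refine ⟨b, a, nonZeroDivisors.ne_zero b.2, ?_⟩
  have hcoe := congrArg (fun x : E => (x : LaurentSeries L)) hg
  simp only [AddSubmonoidClass.coe_finsetSum] at hcoe
  have hf' : f = ∑ i, ((g i : fieldJ L) : LaurentSeries L) * coeffMap (Int.castRingHom L) (y i) := by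
    rw [← hcoe]
    rfl
  have ha' : ∀ i, aeval (jqModC L) (a i) =
      aeval (jqModC L) (b : L[X]) * ((g i : fieldJ L) : LaurentSeries L) := by
    intro i
    rw [← coe_polyJ, ← coe_polyJ]
    have h1 : polyJ L (a i) = polyJ L (b : L[X]) * g i := ha i
    rw [h1]
    rfl
  rw [hf', Finset.mul_sum]
  refine Finset.sum_congr rfl fun i _ => ?_
  rw [ha' i, mul_assoc]

/-- **Normal form.** Every nonzero element `f` of the function field over `L` satisfies
`f · V = c · U` with `c ∈ Lˣ` and `U`, `V` elements of the function field with `A`-integral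
`q`-expansions `u`, `v` whose reductions are nonzero elements of the function field over `k`. -/
theorem exists_normal_form (A : ValuationSubring L) (π : A →+* k) (hN : (N : k) ≠ 0)
    {f : LaurentSeries L} (hf : f ∈ modularFunctionFieldFullC L N) (hf0 : f ≠ 0) :
    ∃ (c : L) (u v : LaurentSeries A), c ≠ 0 ∧
      coeffMap A.subtype u ∈ modularFunctionFieldFullC L N ∧
      coeffMap A.subtype v ∈ modularFunctionFieldFullC L N ∧
      coeffMap π u ∈ modularFunctionFieldFullC k N ∧ coeffMap π u ≠ 0 ∧
      coeffMap π v ∈ modularFunctionFieldFullC k N ∧ coeffMap π v ≠ 0 ∧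
      f * coeffMap A.subtype v = algebraMap L (LaurentSeries L) c * coeffMap A.subtype u := by
  have hchar : CharZero L := charZero_of_injective_algebraMap (algebraMap ℚ L).injective
  have hL : (N : L) ≠ 0 := Nat.cast_ne_zero.mpr (NeZero.ne N)
  obtain ⟨y, hyS, hyk, hyL⟩ := exists_integral_basis N A π hN
  obtain ⟨b, a, hb, hab⟩ := exists_poly_combination N hL y hyS hyL hf
  have ha : ∃ i, a i ≠ 0 := by
    by_contra hall
    push Not at hall
    have h0 : aeval (jqModC L) b * f = 0 := by
      rw [hab]
      exact Finset.sum_eq_zero fun i _ => by rw [hall i, map_zero, zero_mul]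
    rcases mul_eq_zero.mp h0 with h1 | h1
    · exact aeval_jqModC_ne_zero L hb h1
    · exact hf0 h1
  obtain ⟨t₁, B, ht₁, hB, i₁, m₁, hB1⟩ := exists_scale_poly A (fun _ : Fin 1 => b) ⟨0, hb⟩
  obtain ⟨t₂, C, ht₂, hC, i₂, m₂, hC1⟩ := exists_scale_poly A a ha
  have hvL : coeffMap A.subtype (aeval (jqModC A) (B i₁)) =
      algebraMap L (LaurentSeries L) t₁ * aeval (jqModC L) b := by
    rw [res_coeffMap_aeval, hB i₁, map_mul, aeval_C]
  have huL : coeffMap A.subtype
      (∑ i, aeval (jqModC A) (C i) * coeffMap (Int.castRingHom A) (y i)) =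
      algebraMap L (LaurentSeries L) t₂ * (aeval (jqModC L) b * f) := by
    rw [map_sum, hab, Finset.mul_sum]
    refine Finset.sum_congr rfl fun i _ => ?_
    rw [map_mul, res_coeffMap_aeval, res_coeffMap_int, hC i, map_mul, aeval_C, mul_assoc]
  have hvk : coeffMap π (aeval (jqModC A) (B i₁)) = aeval (jqModC k) ((B i₁).map π) := by
    rw [res_coeffMap_aeval]
  have huk : coeffMap π (∑ i, aeval (jqModC A) (C i) * coeffMap (Int.castRingHom A) (y i)) =
      ∑ i, aeval (jqModC k) ((C i).map π) * coeffMap (Int.castRingHom k) (y i) := by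
    rw [map_sum]
    refine Finset.sum_congr rfl fun i _ => ?_
    rw [map_mul, res_coeffMap_aeval, res_coeffMap_int]
  have ht₂' : algebraMap L (LaurentSeries L) t₂ ≠ 0 := by
    rw [Ne, map_eq_zero]
    exact ht₂
  refine ⟨t₁ / t₂, ∑ i, aeval (jqModC A) (C i) * coeffMap (Int.castRingHom A) (y i),
    aeval (jqModC A) (B i₁), div_ne_zero ht₁ ht₂, ?_, ?_, ?_, ?_, ?_, ?_, ?_⟩
  · rw [huL]
    exact mul_mem (IntermediateField.algebraMap_mem _ _) (mul_mem (aeval_jqModC_mem_fullC L N b) hf)
  · rw [hvL]
    exact mul_mem (IntermediateField.algebraMap_mem _ _) (aeval_jqModC_mem_fullC L N b)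
  · rw [huk]
    exact sum_mem fun i _ =>
      mul_mem (aeval_jqModC_mem_fullC k N _) (coeffMap_int_mem_fullC k N (hyS i))
  · rw [huk]
    intro h0
    exact res_map_ne_zero_of_coeff_one π hC1 (hyk _ h0 i₂)
  · rw [hvk]
    exact aeval_jqModC_mem_fullC k N _
  · rw [hvk]
    exact aeval_jqModC_ne_zero k (res_map_ne_zero_of_coeff_one π hB1)
  · rw [hvL, huL, map_div₀]
    field_simp

/-- **Reduction stays in the function field.** An `A`-integral `q`-expansion of an element of
the function field over `L` reduces to an element of the function field over `k`. -/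
theorem coeffMap_residue_mem_fullC (A : ValuationSubring L) (π : A →+* k) (hN : (N : k) ≠ 0)
    (y : LaurentSeries A) (hy : coeffMap A.subtype y ∈ modularFunctionFieldFullC L N) :
    coeffMap π y ∈ modularFunctionFieldFullC k N := by
  by_cases hy0 : coeffMap A.subtype y = 0
  · have h0 : y = 0 :=
      res_coeffMap_injective (f := A.subtype) Subtype.val_injective (by rw [hy0, map_zero])
    rw [h0, map_zero]
    exact zero_mem _
  obtain ⟨c, u, v, hc, -, -, huk, hu0, hvk, hv0, hrel⟩ := exists_normal_form N A π hN hy hy0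
  rcases A.mem_or_inv_mem c with hcA | hcA
  · have h1 : y * v = algebraMap A (LaurentSeries A) ⟨c, hcA⟩ * u := by
      apply res_coeffMap_injective (f := A.subtype) Subtype.val_injective
      rw [map_mul, map_mul, res_coeffMap_algebraMap, hrel]
      rfl
    have h2 := congrArg (coeffMap π) h1
    rw [map_mul, map_mul, res_coeffMap_algebraMap] at h2
    have h3 : coeffMap π y =
        algebraMap k (LaurentSeries k) (π ⟨c, hcA⟩) * coeffMap π u * (coeffMap π v)⁻¹ := by
      rw [← h2, mul_assoc, mul_inv_cancel₀ hv0, mul_one]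
    rw [h3]
    exact mul_mem (mul_mem (IntermediateField.algebraMap_mem _ _) huk) (inv_mem hvk)
  · have h1 : algebraMap A (LaurentSeries A) ⟨c⁻¹, hcA⟩ * (y * v) = u := by
      apply res_coeffMap_injective (f := A.subtype) Subtype.val_injective
      rw [map_mul, map_mul, res_coeffMap_algebraMap, hrel]
      show algebraMap L (LaurentSeries L) c⁻¹ *
        (algebraMap L (LaurentSeries L) c * coeffMap A.subtype u) = _
      rw [← mul_assoc, ← map_mul, inv_mul_cancel₀ hc, map_one, one_mul]
    have h2 := congrArg (coeffMap π) h1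
    rw [map_mul, map_mul, res_coeffMap_algebraMap] at h2
    have hα : algebraMap k (LaurentSeries k) (π ⟨c⁻¹, hcA⟩) ≠ 0 := by
      intro h0
      rw [h0, zero_mul] at h2
      exact hu0 h2.symm
    have h3 : coeffMap π y = coeffMap π u *
        (algebraMap k (LaurentSeries k) (π ⟨c⁻¹, hcA⟩) * coeffMap π v)⁻¹ := by
      rw [eq_mul_inv_iff_mul_eq₀ (mul_ne_zero hα hv0), ← h2]
      ring
    rw [h3]
    exact mul_mem huk (inv_mem (mul_mem (IntermediateField.algebraMap_mem _ _) hvk))

/-- `coeffMap_residue_mem_fullC` in the Prelude's shape (`laurentBaseChange`): the hypothesis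
`hyk` of `IsPlaceReductionAlong` and `integralPrincipalDivisors` is automatic. -/
theorem coeffMap_residue_mem_fullC' (A : ValuationSubring L) (π : A →+* k) (hN : (N : k) ≠ 0)
    (y : LaurentSeries A)
    (hy : coeffMap A.subtype y ∈ laurentBaseChange L (modularFunctionFieldFull N)) :
    coeffMap π y ∈ modularFunctionFieldFullC k N :=
  coeffMap_residue_mem_fullC N A π hN y (by rwa [← laurentBaseChange_full_eq])

/-! ### 5. `PrincipalGeneratedByIntegral` -/

omit [NeZero N] [Algebra ℚ L] in
/-- A nonzero constant has order `0` at every place. -/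
theorem res_ord_algebraMap {F : Type*} [Field F] [Algebra L F] (P : Place L F) {c : L}
    (hc : c ≠ 0) : P.ord (algebraMap L F c) = 0 := by
  have hu : IsUnit (algebraMap L P.toValuationSubring c) :=
    (isUnit_iff_ne_zero.mpr hc).map (algebraMap L P.toValuationSubring)
  have h := P.ord_coe_unit hu.unit
  rwa [IsUnit.unit_spec, Place.coe_algebraMap] at h

/-- **`PrincipalGeneratedByIntegral`**, given that nonzero functions have divisors (finitely many
zeros and poles; this is part of `HasPrincipalDivisors`): every principal divisor is the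
difference of the divisors of two `A`-integral functions with nonzero reduction in the function
field over `k`. -/
theorem principalGeneratedByIntegral_of_exists_div (A : ValuationSubring L) (π : A →+* k)
    (hN : (N : k) ≠ 0)
    (hdiv : ∀ g : laurentBaseChange L (modularFunctionFieldFull N), g ≠ 0 →
      ∃ D : Divisor L (laurentBaseChange L (modularFunctionFieldFull N)), ∀ P, D P = P.ord g) :
    PrincipalGeneratedByIntegral A π N := by
  intro D hD
  obtain ⟨f, hf0, hDf⟩ := hD
  have hfmem : (f : LaurentSeries L) ∈ modularFunctionFieldFullC L N := by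
    rw [← laurentBaseChange_full_eq]
    exact f.2
  have hf0' : (f : LaurentSeries L) ≠ 0 := fun h => hf0 (Subtype.ext h)
  obtain ⟨c, u, v, hc, huL, hvL, huk, hu0, hvk, hv0, hrel⟩ :=
    exists_normal_form N A π hN hfmem hf0'
  rw [← laurentBaseChange_full_eq] at huL hvL
  have hU0 : (⟨coeffMap A.subtype u, huL⟩ : laurentBaseChange L (modularFunctionFieldFull N)) ≠ 0 := by
    intro h
    have h1 : coeffMap A.subtype u = 0 := congrArg Subtype.val h
    have h2 : u = 0 :=
      res_coeffMap_injective (f := A.subtype) Subtype.val_injective (by rw [h1, map_zero])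
    exact hu0 (by rw [h2, map_zero])
  have hV0 : (⟨coeffMap A.subtype v, hvL⟩ : laurentBaseChange L (modularFunctionFieldFull N)) ≠ 0 := by
    intro h
    have h1 : coeffMap A.subtype v = 0 := congrArg Subtype.val h
    have h2 : v = 0 :=
      res_coeffMap_injective (f := A.subtype) Subtype.val_injective (by rw [h1, map_zero])
    exact hv0 (by rw [h2, map_zero])
  obtain ⟨DU, hDU⟩ := hdiv _ hU0
  obtain ⟨DV, hDV⟩ := hdiv _ hV0
  have hDUmem : DU ∈ integralPrincipalDivisors A π N := ⟨u, huL, huk, hu0, hDU⟩
  have hDVmem : DV ∈ integralPrincipalDivisors A π N := ⟨v, hvL, hvk, hv0, hDV⟩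
  have hDeq : D = DU - DV := by
    ext P
    rw [Finsupp.sub_apply, hDf P, hDU P, hDV P]
    have hrel' : f * (⟨coeffMap A.subtype v, hvL⟩ : laurentBaseChange L (modularFunctionFieldFull N)) =
        algebraMap L (laurentBaseChange L (modularFunctionFieldFull N)) c *
          ⟨coeffMap A.subtype u, huL⟩ := Subtype.ext hrel
    have hc' : algebraMap L (laurentBaseChange L (modularFunctionFieldFull N)) c ≠ 0 := by
      rw [Ne, map_eq_zero]
      exact hc
    have h1 := congrArg P.ord hrel'
    rw [P.ord_mul hf0 hV0, P.ord_mul hc' hU0, res_ord_algebraMap P hc] at h1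
    linarith
  rw [hDeq]
  exact sub_mem (AddSubgroup.subset_closure hDUmem) (AddSubgroup.subset_closure hDVmem)

/-- **`PrincipalGeneratedByIntegral`** from `HasPrincipalDivisors`. -/
theorem principalGeneratedByIntegral (A : ValuationSubring L) (π : A →+* k) (hN : (N : k) ≠ 0)
    [HasPrincipalDivisors L (laurentBaseChange L (modularFunctionFieldFull N))] :
    PrincipalGeneratedByIntegral A π N :=
  principalGeneratedByIntegral_of_exists_div N A π hN fun g hg => by
    obtain ⟨D, hD, -⟩ := HasPrincipalDivisors.exists_divisor (K := L) g hg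
    exact ⟨D, hD⟩

end Main

/-! ### 6. The case of `reductionModL` -/

section ModL

/-- If the valuation ring `A` lies over the prime `ℓ` and `ℓ ∤ N`, then `N ≠ 0` in the residue
field of `A`. -/
theorem res_natCast_residue_ne_zero {L : Type*} [Field L] (A : ValuationSubring L) {ℓ N : ℕ}
    (hℓ : ℓ.Prime) (hℓN : ¬ ℓ ∣ N) (hA : A.LiesOverPrime ℓ) :
    (N : IsLocalRing.ResidueField A) ≠ 0 := by
  obtain ⟨hmem, hmax⟩ := ValuationSubring.mem_nonunits_iff_exists_mem_maximalIdeal.mp hA
  have hℓ0 : ((ℓ : ℕ) : IsLocalRing.ResidueField A) = 0 := by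
    have h1 : IsLocalRing.residue A ⟨(ℓ : L), hmem⟩ = 0 :=
      (IsLocalRing.residue_eq_zero_iff _).mpr hmax
    have h2 : (⟨(ℓ : L), hmem⟩ : A) = ((ℓ : ℕ) : A) := Subtype.ext (by simp)
    rw [h2, map_natCast] at h1
    exact h1
  intro hN0
  have hcop : IsCoprime (ℓ : ℤ) (N : ℤ) :=
    Nat.isCoprime_iff_coprime.mpr ((Nat.Prime.coprime_iff_not_dvd hℓ).mpr hℓN)
  obtain ⟨a, b, hab⟩ := hcop
  have h3 := congrArg (Int.cast : ℤ → IsLocalRing.ResidueField A) hab
  simp only [Int.cast_add, Int.cast_mul, Int.cast_natCast, hℓ0, hN0, mul_zero, add_zero,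
    Int.cast_one] at h3
  exact zero_ne_one h3

/-- **RI-G** for `reductionModL`: `PrincipalGeneratedByIntegral A (residue A) N` for a valuation
ring `A` of `ℚ̄` over a prime `ℓ ∤ N`, given that nonzero functions on `X₀(N)` have divisors. -/
theorem principalGeneratedByIntegral_modL (A : ValuationSubring (AlgebraicClosure ℚ)) (N : ℕ)
    [NeZero N] {ℓ : ℕ} (hℓ : ℓ.Prime) (hℓN : ¬ ℓ ∣ N) (hA : A.LiesOverPrime ℓ)
    (hdiv : ∀ g : modularFunctionFieldBar N, g ≠ 0 →
      ∃ D : Divisor (AlgebraicClosure ℚ) (modularFunctionFieldBar N), ∀ P, D P = P.ord g) :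
    PrincipalGeneratedByIntegral A (IsLocalRing.residue A) N :=
  principalGeneratedByIntegral_of_exists_div N A (IsLocalRing.residue A)
    (res_natCast_residue_ne_zero A hℓ hℓN hA) hdiv

/-- For `reductionModL`: an `A`-integral element of the function field of `X₀(N)` over `ℚ̄`
reduces into the function field over the residue field (`ℓ ∤ N`). -/
theorem coeffMap_residue_mem_fullC_modL (A : ValuationSubring (AlgebraicClosure ℚ)) (N : ℕ)
    [NeZero N] {ℓ : ℕ} (hℓ : ℓ.Prime) (hℓN : ¬ ℓ ∣ N) (hA : A.LiesOverPrime ℓ)
    (y : LaurentSeries A) (hy : coeffMap A.subtype y ∈ modularFunctionFieldBar N) :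
    coeffMap (IsLocalRing.residue A) y ∈
      modularFunctionFieldFullC (IsLocalRing.ResidueField A) N :=
  coeffMap_residue_mem_fullC' N A (IsLocalRing.residue A)
    (res_natCast_residue_ne_zero A hℓ hℓN hA) y hy

end ModL

end Fermat.Agent.S37.Deg
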