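/-
S18 RED / R5 support (helper7251): the function field `K(j(q^d) : d ∣ N) ⊆ K((q))` over `K(j)`:

* `transcendental_jFullC` : `j` is transcendental over `K`;
* `finrank_fullC` : the degree over `K(j)` is `ψ(N)` when `N ≠ 0` in `K` (any characteristic);
* `isSeparable_fullC` : the extension is separable (NO hypothesis on the characteristic);
* `finrank_bar` : `[ℚ̄(X₀(N)) : ℚ̄(j)] = ψ(N)`.

Separability: for a prime `p` the modular polynomial `Φ_p(X; Y) ∈ ℤ[Y][X]` satisfies
`Φ_p(j(q^{mp}); j(q^m)) = 0` and the coefficient of `q^{-p²}` in `∂_X Φ_p (j(q^p); j)` is `1`, so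
`j(q^{mp})` is a simple root of `Φ_p(X; j(q^m))` over every field.
-/
import Fermat.Agent.S37.Deg.Res

set_option autoImplicit false

noncomputable section

namespace Fermat.Agent.S37.Deg

open ModularCurve Polynomial IntermediateField

/-! ### Simple roots are separable -/

theorem isSeparable_of_aeval_derivative_ne_zero {F M : Type*} [Field F] [Field M] [Algebra F M]
    {x : M} {P : F[X]} (h0 : aeval x P = 0) (h1 : aeval x (derivative P) ≠ 0) :
    IsSeparable F x := by
  have hP : P ≠ 0 := by
    rintro rfl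
    simp at h1
  have hint : IsIntegral F x := isAlgebraic_iff_isIntegral.mp ⟨P, hP, h0⟩
  obtain ⟨Q, hQ⟩ := minpoly.dvd F x h0
  have hirr := minpoly.irreducible hint
  rw [IsSeparable, Polynomial.separable_iff_derivative_ne_zero hirr]
  intro hd
  apply h1
  rw [hQ, derivative_mul, hd, zero_mul, zero_add, map_mul, minpoly.aeval, zero_mul]

theorem isSeparable_of_ev2 {E M : Type*} [Field E] [Field M] [Algebra E M] (x : M) (y₀ : E)
    (Φ : ℤ[X][X]) (h0 : ev2 x (algebraMap E M y₀) Φ = 0)
    (h1 : ev2 x (algebraMap E M y₀) (derivative Φ) ≠ 0) : IsSeparable E x := by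
  have key : ∀ P : ℤ[X][X], aeval x (polyAt y₀ P) = ev2 x (algebraMap E M y₀) P := by
    intro P
    rw [ev2_eq_eval, ← map_polyAt (algebraMap E M) y₀ P, aeval_def, eval₂_eq_eval_map]
  apply isSeparable_of_aeval_derivative_ne_zero (P := polyAt y₀ Φ)
  · rw [key, h0]
  · rw [derivative_polyAt, key]
    exact h1

/-- The derivative of the modular polynomial does not vanish at `(j(q^{mp}); j(q^m))`, over any
nontrivial ring. -/
theorem PrimeLevelData.deriv_expand_ne_zero {p : ℕ} [NeZero p] (D : PrimeLevelData p)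
    (R : Type*) [CommRing R] [Nontrivial R] (m : ℕ) [NeZero m] [NeZero (m * p)] :
    ev2 (jqNModC R (m * p)) (jqNModC R m) (derivative D.Φ) ≠ 0 := by
  have h : castExpand R m (ev2 (jqNModC ℤ p) (jqModC ℤ) (derivative D.Φ)) =
      ev2 (jqNModC R (m * p)) (jqNModC R m) (derivative D.Φ) := by
    rw [map_ev2, castExpand_jqNModC, castExpand_jqModC]
  rw [← h, castExpand, RingHom.comp_apply]
  intro h0
  have h1 : coeffMap (Int.castRingHom R) (ev2 (jqNModC ℤ p) (jqModC ℤ) (derivative D.Φ)) = 0 :=
    qExpand_injective (R := R) (N := m) (by rw [h0, map_zero])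
  have h2 := congrArg (fun f => f.coeff (-((p : ℤ) ^ 2))) h1
  simp only [coeffMap_coeff, D.deriv_coeff, HahnSeries.coeff_zero, eq_intCast, Int.cast_one] at h2
  exact one_ne_zero h2

/-! ### Transfer between `K⟮x⟯ ⊆ F` and intermediate fields of the ambient field -/

theorem finrank_adjoin_simple_eq_relfinrank {K M : Type*} [Field K] [Field M] [Algebra K M]
    (F : IntermediateField K M) (x : F) :
    Module.finrank K⟮x⟯ F = (IntermediateField.adjoin K {(x : M)}).relfinrank F := by
  rw [← IntermediateField.relfinrank_top_right,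
    ← IntermediateField.relfinrank_map_map (K⟮x⟯) ⊤ F.val]
  congr 1
  · rw [IntermediateField.adjoin_map, Set.image_singleton]
    rfl
  · rw [← AlgHom.fieldRange_eq_map, IntermediateField.fieldRange_val]

theorem adjoin_over_simple_eq_top {K M : Type*} [Field K] [Field M] [Algebra K M]
    (F : IntermediateField K M) (S : Set M) (hF : F = IntermediateField.adjoin K S) (x : F)
    (S' : Set F) (hS : ∀ y ∈ S, ∃ y' ∈ S', (y' : M) = y) :
    IntermediateField.adjoin K⟮x⟯ S' = ⊤ := by
  rw [eq_top_iff]
  intro z _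
  have h1 : IntermediateField.adjoin K S ≤
      IntermediateField.lift ((IntermediateField.adjoin K⟮x⟯ S').restrictScalars K) := by
    rw [IntermediateField.adjoin_le_iff]
    intro y hy
    obtain ⟨y', hy', rfl⟩ := hS y hy
    refine (IntermediateField.mem_lift y').mpr ?_
    rw [IntermediateField.mem_restrictScalars]
    exact IntermediateField.subset_adjoin K⟮x⟯ S' hy'
  have hz := (IntermediateField.mem_lift z).mp (h1 (by rw [← hF]; exact z.2))
  rwa [IntermediateField.mem_restrictScalars] at hz

/-! ### The function field over `K(j)` -/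

section Full

variable (K : Type*) [Field K] (N : ℕ) [NeZero N]

/-- `j` as an element of the function field. -/
def jFullC : modularFunctionFieldFullC K N := ⟨jqModC K, jqModC_mem_full K N⟩

/-- `j(q^d)`, `d ∣ N`, as an element of the function field. -/
def jdFullC (d : ℕ) [NeZero d] (hd : d ∣ N) : modularFunctionFieldFullC K N :=
  ⟨jqNModC K d, jqModCd_mem_full K N hd⟩

omit [NeZero N] in
theorem transcendental_jFullC : Transcendental K (jFullC K N) := by
  rintro ⟨P, hP, h⟩
  apply aeval_jqModC_ne_zero K hP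
  have h1 := congrArg (modularFunctionFieldFullC K N).val h
  rwa [map_zero, ← aeval_algHom_apply] at h1

theorem finrank_fullC (hN : (N : K) ≠ 0) :
    Module.finrank K⟮jFullC K N⟯ (modularFunctionFieldFullC K N) = dedekindPsi N := by
  rw [finrank_adjoin_simple_eq_relfinrank]
  exact relfinrank_full_eq_dedekindPsi K N hN

theorem finiteDimensional_fullC (hN : (N : K) ≠ 0) :
    FiniteDimensional K⟮jFullC K N⟯ (modularFunctionFieldFullC K N) :=
  have : Module.Free K⟮jFullC K N⟯ (modularFunctionFieldFullC K N) :=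
    Module.Free.of_divisionRing _ _
  Module.finite_of_finrank_pos (by rw [finrank_fullC K N hN]; exact dedekindPsi_pos_of_neZero N)

omit [NeZero N] in
theorem ev2_jdFullC {m p : ℕ} [NeZero m] [NeZero (m * p)] (hm : m ∣ N) (hmp : m * p ∣ N)
    (P : ℤ[X][X]) :
    ((ev2 (jdFullC K N (m * p) hmp) (jdFullC K N m hm) P : modularFunctionFieldFullC K N) :
        LaurentSeries K) = ev2 (jqNModC K (m * p)) (jqNModC K m) P :=
  map_ev2 (algebraMap (modularFunctionFieldFullC K N) (LaurentSeries K)) _ _ P

omit [NeZero N] in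
theorem jdFullC_congr {d d' : ℕ} [NeZero d] [NeZero d'] (h : d = d') (hd : d ∣ N) :
    jdFullC K N d hd = jdFullC K N d' (h ▸ hd) := by
  subst h
  rfl

omit [NeZero N] in
theorem isSeparable_jdFullC_step {m p : ℕ} [NeZero m] [NeZero p] [NeZero (m * p)] (hp : p.Prime)
    (hm : m ∣ N) (hmp : m * p ∣ N)
    (ihm : IsSeparable K⟮jFullC K N⟯ (jdFullC K N m hm)) :
    IsSeparable K⟮jFullC K N⟯ (jdFullC K N (m * p) hmp) := by
  obtain ⟨D⟩ := exists_primeLevelData p hp
  let E : IntermediateField K⟮jFullC K N⟯ (modularFunctionFieldFullC K N) :=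
    K⟮jFullC K N⟯⟮jdFullC K N m hm⟯
  have : Algebra.IsSeparable K⟮jFullC K N⟯ E :=
    (isSeparable_adjoin_simple_iff_isSeparable _ _).mpr ihm
  let y₀ : E := ⟨jdFullC K N m hm, mem_adjoin_simple_self _ _⟩
  have hsepE : IsSeparable E (jdFullC K N (m * p) hmp) := by
    refine isSeparable_of_ev2 (jdFullC K N (m * p) hmp) y₀ D.Φ ?_ ?_
    · apply Subtype.ext
      show ((ev2 (jdFullC K N (m * p) hmp) (jdFullC K N m hm) D.Φ :
        modularFunctionFieldFullC K N) : LaurentSeries K) = 0
      rw [ev2_jdFullC]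
      exact D.root_jp_expand K m
    · intro h0
      have h3 : ((ev2 (jdFullC K N (m * p) hmp) (jdFullC K N m hm) (derivative D.Φ) :
        modularFunctionFieldFullC K N) : LaurentSeries K) = 0 := congrArg Subtype.val h0
      rw [ev2_jdFullC] at h3
      exact D.deriv_expand_ne_zero K m h3
  exact IsSeparable.of_algebra_isSeparable_of_isSeparable K⟮jFullC K N⟯ hsepE

omit [NeZero N] in
/-- every `j(q^d)`, `d ∣ N`, is separable over `K(j)` -/
theorem isSeparable_jdFullC : ∀ (d : ℕ) [NeZero d] (hd : d ∣ N),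
    IsSeparable K⟮jFullC K N⟯ (jdFullC K N d hd) := by
  intro d
  induction d using Nat.strong_induction_on with
  | _ d ih =>
    intro hd0 hd
    by_cases h1 : d = 1
    · subst h1
      have h2 : jdFullC K N 1 hd =
          algebraMap K⟮jFullC K N⟯ (modularFunctionFieldFullC K N)
            ⟨jFullC K N, mem_adjoin_simple_self K _⟩ := by
        apply Subtype.ext
        show jqNModC K 1 = jqModC K
        exact jqNModC_one K
      rw [h2]
      exact isSeparable_algebraMap _
    have hp : d.minFac.Prime := Nat.minFac_prime h1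
    obtain ⟨m, hm⟩ := Nat.minFac_dvd d
    have hdm : d = m * d.minFac := by rw [mul_comm]; exact hm
    have hm0 : m ≠ 0 := by
      rintro rfl
      exact (NeZero.ne d) (by rw [hdm, zero_mul])
    have : NeZero m := ⟨hm0⟩
    have : NeZero d.minFac := ⟨hp.ne_zero⟩
    have : NeZero (m * d.minFac) := ⟨mul_ne_zero hm0 hp.ne_zero⟩
    have hmlt : m < d := by
      have h2 := hp.two_le
      have h3 : 0 < m := Nat.pos_of_ne_zero hm0
      nlinarith
    have hmN : m ∣ N := (Dvd.intro _ hdm.symm).trans hd
    have ihm := ih m hmlt hmN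
    rw [jdFullC_congr K N hdm hd]
    exact isSeparable_jdFullC_step K N hp hmN _ ihm

omit [NeZero N] in
/-- The function field is generated over `K(j)` by the `j(q^d)`. -/
theorem adjoin_jdFullC_eq_top :
    IntermediateField.adjoin K⟮jFullC K N⟯
      {y : modularFunctionFieldFullC K N | ∃ (d : ℕ) (_ : NeZero d) (hd : d ∣ N),
        y = jdFullC K N d hd} = ⊤ := by
  refine adjoin_over_simple_eq_top (modularFunctionFieldFullC K N) (divisorExpansionsC K N) rfl
    (jFullC K N) _ ?_
  rintro y ⟨d, hd0, hd, rfl⟩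
  exact ⟨jdFullC K N d hd, ⟨d, hd0, hd, rfl⟩, rfl⟩

omit [NeZero N] in
/-- **Separability** of `K(j(q^d) : d ∣ N)` over `K(j)`, in every characteristic. -/
theorem isSeparable_fullC :
    Algebra.IsSeparable K⟮jFullC K N⟯ (modularFunctionFieldFullC K N) := by
  have : Algebra.IsSeparable K⟮jFullC K N⟯
      (IntermediateField.adjoin K⟮jFullC K N⟯
        {y : modularFunctionFieldFullC K N | ∃ (d : ℕ) (_ : NeZero d) (hd : d ∣ N),
          y = jdFullC K N d hd}) := by
    rw [IntermediateField.isSeparable_adjoin_iff_isSeparable]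
    rintro y ⟨d, hd0, hd, rfl⟩
    exact isSeparable_jdFullC K N d hd
  refine ⟨fun x => ?_⟩
  refine IntermediateField.isSeparable_of_mem_isSeparable _ _
    (L := IntermediateField.adjoin K⟮jFullC K N⟯
      {y : modularFunctionFieldFullC K N | ∃ (d : ℕ) (_ : NeZero d) (hd : d ∣ N),
        y = jdFullC K N d hd}) ?_
  rw [adjoin_jdFullC_eq_top]
  trivial

end Full

/-! ### Characteristic zero: `[L(X₀(N)) : L(j)] = ψ(N)` -/

section Bar

variable (L : Type*) [Field L] [Algebra ℚ L] (N : ℕ) [NeZero N]

theorem coeffEmb_jq : coeffEmb L jq = jqModC L := by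
  rw [coeffEmb, ← jqModC_rat, coeffMap_jqModC]

/-- `[L(X₀(N)) : L(j)] = ψ(N)` for every field `L ⊇ ℚ`. -/
theorem finrank_laurentBaseChange (x : laurentBaseChange L (modularFunctionFieldFull N))
    (hx : (x : LaurentSeries L) = coeffEmb L jq) :
    Module.finrank L⟮x⟯ (laurentBaseChange L (modularFunctionFieldFull N)) = dedekindPsi N := by
  have hchar : CharZero L := charZero_of_injective_algebraMap (algebraMap ℚ L).injective
  rw [finrank_adjoin_simple_eq_relfinrank, hx, laurentBaseChange_full_eq, coeffEmb_jq]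
  exact relfinrank_full_eq_dedekindPsi L N (Nat.cast_ne_zero.mpr (NeZero.ne N))

end Bar

end Fermat.Agent.S37.Deg
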