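import Fermat.Agent.S37.Deg.Indep

set_option autoImplicit false

noncomputable section

namespace Fermat.Agent.S37.Deg

open ModularCurve Polynomial

theorem ev2_jqN_jq (K : Type*) [Field K] {p : ℕ} [NeZero p] (D : PrimeLevelData p) :
    ev2 (jqNModC K p) (jqModC K) D.Φ = 0 := by
  have h := congrArg (coeffMap (Int.castRingHom K)) D.root_jp
  rwa [map_ev2, coeffMap_jqModC, coeffMap_jqNModC, map_zero] at h

theorem ev2_jq_jqN (K : Type*) [Field K] {p : ℕ} [NeZero p] (D : PrimeLevelData p) :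
    ev2 (jqModC K) (jqNModC K p) D.Φ = 0 := by
  have h := congrArg (coeffMap (Int.castRingHom K)) D.root_j
  rwa [map_ev2, coeffMap_jqModC, coeffMap_jqNModC, map_zero] at h

theorem not_natCast_dvd_neg_one {p : ℕ} (hp : 2 ≤ p) : ¬ (p : ℤ) ∣ -1 := by
  intro h
  have h1 : (p : ℤ) ∣ 1 := (dvd_neg.mp h)
  have h2 : p ∣ 1 := Int.natCast_dvd_natCast.mp (by simpa using h1)
  have h3 : p = 1 := Nat.dvd_one.mp h2
  omega

/-- **Degree at prime level.** The minimal polynomial of `j(q^p)` over `K(j)` has degree `p+1`. -/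
theorem natDegree_minpoly_jqN_prime (p : ℕ) [NeZero p] (hp : p.Prime) (D : PrimeLevelData p)
    (K : Type*) [Field K] (hpK : (p : K) ≠ 0) :
    (minpoly (IntermediateField.adjoin K {jqModC K}) (jqNModC K p)).natDegree = p + 1 := by
  set J := jqModC K with hJ
  set Jp := jqNModC K p with hJp
  set A := IntermediateField.adjoin K {J} with hA
  have hJmem : J ∈ A := IntermediateField.mem_adjoin_simple_self K J
  set f₀ : A[X] := polyAt (⟨J, hJmem⟩ : A) D.Φ with hf₀
  have hf₀monic : f₀.Monic := polyAt_monic _ D.Φ_monic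
  have hf₀deg : f₀.natDegree = p + 1 := by rw [natDegree_polyAt _ D.Φ_monic, D.Φ_natDegree]
  have hfL : f₀.map (algebraMap A (LaurentSeries K)) = polyAt J D.Φ := map_polyAt _ _ _
  have hroot : aeval Jp f₀ = 0 := by
    rw [aeval_def, ← eval_map, hfL, ← ev2_eq_eval]
    exact ev2_jqN_jq K D
  have hint : IsIntegral A Jp := ⟨f₀, hf₀monic, hroot⟩
  set μ := minpoly A Jp with hμ
  have hμmonic : μ.Monic := minpoly.monic hint
  obtain ⟨ν, hν⟩ : μ ∣ f₀ := minpoly.dvd A Jp hroot
  have hνmonic : ν.Monic := hμmonic.of_mul_monic_left (hν ▸ hf₀monic)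
  have hdegsum : μ.natDegree + ν.natDegree = p + 1 := by
    rw [← hf₀deg, hν, hμmonic.natDegree_mul hνmonic]
  by_contra hne
  have hd_le : μ.natDegree ≤ p := by omega
  have hd_pos : 0 < μ.natDegree := minpoly.natDegree_pos hint
  have hd_ne1 : μ.natDegree ≠ 1 := by
    intro h1
    obtain ⟨y, hy⟩ := minpoly.natDegree_eq_one_iff.mp h1
    refine jqN_prime_not_mem_adjoin p hp.two_le D K hpK ?_
    rw [← hJp, ← hy]
    exact y.2
  -- the maps
  let ι : A →+* LaurentSeries K := algebraMap A (LaurentSeries K)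
  let σ : LaurentSeries K →+* LaurentSeries K := qExpand K p
  have hσJ : σ J = Jp := rfl
  have hprod : ((μ.map ι).map σ).eval J * ((ν.map ι).map σ).eval J = 0 := by
    rw [← eval_mul, ← Polynomial.map_mul, ← Polynomial.map_mul, ← hν, hfL, map_polyAt,
      ← ev2_eq_eval, hσJ]
    exact ev2_jq_jqN K D
  rcases mul_eq_zero.mp hprod with h | h
  · -- the factor `μ`
    have hrootμ : (μ.map ι).IsRoot Jp := by
      rw [IsRoot, eval_map, ← aeval_def]; exact minpoly.aeval A Jp
    have hfac : (X - C Jp) * ((μ.map ι) /ₘ (X - C Jp)) = μ.map ι :=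
      mul_divByMonic_eq_iff_isRoot.mpr hrootμ
    set μ' := (μ.map ι) /ₘ (X - C Jp) with hμ'
    have hμ'0 : μ' ≠ 0 := by
      intro h0
      rw [h0, mul_zero] at hfac
      exact (hμmonic.map ι).ne_zero hfac.symm
    have hμ'deg : μ'.natDegree < p := by
      rw [hμ', natDegree_divByMonic _ (monic_X_sub_C Jp), natDegree_X_sub_C, natDegree_map]
      omega
    rw [← hfac, Polynomial.map_mul, eval_mul, Polynomial.map_sub, map_X, map_C, eval_sub, eval_X,
      eval_C] at h
    rcases mul_eq_zero.mp h with h | h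
    · have hc : (J - σ Jp).coeff (-1) = 1 := by
        rw [HahnSeries.coeff_sub, hJ, coeff_jqModC_neg_one,
          qExpand_coeff_of_not_dvd p _ (not_natCast_dvd_neg_one hp.two_le), sub_zero]
      rw [h, HahnSeries.coeff_zero] at hc
      exact zero_ne_one hc
    · refine eval_jqModC_ne_zero_of_range K p (g := μ'.map σ) (Polynomial.map_ne_zero hμ'0) ?_
        (fun i => ⟨μ'.coeff i, (coeff_map σ i).symm⟩) h
      rw [natDegree_map]
      exact hμ'deg
  · -- the factor `ν`
    refine eval_jqModC_ne_zero_of_range K p (g := (ν.map ι).map σ)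
      (Polynomial.map_ne_zero (Polynomial.map_ne_zero hνmonic.ne_zero)) ?_
      (fun i => ⟨(ν.map ι).coeff i, (coeff_map σ i).symm⟩) h
    rw [natDegree_map, natDegree_map]
    omega

end Fermat.Agent.S37.Deg
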