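/-
S28 Route H: roots of the modular polynomial over a field with a primitive `p`-th root of unity.

For `ζ` a primitive `p`-th root of unity in a field `K` and `t` the variable of `K((t))`:
`Φ_p(X; j(t^p)) = (X - j(t^(p^2))) * ∏_{b < p} (X - j(ζ^b t))`.
The twist `t ↦ ζ t` is adapted from helper9628's `tw`.
-/
import Fermat.Agent.S37.Deg.PrimeCase

set_option autoImplicit false

noncomputable section

namespace Fermat.Agent.S37.Deg

open ModularCurve Polynomial

/-! ### The twist `q ↦ ζ q` -/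

/-- The twist `q ↦ ζ q` on Laurent series: `∑ aₙ qⁿ ↦ ∑ aₙ ζⁿ qⁿ`. -/
def twistFun {K : Type*} [CommRing K] (ζ : Kˣ) (f : LaurentSeries K) : LaurentSeries K where
  coeff n := ((ζ ^ n : Kˣ) : K) * f.coeff n
  isPWO_support' := f.isPWO_support.mono (fun n hn => by
    simp only [Function.mem_support, ne_eq, HahnSeries.mem_support] at hn ⊢
    intro h; exact hn (by rw [h, mul_zero]))

theorem twistFun_coeff {K : Type*} [CommRing K] (ζ : Kˣ) (f : LaurentSeries K) (n : ℤ) :
    (twistFun ζ f).coeff n = ((ζ ^ n : Kˣ) : K) * f.coeff n := rfl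

theorem twistFun_support {K : Type*} [CommRing K] (ζ : Kˣ) (f : LaurentSeries K) :
    (twistFun ζ f).support = f.support := by
  ext n
  simp only [HahnSeries.mem_support, twistFun_coeff, ne_eq, Units.mul_right_eq_zero]

theorem twistFun_mul {K : Type*} [CommRing K] (ζ : Kˣ) (f g : LaurentSeries K) :
    twistFun ζ (f * g) = twistFun ζ f * twistFun ζ g := by
  ext n
  rw [twistFun_coeff, HahnSeries.coeff_mul, HahnSeries.coeff_mul, Finset.mul_sum]
  have hfin : Finset.antidiagonal (twistFun ζ f).isPWO_support (twistFun ζ g).isPWO_support n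
      = Finset.antidiagonal f.isPWO_support g.isPWO_support n := by
    ext ij
    simp only [Finset.mem_antidiagonal, twistFun_support]
  rw [hfin]
  refine Finset.sum_congr rfl fun ij hij => ?_
  have hn : ij.1 + ij.2 = n := (Finset.mem_antidiagonal.mp hij).2.2
  rw [twistFun_coeff, twistFun_coeff, ← hn, zpow_add, Units.val_mul]
  ring

/-- The twist as a ring homomorphism. -/
def twistHom {K : Type*} [CommRing K] (ζ : Kˣ) : LaurentSeries K →+* LaurentSeries K where
  toFun := twistFun ζ
  map_one' := by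
    ext n
    rw [twistFun_coeff, HahnSeries.coeff_one]
    split_ifs with h
    · subst h; simp
    · simp
  map_mul' := twistFun_mul ζ
  map_zero' := by ext n; simp [twistFun_coeff]
  map_add' f g := by ext n; simp [twistFun_coeff, mul_add]

@[simp] theorem twistHom_coeff {K : Type*} [CommRing K] (ζ : Kˣ) (f : LaurentSeries K) (n : ℤ) :
    (twistHom ζ f).coeff n = ((ζ ^ n : Kˣ) : K) * f.coeff n := rfl

theorem twistHom_qExpand {K : Type*} [CommRing K] (ζ : Kˣ) (p : ℕ) [NeZero p] (hζ : ζ ^ p = 1)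
    (f : LaurentSeries K) : twistHom ζ (qExpand K p f) = qExpand K p f := by
  ext n
  rw [twistHom_coeff]
  by_cases hd : (p : ℤ) ∣ n
  · obtain ⟨k, rfl⟩ := hd
    rw [zpow_mul, zpow_natCast, hζ, one_zpow, Units.val_one, one_mul]
  · rw [qExpand_coeff_of_not_dvd p f hd, mul_zero]

/-! ### A monic polynomial with enough roots -/

theorem eq_prod_of_roots {F : Type*} [Field F] {f : F[X]} (hf : f.Monic) {ι : Type*}
    (s : Finset ι) (a : ι → F) (ha : Set.InjOn a s) (hroot : ∀ i ∈ s, f.eval (a i) = 0)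
    (hcard : f.natDegree = s.card) : f = ∏ i ∈ s, (X - C (a i)) := by
  classical
  have hf0 : f ≠ 0 := hf.ne_zero
  have hsub : (s.image a).val ≤ f.roots := by
    rw [Multiset.le_iff_subset (s.image a).nodup]
    intro x hx
    obtain ⟨i, hi, rfl⟩ := Finset.mem_image.mp hx
    exact (mem_roots hf0).mpr (hroot i hi)
  have hcard' : (s.image a).card = s.card := Finset.card_image_of_injOn ha
  have heq : (s.image a).val = f.roots := by
    refine Multiset.eq_of_le_of_card_le hsub ?_
    calc Multiset.card f.roots ≤ f.natDegree := card_roots' f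
      _ = (s.image a).card := by rw [hcard, hcard']
  have hsplit : Multiset.card f.roots = f.natDegree := by
    rw [← heq, hcard]; exact hcard'
  have h := prod_multiset_X_sub_C_of_monic_of_roots_card_eq hf hsplit
  rw [← h, ← heq]
  exact Finset.prod_image (f := fun x => X - C x) (fun i hi j hj hij => ha hi hj hij)

/-! ### The roots of `Φ_p(X; j(t^p))` -/

section roots

variable (K : Type*) [Field K] (p : ℕ) [NeZero p]

/-- The `p + 1` roots of `Φ_p(X; j(t^p))` in `K((t))`: `j(t^(p^2))` and `j(ζ^b t)`, `b < p`. -/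
def rootFam (ζ : Kˣ) : Option (Fin p) → LaurentSeries K
  | none => jqNModC K (p * p)
  | some b => twistHom (ζ ^ (b : ℕ)) (jqModC K)

theorem rootFam_some_coeff (ζ : Kˣ) (b : Fin p) :
    (rootFam K p ζ (some b)).coeff (-1) = (((ζ ^ (b : ℕ))⁻¹ : Kˣ) : K) := by
  rw [rootFam, twistHom_coeff, coeff_jqModC_neg_one, mul_one, zpow_neg_one]

theorem rootFam_none_coeff (hp : 2 ≤ p) (ζ : Kˣ) : (rootFam K p ζ none).coeff (-1) = 0 := by
  rw [rootFam, jqNModC]
  refine qExpand_coeff_of_not_dvd (p * p) _ ?_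
  intro h
  have h1 : ((p * p : ℕ) : ℤ) ∣ 1 := (dvd_neg.mp h)
  have h2 : (p * p : ℕ) ∣ 1 := Int.natCast_dvd_natCast.mp (by simpa using h1)
  have h3 : p * p = 1 := Nat.dvd_one.mp h2
  nlinarith

theorem rootFam_injective (hp : 2 ≤ p) {ζ : Kˣ} (hζ : IsPrimitiveRoot ζ p) :
    Function.Injective (rootFam K p ζ) := by
  intro i j hij
  have hc : (rootFam K p ζ i).coeff (-1) = (rootFam K p ζ j).coeff (-1) := by rw [hij]
  rcases i with _ | b <;> rcases j with _ | b'
  · rfl
  · rw [rootFam_none_coeff K p hp, rootFam_some_coeff] at hc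
    exact absurd hc.symm (Units.ne_zero _)
  · rw [rootFam_none_coeff K p hp, rootFam_some_coeff] at hc
    exact absurd hc (Units.ne_zero _)
  · rw [rootFam_some_coeff, rootFam_some_coeff] at hc
    have h1 : ζ ^ (b : ℕ) = ζ ^ (b' : ℕ) := inv_injective (Units.ext hc)
    have h2 : (b : ℕ) = b' := hζ.pow_inj b.2 b'.2 h1
    rw [Fin.ext h2]

variable {p} in
theorem ev2_rootFam (D : PrimeLevelData p) {ζ : Kˣ} (hζ : ζ ^ p = 1) (i : Option (Fin p)) :
    ev2 (rootFam K p ζ i) (jqNModC K p) D.Φ = 0 := by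
  rcases i with _ | b
  · exact D.root_jp_expand K p
  · have h := congrArg (coeffMap (Int.castRingHom K)) D.root_j
    rw [map_ev2, coeffMap_jqModC, coeffMap_jqNModC, map_zero] at h
    have h' := congrArg (twistHom (ζ ^ (b : ℕ))) h
    rw [map_ev2, map_zero, jqNModC, twistHom_qExpand _ _ (by rw [← pow_mul, mul_comm, pow_mul,
      hζ, one_pow])] at h'
    exact h'

variable {p} in
/-- `Φ_p(X; j(t^p)) = (X - j(t^(p^2))) ∏_b (X - j(ζ^b t))`. -/
theorem polyAt_jqN_eq_prod (hp : 2 ≤ p) (D : PrimeLevelData p) {ζ : Kˣ}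
    (hζ : IsPrimitiveRoot ζ p) :
    polyAt (jqNModC K p) D.Φ = ∏ i : Option (Fin p), (X - C (rootFam K p ζ i)) := by
  refine eq_prod_of_roots (polyAt_monic _ D.Φ_monic) Finset.univ (rootFam K p ζ)
    ((rootFam_injective K p hp hζ).injOn) (fun i _ => ?_) ?_
  · rw [← ev2_eq_eval]
    exact ev2_rootFam K D hζ.pow_eq_one i
  · rw [natDegree_polyAt _ D.Φ_monic, D.Φ_natDegree, Finset.card_univ, Fintype.card_option,
      Fintype.card_fin]

variable {p} in
/-- The same after the substitution `t ↦ t^m`. -/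
theorem polyAt_jqN_mul_eq_prod (hp : 2 ≤ p) (D : PrimeLevelData p) {ζ : Kˣ}
    (hζ : IsPrimitiveRoot ζ p) (m : ℕ) [NeZero m] [NeZero (m * p)] :
    polyAt (jqNModC K (m * p)) D.Φ =
      ∏ i : Option (Fin p), (X - C (qExpand K m (rootFam K p ζ i))) := by
  have h : polyAt (jqNModC K (m * p)) D.Φ = (polyAt (jqNModC K p) D.Φ).map (qExpand K m) := by
    rw [map_polyAt, jqNModC, jqNModC, qExpand_qExpand]
  rw [h, polyAt_jqN_eq_prod K hp D hζ, Polynomial.map_prod]
  refine Finset.prod_congr rfl fun i _ => ?_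
  rw [Polynomial.map_sub, Polynomial.map_X, Polynomial.map_C]

end roots

end Fermat.Agent.S37.Deg
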