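/-
S28 Route H: the gcd trick.  For primes `p ≠ p'` (both nonzero in the field `K`) and `m ≥ 1`:
`j(q^(p p' m)) ∈ K(j(q^(p m)), j(q^(p' m)))`.

`j(q^(pp'm))` is a common root of `Φ_p(X; j(q^(p'm)))` and `Φ_p'(X; j(q^(pm)))`; over
`K̄((u))`, `q = u^(pp')`, the other roots of the first polynomial are not roots of the second
(their expansions are not series in `u^(p^2 m)`), so the minimal polynomial has degree one.
-/
import Fermat.Agent.S37.Deg.Roots

set_option autoImplicit false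

noncomputable section

namespace Fermat.Agent.S37.Deg

open ModularCurve Polynomial

theorem jqNModC_congr (K : Type*) [CommRing K] {M N : ℕ} [NeZero M] [NeZero N] (h : M = N) :
    jqNModC K M = jqNModC K N := by
  subst h; rfl

theorem roots_prod_X_sub_C_fam {F : Type*} [Field F] {ι : Type*} [Fintype ι] (c : ι → F) :
    (∏ i : ι, (X - C (c i))).roots = Finset.univ.val.map c := by
  rw [roots_prod _ _ (Finset.prod_ne_zero_iff.mpr fun i _ => X_sub_C_ne_zero (c i))]
  simp only [roots_X_sub_C]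
  exact Multiset.bind_singleton _ _

/-- The gcd trick. -/
theorem jqN_mul_mem_adjoin (K : Type*) [Field K] {p p' : ℕ} [NeZero p] [NeZero p']
    (hp : p.Prime) (hp' : p'.Prime) (hne : p ≠ p') (D : PrimeLevelData p)
    (D' : PrimeLevelData p') (hpK : (p : K) ≠ 0) (hp'K : (p' : K) ≠ 0) (m : ℕ) [NeZero m] :
    jqNModC K (p * p' * m) ∈
      IntermediateField.adjoin K {jqNModC K (p * m), jqNModC K (p' * m)} := by
  classical
  set E := IntermediateField.adjoin K {jqNModC K (p * m), jqNModC K (p' * m)} with hE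
  set x₀ := jqNModC K (p * p' * m) with hx₀
  have hmem1 : jqNModC K (p * m) ∈ E :=
    IntermediateField.subset_adjoin K _ (Set.mem_insert _ _)
  have hmem2 : jqNModC K (p' * m) ∈ E :=
    IntermediateField.subset_adjoin K _ (Set.mem_insert_of_mem _ rfl)
  -- the two polynomials over `E`
  set a₀ : E[X] := polyAt (⟨jqNModC K (p' * m), hmem2⟩ : E) D.Φ with ha₀
  set b₀ : E[X] := polyAt (⟨jqNModC K (p * m), hmem1⟩ : E) D'.Φ with hb₀
  have haL : a₀.map (algebraMap E (LaurentSeries K)) = polyAt (jqNModC K (p' * m)) D.Φ :=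
    map_polyAt _ _ _
  have hbL : b₀.map (algebraMap E (LaurentSeries K)) = polyAt (jqNModC K (p * m)) D'.Φ :=
    map_polyAt _ _ _
  have haroot : aeval x₀ a₀ = 0 := by
    rw [aeval_def, ← eval_map, haL, ← ev2_eq_eval, hx₀,
      jqNModC_congr K (show p * p' * m = p' * m * p by ring)]
    exact D.root_jp_expand K (p' * m)
  have hbroot : aeval x₀ b₀ = 0 := by
    rw [aeval_def, ← eval_map, hbL, ← ev2_eq_eval, hx₀,
      jqNModC_congr K (show p * p' * m = p * m * p' by ring)]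
    exact D'.root_jp_expand K (p * m)
  have ha₀monic : a₀.Monic := polyAt_monic _ D.Φ_monic
  have hint : IsIntegral E x₀ := ⟨a₀, ha₀monic, haroot⟩
  have hμa : minpoly E x₀ ∣ a₀ := minpoly.dvd E x₀ haroot
  have hμb : minpoly E x₀ ∣ b₀ := minpoly.dvd E x₀ hbroot
  suffices h1 : (minpoly E x₀).natDegree = 1 by
    obtain ⟨y, hy⟩ := minpoly.natDegree_eq_one_iff.mp h1
    rw [← hy]
    exact y.2
  by_contra hdeg
  have hdeg2 : 2 ≤ (minpoly E x₀).natDegree := by
    have := minpoly.natDegree_pos hint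
    omega
  -- pass to `K̄((u))`, `q = u^(p p')`
  let Kb := AlgebraicClosure K
  let ι : LaurentSeries K →+* LaurentSeries Kb :=
    (qExpand Kb (p * p')).comp (coeffMap (algebraMap K Kb))
  have hι : ∀ (d : ℕ) [NeZero d], ι (jqNModC K d) = jqNModC Kb (p * p' * d) := by
    intro d _
    show qExpand Kb (p * p') (coeffMap (algebraMap K Kb) (jqNModC K d)) = _
    rw [coeffMap_jqNModC, jqNModC, qExpand_qExpand, jqNModC]
  let θ : E →+* LaurentSeries Kb := ι.comp (algebraMap E (LaurentSeries K))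
  have : NeZero (p : K) := ⟨hpK⟩
  obtain ⟨ζ₀, hζ₀⟩ := HasEnoughRootsOfUnity.exists_primitiveRoot Kb p
  obtain ⟨ζ, rfl⟩ := hζ₀.isUnit hp.ne_zero
  have hζ : IsPrimitiveRoot ζ p := IsPrimitiveRoot.coe_units_iff.mp hζ₀
  -- the images of the polynomials
  set m₁ : ℕ := p' * p' * m with hm₁
  set m₂ : ℕ := p * p * m with hm₂
  have haΩ : a₀.map θ = ∏ i : Option (Fin p), (X - C (qExpand Kb m₁ (rootFam Kb p ζ i))) := by
    rw [← Polynomial.map_map, haL, map_polyAt, hι,
      jqNModC_congr Kb (show p * p' * (p' * m) = m₁ * p by rw [hm₁]; ring)]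
    exact polyAt_jqN_mul_eq_prod Kb hp.two_le D hζ m₁
  have : NeZero (p' : K) := ⟨hp'K⟩
  obtain ⟨ζ₁, hζ₁⟩ := HasEnoughRootsOfUnity.exists_primitiveRoot Kb p'
  obtain ⟨ζ', rfl⟩ := hζ₁.isUnit hp'.ne_zero
  have hζ' : IsPrimitiveRoot ζ' p' := IsPrimitiveRoot.coe_units_iff.mp hζ₁
  have hbΩ : b₀.map θ = ∏ i : Option (Fin p'), (X - C (qExpand Kb m₂ (rootFam Kb p' ζ' i))) := by
    rw [← Polynomial.map_map, hbL, map_polyAt, hι,
      jqNModC_congr Kb (show p * p' * (p * m) = m₂ * p' by rw [hm₂]; ring)]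
    exact polyAt_jqN_mul_eq_prod Kb hp'.two_le D' hζ' m₂
  set μΩ := (minpoly E x₀).map θ with hμΩ
  have hμΩa : μΩ ∣ a₀.map θ := Polynomial.map_dvd θ hμa
  have hμΩb : μΩ ∣ b₀.map θ := Polynomial.map_dvd θ hμb
  have haΩ0 : a₀.map θ ≠ 0 := (ha₀monic.map θ).ne_zero
  have hbΩ0 : b₀.map θ ≠ 0 := ((polyAt_monic _ D'.Φ_monic).map θ).ne_zero
  have hμΩ0 : μΩ ≠ 0 := ((minpoly.monic hint).map θ).ne_zero
  have hsplit : (a₀.map θ).Splits := by
    rw [haΩ]
    exact Splits.prod fun i _ => Splits.X_sub_C _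
  have hcard : Multiset.card μΩ.roots = (minpoly E x₀).natDegree := by
    rw [← (hsplit.of_dvd haΩ0 hμΩa).natDegree_eq_card_roots, hμΩ, natDegree_map]
  have hle : μΩ.roots ≤ (a₀.map θ).roots := roots.le_of_dvd haΩ0 hμΩa
  set c : Option (Fin p) → LaurentSeries Kb := fun i => qExpand Kb m₁ (rootFam Kb p ζ i) with hc
  have hcinj : Function.Injective c :=
    (qExpand_injective m₁).comp (rootFam_injective Kb p hp.two_le hζ)
  have hroots : (a₀.map θ).roots = Finset.univ.val.map c := by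
    rw [haΩ]; exact roots_prod_X_sub_C_fam c
  -- a root of `μΩ` different from `c none`
  obtain ⟨α, hα, hαne⟩ : ∃ α ∈ μΩ.roots, α ≠ c none := by
    by_contra hall
    push Not at hall
    have hrep : μΩ.roots = Multiset.replicate (Multiset.card μΩ.roots) (c none) :=
      Multiset.eq_replicate.mpr ⟨rfl, hall⟩
    have h1 := Multiset.count_le_of_le (c none) hle
    rw [hrep, Multiset.count_replicate_self, hroots, Multiset.count_map_eq_count' c _ hcinj,
      hcard] at h1
    have h2 : Multiset.count (none : Option (Fin p)) Finset.univ.val ≤ 1 :=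
      Multiset.nodup_iff_count_le_one.mp Finset.univ.nodup none
    omega
  -- it is of the form `j(ζ^b u^(m₁))`
  have hα' : α ∈ Finset.univ.val.map c := hroots ▸ Multiset.mem_of_le hle hα
  obtain ⟨i, -, rfl⟩ := Multiset.mem_map.mp hα'
  rcases i with _ | b
  · exact hαne rfl
  -- but it is a root of `b₀.map θ`, all of whose roots are series in `u^(m₂)`
  have hαb : (b₀.map θ).IsRoot (c (some b)) :=
    (mem_roots hbΩ0).mp (Multiset.mem_of_le (roots.le_of_dvd hbΩ0 hμΩb) hα)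
  rw [hbΩ, IsRoot, eval_prod, Finset.prod_eq_zero_iff] at hαb
  obtain ⟨i', -, hi'⟩ := hαb
  rw [eval_sub, eval_X, eval_C, sub_eq_zero] at hi'
  have hcoeff : (c (some b)).coeff ((m₁ : ℤ) * (-1)) ≠ 0 := by
    rw [hc, qExpand_coeff_mul, rootFam_some_coeff]
    exact Units.ne_zero _
  apply hcoeff
  rw [hi']
  refine qExpand_coeff_of_not_dvd m₂ _ ?_
  intro hdvd
  have h1 : ((m₂ : ℕ) : ℤ) ∣ ((m₁ : ℕ) : ℤ) := by
    have : (m₁ : ℤ) * (-1) = -(m₁ : ℤ) := by ring
    rw [this] at hdvd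
    exact (dvd_neg.mp hdvd)
  have h2 : m₂ ∣ m₁ := Int.natCast_dvd_natCast.mp h1
  rw [hm₁, hm₂] at h2
  have h3 : p * p ∣ p' * p' :=
    Nat.dvd_of_mul_dvd_mul_right (Nat.pos_of_ne_zero (NeZero.ne m)) h2
  have h4 : p ∣ p' * p' := (dvd_mul_right p p).trans h3
  have h5 : p ∣ p' := (hp.dvd_mul.mp h4).elim id id
  exact hne ((Nat.prime_dvd_prime_iff_eq hp hp').mp h5)

end Fermat.Agent.S37.Deg
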