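import Fermat.Agent.S37.Deg.DegPrime

set_option autoImplicit false

noncomputable section

namespace Fermat.Agent.S37.Deg

open ModularCurve Polynomial

theorem natCast_ne_zero_of_dvd {K : Type*} [Field K] {a b : ℕ} (h : a ∣ b) (hb : (b : K) ≠ 0) :
    (a : K) ≠ 0 := by
  intro ha
  obtain ⟨c, rfl⟩ := h
  apply hb
  rw [Nat.cast_mul, ha, zero_mul]

theorem jqN_mem_full (K : Type*) [Field K] (N : ℕ) {d : ℕ} [NeZero d] (hd : d ∣ N) :
    jqNModC K d ∈ modularFunctionFieldFullC K N := jqModCd_mem_full K N hd

/-- **Generation.** `K(j_d : d ∣ M p) = K(j_d : d ∣ M)(j_{p^(k+1)})` where `p^k ∥ M`. -/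
theorem full_mul_prime_eq_sup
    (hPL : ∀ (p : ℕ) [NeZero p], p.Prime → Nonempty (PrimeLevelData p))
    (K : Type*) [Field K] (M p k : ℕ) [NeZero M] [NeZero p] [NeZero (M * p)]
    [NeZero (p ^ (k + 1))] (hp : p.Prime) (hk : p ^ k ∣ M) (hk' : ¬ p ^ (k + 1) ∣ M)
    (hN : ((M * p : ℕ) : K) ≠ 0) :
    modularFunctionFieldFullC K (M * p) =
      modularFunctionFieldFullC K M ⊔ IntermediateField.adjoin K {jqNModC K (p ^ (k + 1))} := by
  set F := modularFunctionFieldFullC K M ⊔
    IntermediateField.adjoin K {jqNModC K (p ^ (k + 1))} with hF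
  have hx : jqNModC K (p ^ (k + 1)) ∈ F :=
    (le_sup_right : _ ≤ F) (IntermediateField.mem_adjoin_simple_self K _)
  have hpK : (p : K) ≠ 0 := natCast_ne_zero_of_dvd (Dvd.intro_left M rfl) hN
  obtain ⟨D⟩ := hPL p hp
  have hMF : modularFunctionFieldFullC K M ≤ F := le_sup_left
  obtain ⟨M', hM'⟩ := hk
  have hpM' : ¬ p ∣ M' := fun h => hk' (by rw [hM', pow_succ]; exact mul_dvd_mul_left _ h)
  apply le_antisymm
  · rw [modularFunctionFieldFullC, IntermediateField.adjoin_le_iff]
    rintro x ⟨d, hne, hdvd, rfl⟩
    have key : ∀ d : ℕ, ∀ (hd : NeZero d), d ∣ M * p → jqNModC K d ∈ F := by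
      intro d
      induction d using Nat.strong_induction_on with
      | _ d ih =>
        intro hd hdvd
        by_cases hdM : d ∣ M
        · exact hMF (jqN_mem_full K M hdM)
        · have hdvd' : d ∣ p ^ (k + 1) * M' := by
            have e : p ^ (k + 1) * M' = M * p := by rw [hM', pow_succ]; ring
            rw [e]; exact hdvd
          obtain ⟨d₁, d₂, hd₁, hd₂, hdd⟩ := (Nat.dvd_mul).mp hdvd'
          obtain ⟨j, hj, rfl⟩ := (Nat.dvd_prime_pow hp).mp hd₁
          have hj' : j = k + 1 := by
            by_contra hjne
            have hjk : j ≤ k := by omega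
            apply hdM
            rw [← hdd, hM']
            exact mul_dvd_mul (pow_dvd_pow p hjk) hd₂
          subst hj'
          by_cases hd₂1 : d₂ = 1
          · have e : d = p ^ (k + 1) := by rw [← hdd, hd₂1, mul_one]
            rw [jqNModC_congr K e]
            exact hx
          · obtain ⟨p', hp', hp'd⟩ := Nat.exists_prime_and_dvd hd₂1
            obtain ⟨e, he⟩ := hp'd
            have hne : p ≠ p' := by
              rintro rfl
              exact hpM' ((Dvd.intro e he.symm).trans hd₂)
            have : NeZero p' := ⟨hp'.ne_zero⟩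
            have hd0 : d ≠ 0 := NeZero.ne d
            have he0 : e ≠ 0 := by
              rintro rfl
              apply hd0
              rw [← hdd, he, mul_zero, mul_zero]
            set m : ℕ := p ^ k * e with hm
            have : NeZero m := ⟨mul_ne_zero (pow_ne_zero k hp.ne_zero) he0⟩
            have hdeq : d = p * p' * m := by rw [← hdd, he, hm, pow_succ]; ring
            have hp'K : (p' : K) ≠ 0 := by
              refine natCast_ne_zero_of_dvd ?_ hN
              exact ((Dvd.intro e he.symm).trans hd₂).trans
                ((Dvd.intro_left (p ^ k) hM'.symm).trans (Dvd.intro p rfl))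
            obtain ⟨D'⟩ := hPL p' hp'
            have hmem := jqN_mul_mem_adjoin K hp hp' hne D D' hpK hp'K m
            rw [jqNModC_congr K hdeq]
            refine (IntermediateField.adjoin_le_iff.mpr ?_) hmem
            rintro y (rfl | rfl)
            · refine ih (p * m) ?_ inferInstance ?_
              · rw [hdeq]
                have : 2 ≤ p' := hp'.two_le
                have hpm : 0 < p * m := Nat.pos_of_ne_zero (mul_ne_zero hp.ne_zero (NeZero.ne m))
                nlinarith
              · exact (Dvd.intro_left p' (by rw [hdeq]; ring)).trans hdvd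
            · refine ih (p' * m) ?_ inferInstance ?_
              · rw [hdeq]
                have : 2 ≤ p := hp.two_le
                have hpm : 0 < p' * m :=
                  Nat.pos_of_ne_zero (mul_ne_zero hp'.ne_zero (NeZero.ne m))
                nlinarith
              · exact (Dvd.intro_left p (by rw [hdeq]; ring)).trans hdvd
    exact key d hne hdvd
  · refine sup_le (full_degeneracyC_le K (Dvd.intro p rfl)) ?_
    rw [IntermediateField.adjoin_simple_le_iff]
    refine jqN_mem_full K (M * p) ?_
    rw [hM', pow_succ]
    exact ⟨M', by ring⟩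

end Fermat.Agent.S37.Deg
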