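import Mathlib
import Fermat.Prelude.Def_ModularCurve_X0
import Fermat.Prelude.Thm_UpperHalfPlane_qExpansion_prod

/-!
# Bridge between the formal `q`-series of the prelude and Mathlib's analytic modular forms

* `qExpansion_E4` : `qExpansion 1 E₄ = eisenstein4.map (Int.castRingHom ℂ)`
* `qExpansion_discriminant` :
    `qExpansion 1 Δ = X * (etaProd ^ 24).map (Int.castRingHom ℂ)`
* `jNum_mul_qExpansion_discriminant` :
    `jNum.map (Int.castRingHom ℂ) * qExpansion 1 Δ = X * qExpansion 1 E₄ ^ 3`
-/

set_option autoImplicit false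
open ModularCurve ModularForm EisensteinSeries UpperHalfPlane ModularFormClass
open scoped MatrixGroups ArithmeticFunction.sigma PowerSeries.WithPiTopology
open Filter Topology Function

noncomputable section

namespace Fermat.Agent.S37.Deg

local notation "𝕢" => Periodic.qParam

/-! ### `E₄` -/

theorem qExpansion_E4 :
    qExpansion 1 E₄ = eisenstein4.map (Int.castRingHom ℂ) := by
  ext m
  rw [E_qExpansion_coeff (by norm_num) ⟨2, rfl⟩ m, PowerSeries.coeff_map, eisenstein4,
    PowerSeries.coeff_mk]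
  have hb : bernoulli 4 = -1 / 30 := by decide +kernel
  split_ifs with h
  · simp
  · simp only [hb, ArithmeticFunction.sigma_apply, eq_intCast]
    push_cast
    ring

/-! ### The formal eta product -/

/-- partial products of the formal eta product, as integer polynomials -/
def etaPoly (M : ℕ) : Polynomial ℤ := ∏ i ∈ Finset.range M, (1 - Polynomial.X ^ (i + 1))

theorem etaPoly_succ (M : ℕ) : etaPoly (M + 1) = etaPoly M * (1 - Polynomial.X ^ (M + 1)) := by
  rw [etaPoly, Finset.prod_range_succ]; rfl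

theorem coeff_etaPoly_succ {m M : ℕ} (h : m ≤ M) :
    (etaPoly (M + 1)).coeff m = (etaPoly M).coeff m := by
  rw [etaPoly_succ, mul_sub, mul_one, Polynomial.coeff_sub, Polynomial.coeff_mul_X_pow']
  have : ¬ (M + 1 ≤ m) := by omega
  simp [this]

theorem coeff_etaPoly_stable {m M M' : ℕ} (h : m ≤ M) (h' : M ≤ M') :
    (etaPoly M').coeff m = (etaPoly M).coeff m := by
  induction M', h' using Nat.le_induction with
  | base => rfl
  | succ k hk ih => rw [coeff_etaPoly_succ (h.trans hk), ih]

theorem coe_etaPoly (M : ℕ) :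
    ((etaPoly M : Polynomial ℤ) : PowerSeries ℤ) =
      ∏ i ∈ Finset.range M, (1 - PowerSeries.X ^ (i + 1)) := by
  rw [etaPoly, ← Polynomial.coeToPowerSeries.ringHom_apply, map_prod]
  simp [Polynomial.coeToPowerSeries.ringHom_apply]

theorem coeff_etaProd {m M : ℕ} (h : m ≤ M) :
    PowerSeries.coeff m etaProd = (etaPoly M).coeff m := by
  have hmul := (PowerSeries.WithPiTopology.multipliable_one_sub_X_pow ℤ).hasProd
  have h1 : Tendsto (fun N : ℕ => ∏ i ∈ Finset.range N, (1 - PowerSeries.X ^ (i + 1) : PowerSeries ℤ))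
      atTop (𝓝 etaProd) := hmul.tendsto_prod_nat
  have h2 := ((PowerSeries.WithPiTopology.continuous_coeff ℤ m).tendsto etaProd).comp h1
  have h3 : Tendsto (fun N : ℕ => PowerSeries.coeff m
      (∏ i ∈ Finset.range N, (1 - PowerSeries.X ^ (i + 1) : PowerSeries ℤ))) atTop
      (𝓝 ((etaPoly M).coeff m)) := by
    refine tendsto_const_nhds.congr' ?_
    filter_upwards [eventually_ge_atTop M] with N hN
    rw [← coe_etaPoly, Polynomial.coeff_coe, coeff_etaPoly_stable h hN]
  exact tendsto_nhds_unique h2 h3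

/-! ### The analytic eta product and its Taylor coefficients -/

/-- analytic eta product -/
def etaFun (q : ℂ) : ℂ := ∏' n : ℕ, (1 - q ^ (n + 1))

theorem differentiableOn_etaFun : DifferentiableOn ℂ etaFun (Metric.ball 0 1) :=
  differentiableOn_tprod_one_sub_pow

theorem eval_etaPoly (M : ℕ) (q : ℂ) :
    ((etaPoly M).map (Int.castRingHom ℂ)).eval q = ∏ i ∈ Finset.range M, (1 - q ^ (i + 1)) := by
  simp [etaPoly, Polynomial.map_prod, Polynomial.eval_prod]

theorem tendstoLocallyUniformlyOn_etaPoly :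
    TendstoLocallyUniformlyOn (fun M q => ((etaPoly M).map (Int.castRingHom ℂ)).eval q) etaFun
      atTop (Metric.ball 0 1) := by
  have H := multipliableLocallyUniformlyOn_one_sub_pow.hasProdLocallyUniformlyOn
  rw [hasProdLocallyUniformlyOn_iff_tendstoLocallyUniformlyOn] at H
  intro u hu x hx
  obtain ⟨t, ht, h⟩ := H u hu x hx
  refine ⟨t, ht, ?_⟩
  filter_upwards [tendsto_finset_range.eventually h] with M hM y hy
  rw [eval_etaPoly]
  exact hM y hy

theorem tendstoLocallyUniformlyOn_iteratedDeriv {F : ℕ → ℂ → ℂ} {f : ℂ → ℂ} {U : Set ℂ}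
    (hU : IsOpen U) (hF : ∀ n, Differentiable ℂ (F n))
    (h : TendstoLocallyUniformlyOn F f atTop U) (m : ℕ) :
    TendstoLocallyUniformlyOn (fun n => iteratedDeriv m (F n)) (iteratedDeriv m f) atTop U := by
  induction m with
  | zero => simpa using h
  | succ m ih =>
    have := ih.deriv (.of_forall fun n =>
      (((hF n).contDiff (n := ⊤)).differentiable_iteratedDeriv m (by simp)).differentiableOn) hU
    simpa [Function.comp_def, iteratedDeriv_succ] using this

theorem iteratedDeriv_polyEval (p : Polynomial ℂ) (m : ℕ) :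
    iteratedDeriv m (fun x => p.eval x) = fun x => (Polynomial.derivative^[m] p).eval x := by
  induction m generalizing p with
  | zero => simp
  | succ m ih =>
    rw [iteratedDeriv_succ', Function.iterate_succ_apply, ← ih]
    congr 1
    ext x
    exact p.deriv

theorem iteratedDeriv_polyEval_zero (p : Polynomial ℂ) (m : ℕ) :
    iteratedDeriv m (fun x => p.eval x) 0 = (m.factorial : ℂ) * p.coeff m := by
  rw [iteratedDeriv_polyEval]
  show Polynomial.eval 0 ((⇑Polynomial.derivative)^[m] p) = _
  rw [← Polynomial.coeff_zero_eq_eval_zero,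
    Polynomial.coeff_iterate_derivative, zero_add, Nat.descFactorial_self, nsmul_eq_mul]

theorem iteratedDeriv_etaFun (m : ℕ) :
    iteratedDeriv m etaFun 0 = (m.factorial : ℂ) * ((PowerSeries.coeff m etaProd : ℤ) : ℂ) := by
  have h1 := (tendstoLocallyUniformlyOn_iteratedDeriv Metric.isOpen_ball
    (fun M => (Polynomial.differentiable _)) tendstoLocallyUniformlyOn_etaPoly m).tendsto_at
    (Metric.mem_ball_self one_pos)
  refine tendsto_nhds_unique h1 (tendsto_const_nhds.congr' ?_)
  filter_upwards [eventually_ge_atTop m] with M hM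
  rw [iteratedDeriv_polyEval_zero, Polynomial.coeff_map, coeff_etaProd hM]
  simp

/-! ### `q`-expansions of functions of `q` -/

theorem cuspFunction_comp_qParam {g : ℂ → ℂ} (hg : ContinuousAt g 0) :
    Set.EqOn (cuspFunction 1 (fun τ : ℍ => g (𝕢 1 τ))) g (Metric.ball 0 1) := by
  have key : ∀ q : ℂ, q ≠ 0 → ‖q‖ < 1 →
      ((fun τ : ℍ => g (𝕢 1 τ)) ∘ ofComplex) (Periodic.invQParam 1 q) = g q := by
    intro q hq0 hq
    have him := Periodic.im_invQParam_pos_of_norm_lt_one one_pos hq hq0
    simp [ofComplex_apply_of_im_pos him, Periodic.qParam_right_inv one_ne_zero hq0]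
  intro q hq
  have hq' : ‖q‖ < 1 := by simpa [dist_zero_right] using hq
  by_cases hq0 : q = 0
  · subst hq0
    rw [cuspFunction, Periodic.cuspFunction, update_self]
    refine Tendsto.limUnder_eq ?_
    refine (tendsto_nhdsWithin_of_tendsto_nhds hg.tendsto).congr' ?_
    have : ∀ᶠ q : ℂ in 𝓝[≠] 0, ‖q‖ < 1 := by
      refine nhdsWithin_le_nhds ?_
      filter_upwards [Metric.ball_mem_nhds (0 : ℂ) one_pos] with x hx
      simpa [dist_zero_right] using hx
    filter_upwards [this, self_mem_nhdsWithin] with a ha ha0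
    exact (key a ha0 ha).symm
  · rw [cuspFunction, Periodic.cuspFunction_eq_of_nonzero 1 _ hq0]
    exact key q hq0 hq'

theorem cuspFunction_comp_qParam_eventuallyEq {g : ℂ → ℂ} (hg : ContinuousAt g 0) :
    cuspFunction 1 (fun τ : ℍ => g (𝕢 1 τ)) =ᶠ[𝓝 0] g := by
  filter_upwards [Metric.ball_mem_nhds (0 : ℂ) one_pos] with x hx
  exact cuspFunction_comp_qParam hg hx

theorem analyticAt_cuspFunction_comp_qParam {g : ℂ → ℂ}
    (hg : DifferentiableOn ℂ g (Metric.ball 0 1)) :
    AnalyticAt ℂ (cuspFunction 1 (fun τ : ℍ => g (𝕢 1 τ))) 0 := by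
  have h0 : AnalyticAt ℂ g 0 :=
    hg.analyticAt (Metric.ball_mem_nhds (0 : ℂ) one_pos)
  exact h0.congr (cuspFunction_comp_qParam_eventuallyEq h0.continuousAt).symm

theorem qExpansion_comp_qParam_coeff {g : ℂ → ℂ}
    (hg : DifferentiableOn ℂ g (Metric.ball 0 1)) (m : ℕ) :
    (qExpansion 1 (fun τ : ℍ => g (𝕢 1 τ))).coeff m =
      (m.factorial : ℂ)⁻¹ * iteratedDeriv m g 0 := by
  have h0 : AnalyticAt ℂ g 0 :=
    hg.analyticAt (Metric.ball_mem_nhds (0 : ℂ) one_pos)
  rw [qExpansion_coeff,
    (cuspFunction_comp_qParam_eventuallyEq h0.continuousAt).iteratedDeriv_eq m]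

/-- the function `τ ↦ ∏ (1 - q^(n+1))` on the upper half plane -/
def etaH (τ : ℍ) : ℂ := etaFun (𝕢 1 τ)

/-- the function `τ ↦ q` on the upper half plane -/
def qH (τ : ℍ) : ℂ := 𝕢 1 τ

theorem analyticAt_cuspFunction_etaH : AnalyticAt ℂ (cuspFunction 1 etaH) 0 :=
  analyticAt_cuspFunction_comp_qParam differentiableOn_etaFun

theorem analyticAt_cuspFunction_qH : AnalyticAt ℂ (cuspFunction 1 qH) 0 :=
  analyticAt_cuspFunction_comp_qParam (g := fun q => q) differentiableOn_id

theorem qExpansion_etaH : qExpansion 1 etaH = etaProd.map (Int.castRingHom ℂ) := by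
  ext m
  rw [show etaH = (fun τ : ℍ => etaFun (𝕢 1 τ)) from rfl,
    qExpansion_comp_qParam_coeff differentiableOn_etaFun, iteratedDeriv_etaFun,
    PowerSeries.coeff_map]
  have : (m.factorial : ℂ) ≠ 0 := by exact_mod_cast m.factorial_ne_zero
  simp [this]

theorem qExpansion_qH : qExpansion 1 qH = PowerSeries.X := by
  ext m
  have h := qExpansion_comp_qParam_coeff (g := fun q => q) differentiableOn_id m
  rw [show (fun τ : ℍ => (fun q => q) (𝕢 1 τ)) = qH from rfl] at h
  rw [h, PowerSeries.coeff_X]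
  rcases m with _ | _ | m
  · simp
  · simp
  · rw [iteratedDeriv_succ', iteratedDeriv_succ']
    simp

theorem discriminant_eq_qH_mul (τ : ℍ) :
    ModularForm.discriminant τ = qH τ * ∏ _i ∈ Finset.range 24, etaH τ := by
  rw [discriminant_eq_q_prod, Finset.prod_const, Finset.card_range, qH, etaH, etaFun]
  congr 1
  exact (multipliable_one_sub_pow (by
    simpa using UpperHalfPlane.norm_qParam_lt_one 1 τ)).tprod_pow 24

theorem qExpansion_discriminant :
    qExpansion 1 ModularForm.discriminant =
      PowerSeries.X * (etaProd ^ 24).map (Int.castRingHom ℂ) := by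
  have hfun : (ModularForm.discriminant : ℍ → ℂ) =
      ∏ i ∈ (Finset.univ : Finset (Option (Fin 24))), (fun i => i.elim qH (fun _ => etaH)) i := by
    ext τ
    rw [discriminant_eq_qH_mul, Fintype.prod_option, Pi.mul_apply, Finset.prod_apply]
    simp
  rw [hfun, UpperHalfPlane.qExpansion_prod]
  · rw [Fintype.prod_option]
    simp [qExpansion_qH, qExpansion_etaH]
  · rintro (_ | i) -
    · exact analyticAt_cuspFunction_qH
    · exact analyticAt_cuspFunction_etaH

/-! ### The `j`-numerator -/

theorem jNum_mul_dedekindEtaUnit : jNum * dedekindEtaUnit = eisenstein4 ^ 3 := by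
  rw [jNum, mul_assoc, mul_comm dedekindEtaUnitInv, dedekindEtaUnit_mul_inv, mul_one]

theorem jNum_mul_qExpansion_discriminant :
    jNum.map (Int.castRingHom ℂ) * qExpansion 1 ModularForm.discriminant =
      PowerSeries.X * qExpansion 1 E₄ ^ 3 := by
  rw [qExpansion_discriminant, qExpansion_E4, ← map_pow, ← jNum_mul_dedekindEtaUnit,
    dedekindEtaUnit, map_mul]
  ring

end Fermat.Agent.S37.Deg
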