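import Mathlib

/-!
# S24 helper (Mathlib-only): level-one invariants are polynomials in `j = E₄³/Δ`

* `exists_poly_of_modularForm`: every modular form of weight `12 m` for `SL(2, ℤ)` is of the
  form `Δ ^ m * P(E₄³/Δ)` with `P` a polynomial of degree `≤ m`.
* `exists_poly_of_invariant`: a holomorphic `SL(2, ℤ)`-invariant function `f` on the upper
  half-plane such that `f * Δ ^ m` is bounded at `i∞` is a polynomial of degree `≤ m` in
  `E₄³/Δ`.
-/

set_option autoImplicit false
open UpperHalfPlane ModularForm MatrixGroups EisensteinSeries CongruenceSubgroup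
open scoped Manifold

noncomputable section

namespace Fermat.Agent.S37.Deg

local notation "Δ" => ModularForm.discriminant

theorem E₄_pow_qExpansion_coeff_zero (n : ℕ) :
    (qExpansion 1 (E₄.pow n)).coeff 0 = 1 := by
  rw [ModularForm.qExpansion_pow one_pos one_mem_strictPeriods_SL,
    PowerSeries.coeff_zero_eq_constantCoeff, map_pow,
    ← PowerSeries.coeff_zero_eq_constantCoeff]
  have h : (qExpansion 1 E₄).coeff 0 = 1 := E_qExpansion_coeff_zero _ ⟨2, rfl⟩
  rw [h, one_pow]

/-- Every modular form of weight `12 m` for `SL(2, ℤ)` is `Δ ^ m * P(E₄³/Δ)` for a polynomial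
`P` of degree at most `m`. -/
theorem exists_poly_of_modularForm (m : ℕ) {k : ℤ} (hk : k = 12 * m) (g : ModularForm 𝒮ℒ k) :
    ∃ P : Polynomial ℂ, P.natDegree ≤ m ∧
      ∀ τ : ℍ, g τ = Δ τ ^ m * P.eval (E₄ τ ^ 3 / Δ τ) := by
  induction m generalizing k g with
  | zero =>
    have hk0 : k = 0 := by simpa using hk
    subst hk0
    obtain ⟨c, hc⟩ := ModularFormClass.levelOne_weight_zero_const g
    refine ⟨Polynomial.C c, by simp, fun τ => ?_⟩
    simp [hc]
  | succ m ih =>
    set c := (qExpansion 1 g).coeff 0 with hc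
    have hkE : ((3 * (m + 1) : ℕ) : ℤ) * 4 = k := by rw [hk]; push_cast; ring
    set E : ModularForm 𝒮ℒ k := ModularForm.mcast hkE (E₄.pow (3 * (m + 1))) with hEdef
    have hE : (qExpansion 1 E).coeff 0 = 1 := E₄_pow_qExpansion_coeff_zero _
    obtain ⟨f, hf⟩ := sub_smul_isCuspForm g E hE
    have hk' : k - 12 = 12 * (m : ℤ) := by rw [hk]; push_cast; ring
    obtain ⟨P, hP, hPeq⟩ := ih hk' (CuspForm.discriminantEquiv f)
    refine ⟨Polynomial.C c * Polynomial.X ^ (m + 1) + P, ?_, fun τ => ?_⟩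
    · refine (Polynomial.natDegree_add_le _ _).trans (max_le ?_ (hP.trans (Nat.le_succ m)))
      exact Polynomial.natDegree_C_mul_X_pow_le c (m + 1)
    · have h1 : f τ = g τ - c * E τ := DFunLike.congr_fun hf τ
      have h2 : Δ τ * (CuspForm.discriminantEquiv f) τ = f τ :=
        discriminant_mul_discriminantEquiv_apply f τ
      have h3 : E τ = E₄ τ ^ (3 * (m + 1)) := by
        rw [hEdef, ModularForm.mcast_apply, ModularForm.coe_pow, Pi.pow_apply]
      have hΔ : Δ τ ≠ 0 := discriminant_ne_zero τ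
      have h4 : E₄ τ ^ (3 * (m + 1)) = Δ τ ^ (m + 1) * (E₄ τ ^ 3 / Δ τ) ^ (m + 1) := by
        rw [div_pow, pow_mul]
        field_simp
      have h5 : g τ = c * E τ + Δ τ * (CuspForm.discriminantEquiv f) τ := by rw [h2, h1]; ring
      rw [Polynomial.eval_add, Polynomial.eval_mul, Polynomial.eval_C, Polynomial.eval_pow,
        Polynomial.eval_X, h5, h3, h4, hPeq τ]
      ring

/-- A holomorphic `SL(2, ℤ)`-invariant function `f` on the upper half-plane such that
`f * Δ ^ m` is bounded at `i∞` is a polynomial of degree at most `m` in `E₄³/Δ`. -/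
theorem exists_poly_of_invariant {f : ℍ → ℂ} (hf : MDifferentiable 𝓘(ℂ) 𝓘(ℂ) f)
    (hinv : ∀ (γ : SL(2, ℤ)) (τ : ℍ), f (γ • τ) = f τ) (m : ℕ)
    (hbd : IsBoundedAtImInfty (fun τ => f τ * Δ τ ^ m)) :
    ∃ P : Polynomial ℂ, P.natDegree ≤ m ∧ ∀ τ : ℍ, f τ = P.eval (E₄ τ ^ 3 / Δ τ) := by
  have hslash : ∀ γ : SL(2, ℤ),
      (fun τ => f τ * Δ τ ^ m) ∣[(12 * (m : ℤ))] γ = fun τ => f τ * Δ τ ^ m := by
    intro γ
    ext τ
    rw [SL_slash_apply, hinv]
    have : SlashInvariantFormClass (CuspForm 𝒮ℒ 12) Γ(1) 12 :=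
      CongruenceSubgroup.Gamma_one_coe_eq_SL ▸ inferInstance
    have hΔ := SlashInvariantForm.slash_action_eqn_SL'' CuspForm.discriminant
      (CongruenceSubgroup.mem_Gamma_one γ) τ
    rw [CuspForm.coe_discriminant] at hΔ
    rw [hΔ, mul_pow, ← zpow_natCast (_ ^ (12 : ℤ)) m, ← zpow_mul]
    have hd := denom_ne_zero (Matrix.SpecialLinearGroup.toGL
      ((Matrix.SpecialLinearGroup.map (Int.castRingHom ℝ)) γ)) τ
    rw [zpow_neg]
    field_simp
  let g : ModularForm 𝒮ℒ (12 * (m : ℤ)) :=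
    { toFun := fun τ => f τ * Δ τ ^ m
      slash_action_eq' := by
        rintro A ⟨γ, rfl⟩
        exact hslash γ
      holo' := by
        have hΔ : MDiff (Δ : ℍ → ℂ) := CuspForm.discriminant.holo'
        have hpow : ∀ n : ℕ, MDiff (fun τ : ℍ => Δ τ ^ n) := by
          intro n
          induction n with
          | zero => simpa using (mdifferentiable_const : MDiff (fun _ : ℍ => (1 : ℂ)))
          | succ n ihn =>
            have h : (fun τ : ℍ => Δ τ ^ (n + 1)) = (fun τ : ℍ => Δ τ ^ n) * Δ := by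
              ext τ; simp [pow_succ]
            rw [h]
            exact ihn.mul hΔ
        exact hf.mul (hpow m)
      bdd_at_cusps' := by
        intro c hc
        rw [Subgroup.IsArithmetic.isCusp_iff_isCusp_SL2Z] at hc
        rw [OnePoint.isBoundedAt_iff_forall_SL2Z hc]
        intro γ _
        rw [hslash γ]
        exact hbd }
  obtain ⟨P, hP, hPeq⟩ := exists_poly_of_modularForm m rfl g
  refine ⟨P, hP, fun τ => ?_⟩
  have hΔ : Δ τ ^ m ≠ 0 := pow_ne_zero _ (discriminant_ne_zero τ)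
  have h := hPeq τ
  change f τ * Δ τ ^ m = _ at h
  rw [mul_comm] at h
  exact mul_left_cancel₀ hΔ h

end Fermat.Agent.S37.Deg

end
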