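/-
S28 (Route H), the single analytic input: `hecke_levelOne_formal`.

For a prime `p` the operator `p * T_p` in weight `12 m` maps the integral `q`-series
`E4^(3a) * Delta^b` (`a + b = m`) into the `ℤ`-span of the `E4^(3i) * Delta^(m-i)`, `i ≤ m`;
formally, with `U_p`, `V_p` on `ℤ⟦q⟧`:
`p^(12m) V_p f + p U_p f = ∑ i ≤ m, c_i E4^(3i) Delta^(m-i)`, `c_i ∈ ℤ`.

Proof: Prelude Hecke operator at level one + Mathlib level-one structure
(`exists_poly_of_modularForm`, file `LevelOnePoly`) + `q`-expansion bridges (file `JBridge`)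
+ triangularity for integrality.  Statement form = work package WP6 of the helper9628 skeleton.
-/
import Mathlib
import Fermat.Prelude.Def_ModularCurve_X0
import Fermat.Prelude.Def_ModularForm_HeckeOperatorForms
import Fermat.Prelude.Thm_ModularFormClass_qCoeff_heckeT
import Fermat.Agent.S37.Deg.JBridge
import Fermat.Agent.S37.Deg.LevelOnePoly

set_option autoImplicit false
open ModularCurve ModularForm EisensteinSeries UpperHalfPlane ModularFormClass
open scoped MatrixGroups Manifold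

noncomputable section

namespace Fermat.Agent.S37.Deg

local notation "Δ" => ModularForm.discriminant

/-- `Δ` as a level-one modular form of weight `12`. -/
def deltaForm : ModularForm 𝒮ℒ 12 := CuspForm.toModularFormₗ CuspForm.discriminant

theorem coe_deltaForm : ⇑deltaForm = Δ := rfl

/-- The level-one form `E₄^(3i) Δ^j`. -/
def edForm (i j : ℕ) {k : ℤ} (hk : ((3 * i : ℕ) : ℤ) * 4 + ((j : ℕ) : ℤ) * 12 = k) :
    ModularForm 𝒮ℒ k :=
  ModularForm.mcast hk ((E₄.pow (3 * i)).mul (deltaForm.pow j))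

theorem edForm_apply (i j : ℕ) {k : ℤ} (hk : ((3 * i : ℕ) : ℤ) * 4 + ((j : ℕ) : ℤ) * 12 = k)
    (τ : ℍ) : edForm i j hk τ = E₄ τ ^ (3 * i) * Δ τ ^ j := by
  rw [edForm, ModularForm.mcast_apply, ModularForm.coe_mul, ModularForm.coe_pow,
    ModularForm.coe_pow, coe_deltaForm]
  rfl

theorem qExpansion_edForm (i j : ℕ) {k : ℤ}
    (hk : ((3 * i : ℕ) : ℤ) * 4 + ((j : ℕ) : ℤ) * 12 = k) :
    qExpansion 1 (edForm i j hk) =
      (eisenstein4 ^ (3 * i) * (PowerSeries.X * dedekindEtaUnit) ^ j).map (Int.castRingHom ℂ) := by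
  rw [edForm, ModularForm.qExpansion_mcast,
    ModularForm.qExpansion_mul one_pos one_mem_strictPeriods_SL,
    ModularForm.qExpansion_pow one_pos one_mem_strictPeriods_SL,
    ModularForm.qExpansion_pow one_pos one_mem_strictPeriods_SL, coe_deltaForm,
    qExpansion_E4, qExpansion_discriminant, dedekindEtaUnit]
  simp

theorem edForm_weight {m i : ℕ} (hi : i ≤ m) {k : ℤ} (hk : k = 12 * m) :
    ((3 * i : ℕ) : ℤ) * 4 + ((m - i : ℕ) : ℤ) * 12 = k := by
  rw [hk, Nat.cast_sub hi]; push_cast; ring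

/-- Every level-one modular form of weight `12 m` has `q`-expansion in the `ℂ`-span of the
`q`-expansions of `E₄^(3i) Δ^(m-i)`, `i ≤ m`. -/
theorem qExpansion_levelOne_eq_sum (m : ℕ) {k : ℤ} (hk : k = 12 * m) (g : ModularForm 𝒮ℒ k) :
    ∃ c : ℕ → ℂ, qExpansion 1 g = ∑ i ∈ Finset.range (m + 1), PowerSeries.C (c i) *
      (eisenstein4 ^ (3 * i) * (PowerSeries.X * dedekindEtaUnit) ^ (m - i)).map
        (Int.castRingHom ℂ) := by
  obtain ⟨P, hP, hPeq⟩ := exists_poly_of_modularForm m hk g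
  refine ⟨fun i => P.coeff i, ?_⟩
  let H : ModularForm 𝒮ℒ k := ∑ i : Fin (m + 1),
    P.coeff i • edForm i (m - i) (edForm_weight (Nat.lt_succ_iff.mp i.2) hk)
  have hgH : g = H := by
    ext τ
    rw [hPeq τ, Polynomial.eval_eq_sum_range' (Nat.lt_succ_of_le hP), Finset.mul_sum]
    have hsum : (H : ℍ → ℂ) τ = ∑ i : Fin (m + 1),
        P.coeff i * (E₄ τ ^ (3 * (i : ℕ)) * Δ τ ^ (m - (i : ℕ))) := by
      have := congrFun (map_sum (FunLike.coeAddMonoidHom (ModularForm 𝒮ℒ k) ℍ ℂ)
        (fun i : Fin (m + 1) => P.coeff i • edForm i (m - i)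
          (edForm_weight (Nat.lt_succ_iff.mp i.2) hk)) Finset.univ) τ
      simp only [Finset.sum_apply] at this
      refine this.trans (Finset.sum_congr rfl fun i _ => ?_)
      show (P.coeff i • edForm i (m - i) _) τ = _
      rw [smul_apply, edForm_apply, smul_eq_mul]
    rw [hsum, ← Fin.sum_univ_eq_sum_range
      (fun i => Δ τ ^ m * (P.coeff i * (E₄ τ ^ 3 / Δ τ) ^ i)) (m + 1)]
    refine Finset.sum_congr rfl fun i _ => ?_
    have hi : (i : ℕ) ≤ m := Nat.lt_succ_iff.mp i.2
    have hΔ : Δ τ ≠ 0 := discriminant_ne_zero τ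
    have : Δ τ ^ m = Δ τ ^ (m - (i : ℕ)) * Δ τ ^ (i : ℕ) := by
      rw [← pow_add, Nat.sub_add_cancel hi]
    rw [this, div_pow, pow_mul]
    field_simp
  have hq : qExpansion 1 (H : ℍ → ℂ) = ∑ i : Fin (m + 1), P.coeff i • qExpansion 1
      (edForm i (m - i) (edForm_weight (Nat.lt_succ_iff.mp i.2) hk)) := by
    have := map_sum (ModularForm.qExpansionAddHom one_pos one_mem_strictPeriods_SL k)
        (fun i : Fin (m + 1) => P.coeff i • edForm i (m - i)
          (edForm_weight (Nat.lt_succ_iff.mp i.2) hk)) Finset.univ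
    refine this.trans (Finset.sum_congr rfl fun i _ => ?_)
    exact ModularForm.qExpansion_smul (k := k) one_pos one_mem_strictPeriods_SL (P.coeff i)
      (edForm i (m - i) (edForm_weight (Nat.lt_succ_iff.mp i.2) hk))
  beta_reduce
  rw [hgH, hq, Finset.sum_range]
  refine Finset.sum_congr rfl fun i _ => ?_
  rw [qExpansion_edForm, PowerSeries.smul_eq_C_mul]

theorem Gamma0_one_map_eq :
    Subgroup.map (Matrix.SpecialLinearGroup.mapGL ℝ) (CongruenceSubgroup.Gamma0 1) = 𝒮ℒ := by
  have h0 : CongruenceSubgroup.Gamma0 1 = ⊤ := by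
    ext A
    simp only [CongruenceSubgroup.Gamma0_mem, Subgroup.mem_top, iff_true]
    exact Subsingleton.elim _ _
  rw [h0, MonoidHom.range_eq_map]

/-- The Hecke operator `T_p` on level-one modular forms. -/
def heckeOne (k : ℤ) {p : ℕ} (hp : p.Prime) (f : ModularForm 𝒮ℒ k) : ModularForm 𝒮ℒ k where
  toFun := heckeT k p ⇑f
  slash_action_eq' := fun γ hγ => by
    have h1 : ¬ p ∣ 1 := fun h => hp.ne_one (Nat.dvd_one.mp h)
    refine heckeT_slash_eq_self_of_mem_Gamma0 (N := 1) k hp h1 (fun γ hγ => ?_) γ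
      (Gamma0_one_map_eq ▸ hγ)
    exact SlashInvariantFormClass.slash_action_eq f γ (Gamma0_one_map_eq ▸ hγ)
  holo' := mdifferentiable_heckeT (ModularFormClass.holo f) k p
  bdd_at_cusps' := fun hc => ModularFormClass.isBoundedAt_heckeT f p hc

theorem coe_heckeOne (k : ℤ) {p : ℕ} (hp : p.Prime) (f : ModularForm 𝒮ℒ k) :
    ⇑(heckeOne k hp f) = heckeT k p ⇑f := rfl

theorem qExpansion_heckeOne_coeff (k : ℤ) {p : ℕ} (hp : p.Prime) (f : ModularForm 𝒮ℒ k) (n : ℕ) :
    (qExpansion 1 (heckeOne k hp f)).coeff n = (qExpansion 1 f).coeff (n * p) +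
      if p ∣ n then (p : ℂ) ^ (k - 1) * (qExpansion 1 f).coeff (n / p) else 0 :=
  ModularFormClass.qCoeff_heckeT f one_mem_strictPeriods_SL hp.ne_zero n

/-! ### Formal operators -/

/-- The formal discriminant over `ℤ`. -/
def DeltaZ : PowerSeries ℤ := PowerSeries.X * dedekindEtaUnit

/-- `U_p` on formal power series. -/
def Up (p : ℕ) (f : PowerSeries ℤ) : PowerSeries ℤ :=
  PowerSeries.mk fun n => PowerSeries.coeff (p * n) f

/-- `V_p` on formal power series (`q ↦ q^p`). -/
def Vp (p : ℕ) (f : PowerSeries ℤ) : PowerSeries ℤ :=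
  PowerSeries.mk fun n => if p ∣ n then PowerSeries.coeff (n / p) f else 0

/-- Triangularity: a `ℂ`-combination of integral series of orders exactly `0, 1, …, m` with
leading coefficients `1` which is integral has integral coefficients. -/
theorem int_of_triangular (m : ℕ) (g : ℕ → PowerSeries ℤ)
    (hg : ∀ j, PowerSeries.constantCoeff (g j) = 1) (L : PowerSeries ℤ) (c : ℕ → ℂ)
    (h : L.map (Int.castRingHom ℂ) = ∑ j ∈ Finset.range (m + 1),
      PowerSeries.C (c j) * (PowerSeries.X ^ j * g j).map (Int.castRingHom ℂ)) :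
    ∀ j, j ≤ m → c j ∈ (Int.castRingHom ℂ).range := by
  intro j
  induction j using Nat.strong_induction_on with
  | _ j ih =>
    intro hj
    have hcoef := congrArg (PowerSeries.coeff j) h
    rw [PowerSeries.coeff_map, map_sum] at hcoef
    have hterm : ∀ i, PowerSeries.coeff j (PowerSeries.C (c i) *
        (PowerSeries.X ^ i * g i).map (Int.castRingHom ℂ)) =
          c i * (((if i ≤ j then PowerSeries.coeff (j - i) (g i) else 0 : ℤ)) : ℂ) := by
      intro i
      rw [PowerSeries.coeff_C_mul, PowerSeries.coeff_map, PowerSeries.coeff_X_pow_mul']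
      rfl
    simp only [hterm] at hcoef
    have hsub : Finset.range (j + 1) ⊆ Finset.range (m + 1) :=
      Finset.range_subset_range.mpr (Nat.succ_le_succ hj)
    rw [← Finset.sum_subset hsub (fun i _ hi => by
      have : ¬ i ≤ j := by simpa [Finset.mem_range, Nat.lt_succ_iff] using hi
      simp [this]), Finset.sum_range_succ] at hcoef
    simp only [le_refl, if_true, Nat.sub_self, PowerSeries.coeff_zero_eq_constantCoeff, hg,
      Int.cast_one, mul_one] at hcoef
    have hcj : c j = (Int.castRingHom ℂ) (PowerSeries.coeff j L) -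
        ∑ i ∈ Finset.range j, c i *
          (((if i ≤ j then PowerSeries.coeff (j - i) (g i) else 0 : ℤ)) : ℂ) := by
      rw [hcoef]; ring
    rw [hcj]
    refine sub_mem ⟨_, rfl⟩ (Subring.sum_mem _ fun i hi => ?_)
    have hij : i < j := Finset.mem_range.mp hi
    exact mul_mem (ih i hij (hij.le.trans hj)) ⟨_, rfl⟩

/-- (AI) `p·T_p` preserves the `ℤ`-lattice spanned by `E₄^{3i} Δ^{m-i}` in weight `12m`. -/
theorem hecke_levelOne_formal (p : ℕ) (hp : p.Prime) (a b : ℕ) :
    ∃ c : ℕ → ℤ,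
      (p : PowerSeries ℤ) ^ (12 * (a + b)) * Vp p (eisenstein4 ^ (3 * a) * DeltaZ ^ b)
          + (p : PowerSeries ℤ) * Up p (eisenstein4 ^ (3 * a) * DeltaZ ^ b)
        = ∑ i ∈ Finset.range (a + b + 1),
            PowerSeries.C (c i) * eisenstein4 ^ (3 * i) * DeltaZ ^ (a + b - i) := by
  set m := a + b with hm
  set fZ : PowerSeries ℤ := eisenstein4 ^ (3 * a) * DeltaZ ^ b with hfZ
  set L : PowerSeries ℤ := (p : PowerSeries ℤ) ^ (12 * m) * Vp p fZ + (p : PowerSeries ℤ) * Up p fZ
    with hL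
  have hk : ((3 * a : ℕ) : ℤ) * 4 + ((b : ℕ) : ℤ) * 12 = 12 * ((m : ℕ) : ℤ) := by
    rw [hm]; push_cast; ring
  set F : ModularForm 𝒮ℒ (12 * ((m : ℕ) : ℤ)) := edForm a b hk with hF
  have hFq : qExpansion 1 F = fZ.map (Int.castRingHom ℂ) := qExpansion_edForm a b hk
  obtain ⟨c, hc⟩ := qExpansion_levelOne_eq_sum m rfl (heckeOne _ hp F)
  have hp0 : (p : ℂ) ≠ 0 := Nat.cast_ne_zero.mpr hp.ne_zero
  -- the identity over `ℂ`
  have hC : L.map (Int.castRingHom ℂ) = ∑ i ∈ Finset.range (m + 1),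
      PowerSeries.C ((p : ℂ) * c i) * (eisenstein4 ^ (3 * i) *
        (PowerSeries.X * dedekindEtaUnit) ^ (m - i)).map (Int.castRingHom ℂ) := by
    have h1 : ∑ i ∈ Finset.range (m + 1),
      PowerSeries.C ((p : ℂ) * c i) * (eisenstein4 ^ (3 * i) *
        (PowerSeries.X * dedekindEtaUnit) ^ (m - i)).map (Int.castRingHom ℂ) =
        PowerSeries.C (p : ℂ) * qExpansion 1 (heckeOne _ hp F) := by
      rw [hc, Finset.mul_sum]
      refine Finset.sum_congr rfl fun i _ => ?_
      rw [map_mul, mul_assoc]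
    rw [h1]
    ext n
    rw [PowerSeries.coeff_C_mul, qExpansion_heckeOne_coeff, hFq, PowerSeries.coeff_map,
      PowerSeries.coeff_map, PowerSeries.coeff_map, hL, map_add]
    have e1 : (p : PowerSeries ℤ) ^ (12 * m) = PowerSeries.C ((p : ℤ) ^ (12 * m)) := by
      rw [map_pow, map_natCast]
    have e2 : (p : PowerSeries ℤ) = PowerSeries.C (p : ℤ) := by rw [map_natCast]
    rw [e1, PowerSeries.coeff_C_mul, e2, PowerSeries.coeff_C_mul, Vp, Up, PowerSeries.coeff_mk,
      PowerSeries.coeff_mk]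
    have e3 : (p : ℂ) * (p : ℂ) ^ ((12 * ((m : ℕ) : ℤ)) - 1) = (p : ℂ) ^ (12 * m) := by
      rw [mul_comm, zpow_sub_one₀ hp0, inv_mul_cancel_right₀ hp0]
      norm_cast
    by_cases hpn : p ∣ n
    · simp only [hpn, if_true, eq_intCast, Int.cast_add, Int.cast_mul, Int.cast_pow,
        Int.cast_natCast, mul_add, ← mul_assoc, e3]
      rw [mul_comm p n]; ring
    · simp only [hpn, if_false, eq_intCast, Int.cast_mul,
        Int.cast_natCast, mul_zero, zero_add, add_zero]
      rw [mul_comm p n]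
  -- reflect the sum to apply triangularity
  have hC' : L.map (Int.castRingHom ℂ) = ∑ j ∈ Finset.range (m + 1),
      PowerSeries.C ((p : ℂ) * c (m - j)) * (PowerSeries.X ^ j *
        (eisenstein4 ^ (3 * (m - j)) * dedekindEtaUnit ^ j)).map (Int.castRingHom ℂ) := by
    rw [hC, ← Finset.sum_range_reflect]
    refine Finset.sum_congr rfl fun j hj => ?_
    have hjm : j ≤ m := Nat.lt_succ_iff.mp (Finset.mem_range.mp hj)
    have e : m - (m + 1 - 1 - j) = j := by omega
    have e' : m + 1 - 1 - j = m - j := by omega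
    rw [e', Nat.sub_sub_self hjm, mul_pow]
    congr 2
    ring
  have hint := int_of_triangular m (fun j => eisenstein4 ^ (3 * (m - j)) * dedekindEtaUnit ^ j)
    (fun j => by simp [constantCoeff_eisenstein4, constantCoeff_dedekindEtaUnit]) L
    (fun j => (p : ℂ) * c (m - j)) hC'
  have hint' : ∀ i, i ≤ m → ∃ z : ℤ, (z : ℂ) = (p : ℂ) * c i := by
    intro i hi
    obtain ⟨z, hz⟩ := hint (m - i) (Nat.sub_le m i)
    rw [Nat.sub_sub_self hi] at hz
    exact ⟨z, by simpa using hz⟩
  choose! z hz using hint'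
  refine ⟨z, ?_⟩
  apply PowerSeries.map_injective (Int.castRingHom ℂ) Int.cast_injective
  rw [hC, map_sum]
  refine Finset.sum_congr rfl fun i hi => ?_
  have him : i ≤ m := Nat.lt_succ_iff.mp (Finset.mem_range.mp hi)
  have e : (PowerSeries.map (Int.castRingHom ℂ))
      (PowerSeries.C (z i) * eisenstein4 ^ (3 * i) * DeltaZ ^ (m - i)) =
      PowerSeries.C ((z i : ℤ) : ℂ) * (PowerSeries.map (Int.castRingHom ℂ))
        (eisenstein4 ^ (3 * i) * (PowerSeries.X * dedekindEtaUnit) ^ (m - i)) := by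
    rw [mul_assoc, map_mul, PowerSeries.map_C, DeltaZ]
    rfl
  rw [e, hz i him]

end Fermat.Agent.S37.Deg
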