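import Fermat.Agent.S37.Deg.Gcd

set_option autoImplicit false

noncomputable section

namespace Fermat.Agent.S37.Deg

open ModularCurve Polynomial

theorem relfinrank_sup_adjoin_simple {K L : Type*} [Field K] [Field L] [Algebra K L]
    (F : IntermediateField K L) {x : L} (hx : IsIntegral F x) :
    F.relfinrank (F ⊔ IntermediateField.adjoin K {x}) = (minpoly F x).natDegree := by
  have h : F ≤ F ⊔ IntermediateField.adjoin K {x} := le_sup_left
  rw [IntermediateField.relfinrank_eq_finrank_of_le h]
  have e : IntermediateField.extendScalars h = IntermediateField.adjoin F {x} := by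
    apply IntermediateField.restrictScalars_injective K
    rw [IntermediateField.extendScalars_restrictScalars,
      IntermediateField.restrictScalars_adjoin_eq_sup]
  rw [e]
  exact IntermediateField.adjoin.finrank hx

theorem order_jqModC_pow (K : Type*) [Field K] (i : ℕ) : (jqModC K ^ i).order = -(i : ℤ) := by
  have hne : jqModC K ^ i ≠ 0 := by
    intro h
    have := coeff_jqModC_pow_self K i
    rw [h, HahnSeries.coeff_zero] at this
    exact zero_ne_one this
  refine le_antisymm (HahnSeries.order_le_of_coeff_ne_zero ?_)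
    ((HahnSeries.le_order_iff_forall hne).mpr fun j hj => coeff_jqModC_pow_of_lt K hj)
  rw [coeff_jqModC_pow_self]
  exact one_ne_zero

theorem dvd_order_qExpand (K : Type*) [Field K] (p : ℕ) [NeZero p] (c : LaurentSeries K) :
    (p : ℤ) ∣ (qExpand K p c).order := by
  by_cases h0 : qExpand K p c = 0
  · rw [h0, HahnSeries.order_zero]; exact dvd_zero _
  · by_contra h
    exact h0 (HahnSeries.coeff_order_eq_zero.mp (qExpand_coeff_of_not_dvd p c h))

/-- **Independence.** A nonzero polynomial of degree `< p` whose coefficients are series in `q^p`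
does not vanish at `j`. -/
theorem eval_jqModC_ne_zero_of_range (K : Type*) [Field K] (p : ℕ) [NeZero p]
    {g : (LaurentSeries K)[X]} (hg : g ≠ 0) (hdeg : g.natDegree < p)
    (hc : ∀ i, g.coeff i ∈ Set.range (qExpand K p)) : g.eval (jqModC K) ≠ 0 := by
  classical
  set J := jqModC K with hJ
  let n : ℕ → ℤ := fun i => (g.coeff i * J ^ i).order
  have hS : g.support.Nonempty := by rwa [Polynomial.support_nonempty]
  obtain ⟨i₀, hi₀, hmin⟩ := Finset.exists_min_image g.support n hS
  have hJpow : ∀ i : ℕ, J ^ i ≠ 0 := by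
    intro i h
    have := coeff_jqModC_pow_self K i
    rw [← hJ, h, HahnSeries.coeff_zero] at this
    exact zero_ne_one this
  have hne : ∀ i ∈ g.support, g.coeff i * J ^ i ≠ 0 := fun i hi =>
    mul_ne_zero (Polynomial.mem_support_iff.mp hi) (hJpow i)
  have hord : ∀ i ∈ g.support, n i = (g.coeff i).order - i := by
    intro i hi
    show (g.coeff i * J ^ i).order = _
    rw [HahnSeries.order_mul (Polynomial.mem_support_iff.mp hi) (hJpow i), hJ, order_jqModC_pow]
    ring
  have hinj : ∀ i ∈ g.support, n i = n i₀ → i = i₀ := by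
    intro i hi h
    rw [hord i hi, hord i₀ hi₀] at h
    obtain ⟨c, hc1⟩ := hc i
    obtain ⟨c₀, hc0⟩ := hc i₀
    obtain ⟨a, ha⟩ := dvd_order_qExpand K p c
    obtain ⟨b, hb⟩ := dvd_order_qExpand K p c₀
    rw [← hc1, ← hc0, ha, hb] at h
    have hi_lt : i < p := lt_of_le_of_lt (le_natDegree_of_mem_supp _ hi) hdeg
    have hi₀_lt : i₀ < p := lt_of_le_of_lt (le_natDegree_of_mem_supp _ hi₀) hdeg
    have h1 : (i : ℤ) - i₀ = p * (a - b) := by linarith
    have h2 : (p : ℤ) ∣ (i : ℤ) - i₀ := ⟨_, h1⟩
    have h3 : (i : ℤ) - i₀ = 0 := by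
      apply Int.eq_zero_of_abs_lt_dvd h2
      rw [abs_lt]
      constructor <;> omega
    omega
  intro h0
  have hcoef : (g.eval J).coeff (n i₀) = (g.coeff i₀ * J ^ i₀).coeff (n i₀) := by
    rw [eval_eq_sum, sum_def, HahnSeries.coeff_sum]
    refine Finset.sum_eq_single_of_mem i₀ hi₀ (fun i hi hii => ?_)
    apply HahnSeries.coeff_eq_zero_of_lt_order
    exact lt_of_le_of_ne (hmin i hi) (fun h => hii (hinj i hi h.symm))
  rw [h0, HahnSeries.coeff_zero] at hcoef
  exact hne i₀ hi₀ (HahnSeries.coeff_order_eq_zero.mp hcoef.symm)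

end Fermat.Agent.S37.Deg
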