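/-
S28 Route H, WP5 (`exists_primeLevelData`), part 1: Laurent series toolkit.

* `PL.tw c` : the twist `f(t) ↦ f(c t)` (ring hom) for a unit `c`;
* `PL.NN R` : the subring of Laurent series without negative exponents;
* `PL.coeffSubring S` : the subring of Laurent series with coefficients in a subring `S`.
(helper2872)
-/
import Mathlib
import Fermat.Prelude.Def_ModularCurve_X0ModL

set_option autoImplicit false

noncomputable section

namespace Fermat.Agent.S37.Deg.PL

open ModularCurve HahnSeries

variable {R : Type*} [CommRing R]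

/-! ### The twist -/

/-- The twist `∑ aₙ tⁿ ↦ ∑ aₙ cⁿ tⁿ` as a function. -/
def twFun (c : Rˣ) (f : LaurentSeries R) : LaurentSeries R where
  coeff n := ((c ^ n : Rˣ) : R) * f.coeff n
  isPWO_support' := f.isPWO_support.mono (fun n hn => by
    simp only [Function.mem_support, ne_eq] at hn ⊢
    intro h; exact hn (by rw [h, mul_zero]))

theorem twFun_coeff (c : Rˣ) (f : LaurentSeries R) (n : ℤ) :
    (twFun c f).coeff n = ((c ^ n : Rˣ) : R) * f.coeff n := rfl

theorem twFun_support (c : Rˣ) (f : LaurentSeries R) : (twFun c f).support = f.support := by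
  ext n
  simp only [HahnSeries.mem_support, twFun_coeff, ne_eq, Units.mul_right_eq_zero]

theorem twFun_mul (c : Rˣ) (f g : LaurentSeries R) :
    twFun c (f * g) = twFun c f * twFun c g := by
  ext n
  rw [twFun_coeff, HahnSeries.coeff_mul, HahnSeries.coeff_mul, Finset.mul_sum]
  have hfin : Finset.antidiagonal (twFun c f).isPWO_support (twFun c g).isPWO_support n
      = Finset.antidiagonal f.isPWO_support g.isPWO_support n := by
    ext ij
    simp only [Finset.mem_antidiagonal, twFun_support]
  rw [hfin]
  refine Finset.sum_congr rfl fun ij hij => ?_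
  have hn : ij.1 + ij.2 = n := (Finset.mem_antidiagonal.mp hij).2.2
  rw [twFun_coeff, twFun_coeff, ← hn, zpow_add, Units.val_mul]
  ring

/-- The twist `f(t) ↦ f(c t)` as a ring homomorphism of Laurent series. -/
def tw (c : Rˣ) : LaurentSeries R →+* LaurentSeries R where
  toFun := twFun c
  map_one' := by
    ext n
    rw [twFun_coeff, HahnSeries.coeff_one]
    split_ifs with h
    · subst h; simp
    · simp
  map_mul' := twFun_mul c
  map_zero' := by ext n; simp [twFun_coeff]
  map_add' f g := by ext n; simp [twFun_coeff, mul_add]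

@[simp] theorem tw_coeff (c : Rˣ) (f : LaurentSeries R) (n : ℤ) :
    (tw c f).coeff n = ((c ^ n : Rˣ) : R) * f.coeff n := rfl

theorem tw_one_apply (f : LaurentSeries R) : tw (1 : Rˣ) f = f := by
  ext n; simp

theorem tw_injective (c : Rˣ) : Function.Injective (tw c : LaurentSeries R → LaurentSeries R) := by
  intro f g h
  ext n
  have := congrArg (fun x : LaurentSeries R => x.coeff n) h
  simpa using this

theorem tw_single (c : Rˣ) (k : ℤ) (r : R) :
    tw c (HahnSeries.single k r) = HahnSeries.single k (((c ^ k : Rˣ) : R) * r) := by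
  ext n
  rw [tw_coeff]
  rcases eq_or_ne n k with rfl | hn
  · simp [HahnSeries.coeff_single_same]
  · simp [HahnSeries.coeff_single_of_ne hn]

/-! ### Series without negative exponents -/

/-- The subring of Laurent series all of whose negative-index coefficients vanish. -/
def NN (R : Type*) [CommRing R] : Subring (LaurentSeries R) where
  carrier := {f | ∀ k : ℤ, k < 0 → f.coeff k = 0}
  mul_mem' := by
    intro f g hf hg k hk
    rw [HahnSeries.coeff_mul]
    refine Finset.sum_eq_zero fun ij hij => ?_
    have hn : ij.1 + ij.2 = k := (Finset.mem_antidiagonal.mp hij).2.2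
    rcases lt_or_ge ij.1 0 with h1 | h1
    · rw [hf _ h1, zero_mul]
    · rw [hg _ (by omega), mul_zero]
  one_mem' := by
    intro k hk
    rw [HahnSeries.coeff_one, if_neg hk.ne]
  add_mem' := by
    intro f g hf hg k hk
    rw [HahnSeries.coeff_add, hf k hk, hg k hk, add_zero]
  zero_mem' := by intro k _; rfl
  neg_mem' := by
    intro f hf k hk
    rw [HahnSeries.coeff_neg, hf k hk, neg_zero]

theorem mem_NN {f : LaurentSeries R} : f ∈ NN R ↔ ∀ k : ℤ, k < 0 → f.coeff k = 0 := Iff.rfl

theorem ofPowerSeries_mem_NN (f : PowerSeries R) : HahnSeries.ofPowerSeries ℤ R f ∈ NN R :=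
  fun _ hk => ofPowerSeries_coeff_of_neg f hk

theorem single_mem_NN {n : ℤ} (hn : 0 ≤ n) (r : R) : HahnSeries.single n r ∈ NN R := by
  intro k hk
  rw [HahnSeries.coeff_single_of_ne (by omega)]

theorem qExpand_mem_NN (N : ℕ) [NeZero N] {f : LaurentSeries R} (hf : f ∈ NN R) :
    qExpand R N f ∈ NN R := by
  intro k hk
  by_cases hd : (N : ℤ) ∣ k
  · obtain ⟨m, rfl⟩ := hd
    rw [qExpand_coeff_mul]
    refine hf m ?_
    have hN : (0 : ℤ) < N := by exact_mod_cast Nat.pos_of_ne_zero (NeZero.ne N)
    by_contra hm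
    exact absurd hk (not_lt.mpr (mul_nonneg hN.le (not_lt.mp hm)))
  · exact qExpand_coeff_of_not_dvd N f hd

theorem tw_mem_NN (c : Rˣ) {f : LaurentSeries R} (hf : f ∈ NN R) : tw c f ∈ NN R := by
  intro k hk
  rw [tw_coeff, hf k hk, mul_zero]

theorem coeffMap_mem_NN {S : Type*} [CommRing S] (φ : R →+* S) {f : LaurentSeries R}
    (hf : f ∈ NN R) : coeffMap φ f ∈ NN S := by
  intro k hk
  rw [coeffMap_coeff, hf k hk, map_zero]

/-- An element of `NN` is the image of a power series. -/
theorem eq_ofPowerSeries_of_mem_NN {f : LaurentSeries R} (hf : f ∈ NN R) :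
    f = HahnSeries.ofPowerSeries ℤ R (PowerSeries.mk fun n => f.coeff n) := by
  ext k
  rcases lt_or_ge k 0 with hk | hk
  · rw [hf k hk, ofPowerSeries_coeff_of_neg _ hk]
  · lift k to ℕ using hk
    rw [HahnSeries.ofPowerSeries_apply_coeff, PowerSeries.coeff_mk]

theorem coeff_zero_mul_of_mem_NN {f g : LaurentSeries R} (hf : f ∈ NN R) (hg : g ∈ NN R) :
    (f * g).coeff 0 = f.coeff 0 * g.coeff 0 := by
  rw [eq_ofPowerSeries_of_mem_NN hf, eq_ofPowerSeries_of_mem_NN hg, ← map_mul]
  have h0 : (0 : ℤ) = ((0 : ℕ) : ℤ) := rfl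
  rw [h0, HahnSeries.ofPowerSeries_apply_coeff, HahnSeries.ofPowerSeries_apply_coeff,
    HahnSeries.ofPowerSeries_apply_coeff]
  simp [PowerSeries.coeff_zero_eq_constantCoeff]

theorem coeff_zero_prod_of_mem_NN {ι : Type*} (s : Finset ι) (f : ι → LaurentSeries R)
    (hf : ∀ i ∈ s, f i ∈ NN R) :
    (∏ i ∈ s, f i).coeff 0 = ∏ i ∈ s, (f i).coeff 0 := by
  classical
  induction s using Finset.induction_on with
  | empty => simp
  | insert a s ha ih =>
    rw [Finset.prod_insert ha, Finset.prod_insert ha,
      coeff_zero_mul_of_mem_NN (hf a (Finset.mem_insert_self a s))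
        (Subring.prod_mem _ fun i hi => hf i (Finset.mem_insert_of_mem hi)),
      ih fun i hi => hf i (Finset.mem_insert_of_mem hi)]

/-! ### Series with coefficients in a subring -/

/-- The subring of Laurent series all of whose coefficients lie in the subring `S`. -/
def coeffSubring (S : Subring R) : Subring (LaurentSeries R) where
  carrier := {f | ∀ k : ℤ, f.coeff k ∈ S}
  mul_mem' := by
    intro f g hf hg k
    rw [HahnSeries.coeff_mul]
    exact Subring.sum_mem _ fun ij _ => mul_mem (hf _) (hg _)
  one_mem' := by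
    intro k
    rw [HahnSeries.coeff_one]
    split_ifs
    · exact one_mem S
    · exact zero_mem S
  add_mem' := by
    intro f g hf hg k
    rw [HahnSeries.coeff_add]
    exact add_mem (hf k) (hg k)
  zero_mem' := by intro k; exact zero_mem S
  neg_mem' := by
    intro f hf k
    rw [HahnSeries.coeff_neg]
    exact neg_mem (hf k)

theorem mem_coeffSubring {S : Subring R} {f : LaurentSeries R} :
    f ∈ coeffSubring S ↔ ∀ k : ℤ, f.coeff k ∈ S := Iff.rfl

theorem qExpand_mem_coeffSubring (S : Subring R) (N : ℕ) [NeZero N] {f : LaurentSeries R}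
    (hf : f ∈ coeffSubring S) : qExpand R N f ∈ coeffSubring S := by
  intro k
  by_cases hd : (N : ℤ) ∣ k
  · obtain ⟨m, rfl⟩ := hd
    rw [qExpand_coeff_mul]
    exact hf m
  · rw [qExpand_coeff_of_not_dvd N f hd]
    exact zero_mem S

theorem tw_mem_coeffSubring (S : Subring R) (c : Rˣ) (hc : ∀ n : ℤ, ((c ^ n : Rˣ) : R) ∈ S)
    {f : LaurentSeries R} (hf : f ∈ coeffSubring S) : tw c f ∈ coeffSubring S := by
  intro k
  rw [tw_coeff]
  exact mul_mem (hc k) (hf k)

theorem coeffMap_int_mem_coeffSubring (S : Subring R) (f : LaurentSeries ℤ) :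
    coeffMap (Int.castRingHom R) f ∈ coeffSubring S := by
  intro k
  rw [coeffMap_coeff]
  exact intCast_mem S _

theorem single_mem_coeffSubring (S : Subring R) (n : ℤ) {r : R} (hr : r ∈ S) :
    HahnSeries.single n r ∈ coeffSubring S := by
  intro k
  rcases eq_or_ne k n with rfl | hk
  · rw [HahnSeries.coeff_single_same]; exact hr
  · rw [HahnSeries.coeff_single_of_ne hk]; exact zero_mem S

end Fermat.Agent.S37.Deg.PL
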