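/-
S28 Route H, WP5 (`exists_primeLevelData`), part 3: the conjugates and their mixed power sums.

In `Λ = ℂ((t))` with `V = qExpand ℂ p` (`t ↦ t^p`), `J = j(t^p)`, and `ζ` a primitive `p`-th root
of unity, the conjugates are indexed by `Option (Fin p)`:
  `uF none = p^12 Δ(t^{p²})/Δ(t^p)`,   `uF (some b) = Δ(ζ^b t)/Δ(t^p)`,
  `vF none = p^12 E₄³(t^{p²})/Δ(t^p)`, `vF (some b) = E₄³(ζ^b t)/Δ(t^p)`,
  `xF none = j(t^{p²})`,               `xF (some b) = j(ζ^b t)`.
Main result: `mixed_sum_mem` — all mixed power sums `∑ uF^a vF^b` are integer polynomials in `J`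
(from `hecke_levelOne_formal`).
(helper2872)
-/
import Fermat.Agent.S37.Deg.PLTwist
import Fermat.Agent.S37.Deg.HeckeFormal

set_option autoImplicit false

noncomputable section

namespace Fermat.Agent.S37.Deg.PL

open ModularCurve HahnSeries

/-- Integer power series as complex Laurent series. -/
def psC : PowerSeries ℤ →+* LaurentSeries ℂ :=
  (coeffMap (Int.castRingHom ℂ)).comp (HahnSeries.ofPowerSeries ℤ ℤ)

theorem psC_coeff_nat (f : PowerSeries ℤ) (n : ℕ) :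
    (psC f).coeff (n : ℤ) = ((PowerSeries.coeff n f : ℤ) : ℂ) := by
  rw [psC, RingHom.comp_apply, coeffMap_coeff, HahnSeries.ofPowerSeries_apply_coeff]
  rfl

theorem psC_coeff_neg (f : PowerSeries ℤ) {k : ℤ} (hk : k < 0) : (psC f).coeff k = 0 := by
  rw [psC, RingHom.comp_apply, coeffMap_coeff, ofPowerSeries_coeff_of_neg _ hk, map_zero]

theorem psC_mem_NN (f : PowerSeries ℤ) : psC f ∈ NN ℂ := fun _ hk => psC_coeff_neg f hk

theorem psC_X : psC PowerSeries.X = HahnSeries.single 1 1 := by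
  rw [psC, RingHom.comp_apply, HahnSeries.ofPowerSeries_X, coeffMap_single, map_one]

theorem psC_C (z : ℤ) : psC (PowerSeries.C z) = (z : LaurentSeries ℂ) := by
  rw [show PowerSeries.C z = (z : PowerSeries ℤ) from eq_intCast PowerSeries.C z, map_intCast]

theorem natCast_mul_coeff (n : ℕ) (g : LaurentSeries ℂ) (k : ℤ) :
    ((n : LaurentSeries ℂ) * g).coeff k = (n : ℂ) * g.coeff k := by
  rw [show (n : LaurentSeries ℂ) = HahnSeries.C (n : ℂ) from (map_natCast HahnSeries.C n).symm,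
    HahnSeries.C_mul_eq_smul, HahnSeries.coeff_smul, smul_eq_mul]

variable (p : ℕ) [NeZero p]

/-- `V_p` on integer power series corresponds to `qExpand`. -/
theorem qExpand_psC (f : PowerSeries ℤ) : qExpand ℂ p (psC f) = psC (Vp p f) := by
  ext k
  have hp0 : (0 : ℤ) < p := by exact_mod_cast Nat.pos_of_ne_zero (NeZero.ne p)
  by_cases hd : (p : ℤ) ∣ k
  · obtain ⟨m, rfl⟩ := hd
    rw [qExpand_coeff_mul]
    rcases lt_or_ge m 0 with hm | hm
    · rw [psC_coeff_neg _ hm, psC_coeff_neg _ (mul_neg_of_pos_of_neg hp0 hm)]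
    · lift m to ℕ using hm
      rw [psC_coeff_nat, show (p : ℤ) * (m : ℤ) = ((p * m : ℕ) : ℤ) by push_cast; ring,
        psC_coeff_nat, Vp, PowerSeries.coeff_mk, if_pos (dvd_mul_right p m),
        Nat.mul_div_cancel_left m (Nat.pos_of_ne_zero (NeZero.ne p))]
  · rw [qExpand_coeff_of_not_dvd p _ hd]
    rcases lt_or_ge k 0 with hk | hk
    · rw [psC_coeff_neg _ hk]
    · lift k to ℕ using hk
      rw [psC_coeff_nat, Vp, PowerSeries.coeff_mk, if_neg (fun h => hd (by exact_mod_cast h))]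
      simp

/-- Sum over the twists by `p`-th roots of unity: `∑_b f(ζ^b t) = p (U_p f)(t^p)`. -/
theorem sum_tw_psC (hp : p.Prime) (ζ : ℂˣ) (hζ : IsPrimitiveRoot ζ p) (f : PowerSeries ℤ) :
    ∑ b : Fin p, tw (ζ ^ (b : ℕ)) (psC f) = (p : LaurentSeries ℂ) * qExpand ℂ p (psC (Up p f)) := by
  ext k
  have hp0 : (0 : ℤ) < p := by exact_mod_cast hp.pos
  rw [HahnSeries.coeff_sum, natCast_mul_coeff]
  simp only [tw_coeff]
  rcases lt_or_ge k 0 with hk | hk
  · rw [psC_coeff_neg _ hk]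
    simp only [mul_zero, Finset.sum_const_zero]
    by_cases hd : (p : ℤ) ∣ k
    · obtain ⟨m, rfl⟩ := hd
      rw [qExpand_coeff_mul, psC_coeff_neg _ (by by_contra h; exact absurd hk (not_lt.mpr
        (mul_nonneg hp0.le (not_lt.mp h)))), mul_zero]
    · rw [qExpand_coeff_of_not_dvd p _ hd, mul_zero]
  · lift k to ℕ using hk
    rw [← Finset.sum_mul, psC_coeff_nat]
    have hsum : ∑ b : Fin p, (((ζ ^ (b : ℕ)) ^ (k : ℤ) : ℂˣ) : ℂ) =
        ∑ b ∈ Finset.range p, (((ζ ^ k : ℂˣ) : ℂ)) ^ b := by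
      rw [← Fin.sum_univ_eq_sum_range (fun b => (((ζ ^ k : ℂˣ) : ℂ)) ^ b) p]
      refine Finset.sum_congr rfl fun b _ => ?_
      rw [zpow_natCast, ← Units.val_pow_eq_pow_val, ← pow_mul, ← pow_mul, mul_comm]
    rw [hsum]
    by_cases hd : p ∣ k
    · obtain ⟨m, rfl⟩ := hd
      have h1 : ζ ^ (p * m) = 1 := by rw [pow_mul, hζ.pow_eq_one, one_pow]
      rw [h1]
      simp only [Units.val_one, one_pow, Finset.sum_const, Finset.card_range, nsmul_eq_mul,
        mul_one]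
      rw [show ((p * m : ℕ) : ℤ) = (p : ℤ) * (m : ℤ) by push_cast; ring, qExpand_coeff_mul,
        psC_coeff_nat, Up, PowerSeries.coeff_mk]
    · have hcop : Nat.Coprime k p := (Nat.Coprime.symm ((Nat.Prime.coprime_iff_not_dvd hp).mpr hd))
      have hprim : IsPrimitiveRoot (((ζ ^ k : ℂˣ) : ℂ)) p := by
        have := hζ.pow_of_coprime k hcop
        exact IsPrimitiveRoot.coe_units_iff.mpr this
      rw [hprim.geom_sum_eq_zero hp.one_lt, zero_mul,
        qExpand_coeff_of_not_dvd p _ (fun h => hd (by exact_mod_cast h)), mul_zero]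

/-! ### The basic series -/

/-- `Δ(t)` in `ℂ((t))`. -/
def Dl : LaurentSeries ℂ := psC DeltaZ

/-- `1/Δ(t)` in `ℂ((t))`. -/
def Dinv : LaurentSeries ℂ := HahnSeries.single (-1) 1 * psC dedekindEtaUnitInv

/-- `E₄(t)^3` in `ℂ((t))`. -/
def E3 : LaurentSeries ℂ := psC (eisenstein4 ^ 3)

/-- `j(t)` in `ℂ((t))`. -/
def Jt : LaurentSeries ℂ := jqModC ℂ

theorem Dl_eq : Dl = HahnSeries.single 1 1 * psC dedekindEtaUnit := by
  rw [Dl, DeltaZ, map_mul, psC_X]

theorem Dl_mul_Dinv : Dl * Dinv = 1 := by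
  rw [Dl_eq, Dinv]
  calc HahnSeries.single (1 : ℤ) (1 : ℂ) * psC dedekindEtaUnit *
        (HahnSeries.single (-1) 1 * psC dedekindEtaUnitInv)
      = (HahnSeries.single (1 : ℤ) (1 : ℂ) * HahnSeries.single (-1) 1) *
          psC (dedekindEtaUnit * dedekindEtaUnitInv) := by rw [map_mul]; ring
    _ = 1 := by
        rw [dedekindEtaUnit_mul_inv, RingHom.map_one, mul_one, HahnSeries.single_mul_single]
        simp

theorem Jt_eq : Jt = E3 * Dinv := by
  rw [Jt, jqModC, E3, Dinv, jNum, ← coeffMap_ofPowerSeries]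
  show HahnSeries.single (-1) 1 * psC (eisenstein4 ^ 3 * dedekindEtaUnitInv) = _
  rw [map_mul]; ring

theorem psC_ed (a b : ℕ) : psC (eisenstein4 ^ (3 * b) * DeltaZ ^ a) = Dl ^ a * E3 ^ b := by
  rw [map_mul, map_pow, map_pow, Dl, E3, map_pow, ← pow_mul, mul_comm]

/-! ### The conjugates -/

variable (ζ : ℂˣ)

/-- The conjugates of the modular unit `p^12 Δ(pτ)/Δ(τ)`. -/
def uF : Option (Fin p) → LaurentSeries ℂ
  | none => (p : LaurentSeries ℂ) ^ 12 * qExpand ℂ p (qExpand ℂ p Dl) * qExpand ℂ p Dinv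
  | some b => tw (ζ ^ (b : ℕ)) Dl * qExpand ℂ p Dinv

/-- The conjugates of `p^12 E₄(pτ)^3/Δ(τ)`. -/
def vF : Option (Fin p) → LaurentSeries ℂ
  | none => (p : LaurentSeries ℂ) ^ 12 * qExpand ℂ p (qExpand ℂ p E3) * qExpand ℂ p Dinv
  | some b => tw (ζ ^ (b : ℕ)) E3 * qExpand ℂ p Dinv

/-- The conjugates of `j(pτ)`. -/
def xF : Option (Fin p) → LaurentSeries ℂ
  | none => qExpand ℂ p (qExpand ℂ p Jt)
  | some b => tw (ζ ^ (b : ℕ)) Jt

theorem vF_eq (i : Option (Fin p)) : vF p ζ i = xF p ζ i * uF p ζ i := by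
  have h1 : Dinv * Dl = 1 := by rw [mul_comm]; exact Dl_mul_Dinv
  cases i with
  | none =>
    show (p : LaurentSeries ℂ) ^ 12 * qExpand ℂ p (qExpand ℂ p E3) * qExpand ℂ p Dinv =
      qExpand ℂ p (qExpand ℂ p Jt) *
        ((p : LaurentSeries ℂ) ^ 12 * qExpand ℂ p (qExpand ℂ p Dl) * qExpand ℂ p Dinv)
    have h2 : qExpand ℂ p (qExpand ℂ p Jt) * qExpand ℂ p (qExpand ℂ p Dl) =
        qExpand ℂ p (qExpand ℂ p E3) := by
      rw [← map_mul, ← map_mul, Jt_eq, mul_assoc, h1, mul_one]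
    rw [← h2]; ring
  | some b =>
    show tw (ζ ^ (b : ℕ)) E3 * qExpand ℂ p Dinv =
      tw (ζ ^ (b : ℕ)) Jt * (tw (ζ ^ (b : ℕ)) Dl * qExpand ℂ p Dinv)
    have h2 : tw (ζ ^ (b : ℕ)) Jt * tw (ζ ^ (b : ℕ)) Dl = tw (ζ ^ (b : ℕ)) E3 := by
      rw [← map_mul, Jt_eq, mul_assoc, h1, mul_one]
    rw [← h2]; ring

/-- `J = j(t^p)`. -/
def JJ : LaurentSeries ℂ := qExpand ℂ p Jt

/-- Evaluation of integer polynomials at `J = j(t^p)`. -/
def evZ : Polynomial ℤ →+* LaurentSeries ℂ :=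
  Polynomial.eval₂RingHom (Int.castRingHom (LaurentSeries ℂ)) (JJ p)

/-- All mixed power sums of the conjugates are integer polynomials in `J`. -/
theorem mixed_sum_mem (hp : p.Prime) (hζ : IsPrimitiveRoot ζ p) (a b : ℕ) :
    ∑ i, uF p ζ i ^ a * vF p ζ i ^ b ∈ (evZ p).range := by
  obtain ⟨c, hc⟩ := hecke_levelOne_formal p hp b a
  set f : PowerSeries ℤ := eisenstein4 ^ (3 * b) * DeltaZ ^ a with hf
  set V := qExpand ℂ p with hV
  -- the finite part
  have hfin : ∑ i : Fin p, uF p ζ (some i) ^ a * vF p ζ (some i) ^ b =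
      (p : LaurentSeries ℂ) * V (psC (Up p f)) * V Dinv ^ (a + b) := by
    rw [← sum_tw_psC p hp ζ hζ f, Finset.sum_mul]
    refine Finset.sum_congr rfl fun i _ => ?_
    show (tw (ζ ^ (i : ℕ)) Dl * V Dinv) ^ a * (tw (ζ ^ (i : ℕ)) E3 * V Dinv) ^ b = _
    rw [hf, psC_ed, map_mul, map_pow, map_pow, _root_.pow_add]; ring
  have hinf : uF p ζ none ^ a * vF p ζ none ^ b =
      (p : LaurentSeries ℂ) ^ (12 * (b + a)) * V (psC (Vp p f)) * V Dinv ^ (a + b) := by
    show ((p : LaurentSeries ℂ) ^ 12 * V (V Dl) * V Dinv) ^ a *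
      ((p : LaurentSeries ℂ) ^ 12 * V (V E3) * V Dinv) ^ b = _
    rw [← qExpand_psC, hf, psC_ed, map_mul, map_mul, map_pow, map_pow, map_pow, map_pow,
      _root_.pow_add, pow_mul, _root_.pow_add]
    ring
  have hsum : psC ((p : PowerSeries ℤ) ^ (12 * (b + a)) * Vp p f + (p : PowerSeries ℤ) * Up p f) =
      ∑ i ∈ Finset.range (b + a + 1), (c i : LaurentSeries ℂ) * E3 ^ i * Dl ^ (b + a - i) := by
    rw [hc, map_sum]
    refine Finset.sum_congr rfl fun i _ => ?_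
    rw [map_mul, map_mul, psC_C, map_pow, map_pow, E3, map_pow, ← pow_mul, Dl]
  have hDD : ∀ i ∈ Finset.range (b + a + 1),
      (c i : LaurentSeries ℂ) * E3 ^ i * Dl ^ (b + a - i) * Dinv ^ (a + b) =
        (c i : LaurentSeries ℂ) * Jt ^ i := by
    intro i hi
    have hi' : i ≤ b + a := Nat.lt_succ_iff.mp (Finset.mem_range.mp hi)
    have e : a + b = i + (b + a - i) := by omega
    rw [Jt_eq, e, _root_.pow_add, mul_pow]
    calc (c i : LaurentSeries ℂ) * E3 ^ i * Dl ^ (b + a - i) * (Dinv ^ i * Dinv ^ (b + a - i))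
        = (c i : LaurentSeries ℂ) * (E3 ^ i * Dinv ^ i) * (Dl * Dinv) ^ (b + a - i) := by ring
      _ = (c i : LaurentSeries ℂ) * (E3 ^ i * Dinv ^ i) := by rw [Dl_mul_Dinv, one_pow, mul_one]
  refine ⟨∑ i ∈ Finset.range (b + a + 1), Polynomial.C (c i) * Polynomial.X ^ i, ?_⟩
  rw [Fintype.sum_option, hinf, hfin]
  have e1 : (p : LaurentSeries ℂ) ^ (12 * (b + a)) * V (psC (Vp p f)) * V Dinv ^ (a + b) +
      (p : LaurentSeries ℂ) * V (psC (Up p f)) * V Dinv ^ (a + b) =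
      V (psC ((p : PowerSeries ℤ) ^ (12 * (b + a)) * Vp p f + (p : PowerSeries ℤ) * Up p f) *
        Dinv ^ (a + b)) := by
    simp only [map_mul, map_add, map_pow, map_natCast]
    ring
  rw [e1, hsum, Finset.sum_mul, Finset.sum_congr rfl hDD, map_sum, map_sum]
  refine Finset.sum_congr rfl fun i _ => ?_
  rw [evZ, Polynomial.coe_eval₂RingHom, Polynomial.eval₂_mul, Polynomial.eval₂_C,
    Polynomial.eval₂_pow, Polynomial.eval₂_X, map_mul, map_pow, map_intCast, JJ]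
  rfl

end Fermat.Agent.S37.Deg.PL
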