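/-
S28 Route H, WP5 (`exists_primeLevelData`), part 4: rational and integral polynomials in `J`.

* `evQ p : ℚ[X] →+* ℂ((t))`, `P ↦ P(J)`, `J = j(t^p)`; leading coefficient lemma;
* descent: a rational polynomial in `J` whose Laurent coefficients are algebraic integers is an
  integer polynomial in `J`;
* a rational polynomial in `J` without negative exponents is a constant.
(helper2872)
-/
import Fermat.Agent.S37.Deg.PLSums

set_option autoImplicit false

noncomputable section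

namespace Fermat.Agent.S37.Deg.PL

open ModularCurve HahnSeries

/-- Rational constants in `ℂ((t))`. -/
def cQ : ℚ →+* LaurentSeries ℂ := (HahnSeries.C : ℂ →+* LaurentSeries ℂ).comp (algebraMap ℚ ℂ)

theorem cQ_mul_coeff (r : ℚ) (g : LaurentSeries ℂ) (k : ℤ) :
    (cQ r * g).coeff k = (r : ℂ) * g.coeff k := by
  rw [cQ, RingHom.comp_apply, HahnSeries.C_mul_eq_smul, HahnSeries.coeff_smul, smul_eq_mul]
  rfl

theorem cQ_intCast (z : ℤ) : cQ (z : ℚ) = (z : LaurentSeries ℂ) := map_intCast cQ z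

theorem cQ_natCast (n : ℕ) : cQ (n : ℚ) = (n : LaurentSeries ℂ) := map_natCast cQ n

variable (p : ℕ) [NeZero p]

/-- Evaluation of rational polynomials at `J = j(t^p)`. -/
def evQ : Polynomial ℚ →+* LaurentSeries ℂ := Polynomial.eval₂RingHom cQ (JJ p)

theorem evZ_eq_evQ (P : Polynomial ℤ) : evZ p P = evQ p (P.map (Int.castRingHom ℚ)) := by
  rw [evZ, evQ, Polynomial.coe_eval₂RingHom, Polynomial.coe_eval₂RingHom, Polynomial.eval₂_map]
  congr 1

/-- The subring `ℚ[J]` of `ℂ((t))`. -/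
def SQ : Subring (LaurentSeries ℂ) := (evQ p).range

/-- The subring `ℤ[J]` of `ℂ((t))`. -/
def SZ : Subring (LaurentSeries ℂ) := (evZ p).range

theorem SZ_le_SQ : SZ p ≤ SQ p := by
  rintro _ ⟨P, rfl⟩
  exact ⟨P.map (Int.castRingHom ℚ), (evZ_eq_evQ p P).symm⟩

theorem SQ_div (n : ℕ) (x : LaurentSeries ℂ) (hn : 0 < n) (h : (n : LaurentSeries ℂ) * x ∈ SQ p) :
    x ∈ SQ p := by
  obtain ⟨P, hP⟩ := h
  refine ⟨Polynomial.C ((n : ℚ)⁻¹) * P, ?_⟩
  have hn' : (n : ℚ) ≠ 0 := Nat.cast_ne_zero.mpr hn.ne'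
  rw [map_mul, hP, evQ, Polynomial.coe_eval₂RingHom, Polynomial.eval₂_C, ← mul_assoc,
    ← cQ_natCast, ← map_mul, inv_mul_cancel₀ hn', map_one, one_mul]

theorem coeff_JJ_pow (i : ℕ) (m : ℤ) : (JJ p ^ i).coeff ((p : ℤ) * m) = (Jt ^ i).coeff m := by
  rw [JJ, ← map_pow, qExpand_coeff_mul]

/-- The coefficient of `t^(-p·deg P)` in `P(J)` is the leading coefficient of `P`. -/
theorem coeff_evQ_natDegree (P : Polynomial ℚ) :
    (evQ p P).coeff (-((p : ℤ) * P.natDegree)) = (P.leadingCoeff : ℂ) := by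
  rw [evQ, Polynomial.coe_eval₂RingHom, Polynomial.eval₂_eq_sum_range, HahnSeries.coeff_sum]
  simp_rw [cQ_mul_coeff]
  rw [Finset.sum_eq_single P.natDegree]
  · rw [show -((p : ℤ) * (P.natDegree : ℤ)) = (p : ℤ) * (-(P.natDegree : ℤ)) by ring, coeff_JJ_pow,
      Jt, coeff_jqModC_pow_self, mul_one]
    rfl
  · intro i hi hne
    have hi' : i < P.natDegree :=
      lt_of_le_of_ne (Nat.lt_succ_iff.mp (Finset.mem_range.mp hi)) hne
    rw [show -((p : ℤ) * (P.natDegree : ℤ)) = (p : ℤ) * (-(P.natDegree : ℤ)) by ring, coeff_JJ_pow,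
      Jt, coeff_jqModC_pow_of_lt ℂ (by omega), mul_zero]
  · intro h
    exact absurd (Finset.mem_range.mpr (Nat.lt_succ_self _)) h

/-- A rational polynomial in `J` without negative exponents is a (rational) constant. -/
theorem eq_const_of_mem_SQ_of_mem_NN {c : LaurentSeries ℂ} (hQ : c ∈ SQ p) (hN : c ∈ NN ℂ) :
    ∃ r : ℚ, c = cQ r := by
  obtain ⟨P, rfl⟩ := hQ
  have hp0 : (0 : ℤ) < p := by exact_mod_cast Nat.pos_of_ne_zero (NeZero.ne p)
  have hdeg : P.natDegree = 0 := by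
    by_contra hD
    have hD' : 0 < P.natDegree := Nat.pos_of_ne_zero hD
    have h1 := coeff_evQ_natDegree p P
    have hneg : -((p : ℤ) * (P.natDegree : ℤ)) < 0 := by
      have : (0 : ℤ) < (p : ℤ) * (P.natDegree : ℤ) := mul_pos hp0 (by exact_mod_cast hD')
      omega
    rw [hN _ hneg] at h1
    have hlc : P.leadingCoeff = 0 := by exact_mod_cast h1.symm
    rw [Polynomial.leadingCoeff_eq_zero] at hlc
    rw [hlc] at hD
    exact hD Polynomial.natDegree_zero
  refine ⟨P.coeff 0, ?_⟩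
  conv_lhs => rw [Polynomial.eq_C_of_natDegree_eq_zero hdeg]
  rw [evQ, Polynomial.coe_eval₂RingHom, Polynomial.eval₂_C]

/-! ### Algebraic integers -/

/-- The ring of algebraic integers in `ℂ`. -/
def OO : Subring ℂ := (integralClosure ℤ ℂ).toSubring

/-- Laurent series with algebraic integer coefficients. -/
def OL : Subring (LaurentSeries ℂ) := coeffSubring OO

theorem mem_OO {a : ℂ} : a ∈ OO ↔ IsIntegral ℤ a := Iff.rfl

/-- A rational number which is an algebraic integer is an integer. -/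
theorem int_of_mem_OO {r : ℚ} (h : (r : ℂ) ∈ OO) : ∃ z : ℤ, (z : ℚ) = r := by
  have h1 : IsIntegral ℤ (algebraMap ℚ ℂ r) := h
  have h2 : IsIntegral ℤ r := (isIntegral_algebraMap_iff (algebraMap ℚ ℂ).injective).mp h1
  obtain ⟨z, hz⟩ := IsIntegrallyClosed.isIntegral_iff.mp h2
  exact ⟨z, by simpa using hz⟩

theorem psC_mem_OL (f : PowerSeries ℤ) : psC f ∈ OL :=
  coeffMap_int_mem_coeffSubring OO _

theorem Jt_mem_OL : Jt ∈ OL := by
  rw [Jt, ← coeffMap_jqModC (Int.castRingHom ℂ)]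
  exact coeffMap_int_mem_coeffSubring OO _

theorem JJ_mem_OL : JJ p ∈ OL := qExpand_mem_coeffSubring OO p Jt_mem_OL

theorem SZ_le_OL : SZ p ≤ OL := by
  rintro _ ⟨P, rfl⟩
  rw [evZ, Polynomial.coe_eval₂RingHom, Polynomial.eval₂_eq_sum_range]
  exact Subring.sum_mem _ fun i _ => mul_mem (intCast_mem _ _) (pow_mem (JJ_mem_OL p) i)

/-- Descent: `ℚ[J] ∩ 𝒪((t)) = ℤ[J]`. -/
theorem mem_SZ_of_mem_SQ_of_mem_OL {c : LaurentSeries ℂ} (hQ : c ∈ SQ p) (hO : c ∈ OL) :
    c ∈ SZ p := by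
  obtain ⟨P, rfl⟩ := hQ
  induction h : P.support.card using Nat.strong_induction_on generalizing P with
  | _ n ih =>
    by_cases hP : P = 0
    · rw [hP, map_zero]; exact zero_mem _
    · have hlc := coeff_evQ_natDegree p P
      have hmem : (P.leadingCoeff : ℂ) ∈ OO := by rw [← hlc]; exact hO _
      obtain ⟨z, hz⟩ := int_of_mem_OO hmem
      have hdec : evQ p P = evQ p P.eraseLead + (z : LaurentSeries ℂ) * JJ p ^ P.natDegree := by
        conv_lhs => rw [← Polynomial.eraseLead_add_C_mul_X_pow P]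
        rw [map_add, map_mul, map_pow, evQ, Polynomial.coe_eval₂RingHom, Polynomial.eval₂_C,
          Polynomial.eval₂_X, ← hz, cQ_intCast]
      have hmono : (z : LaurentSeries ℂ) * JJ p ^ P.natDegree ∈ SZ p := by
        refine ⟨Polynomial.C z * Polynomial.X ^ P.natDegree, ?_⟩
        rw [evZ, Polynomial.coe_eval₂RingHom, Polynomial.eval₂_mul, Polynomial.eval₂_C,
          Polynomial.eval₂_pow, Polynomial.eval₂_X]
        rfl
      have hO' : evQ p P.eraseLead ∈ OL := by
        have : evQ p P.eraseLead = evQ p P - (z : LaurentSeries ℂ) * JJ p ^ P.natDegree := by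
          rw [hdec]; ring
        rw [this]
        exact sub_mem hO (SZ_le_OL p hmono)
      rw [hdec]
      exact add_mem (ih _ (by rw [← h]; exact Polynomial.eraseLead_support_card_lt hP) _ hO' rfl)
        hmono

end Fermat.Agent.S37.Deg.PL
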