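import Fermat.Agent.S37.Deg.Generation

set_option autoImplicit false

noncomputable section

namespace Fermat.Agent.S37.Deg

open ModularCurve Polynomial

theorem coeff_jqN_neg_self (K : Type*) [CommRing K] (a : ℕ) [NeZero a] :
    (jqNModC K a).coeff (-(a : ℤ)) = 1 := by
  have h : -(a : ℤ) = (a : ℤ) * (-1) := by ring
  rw [h, jqNModC, qExpand_coeff_mul, coeff_jqModC_neg_one]

theorem jqN_ne_of_lt (K : Type*) [CommRing K] [Nontrivial K] {a b : ℕ} [NeZero a] [NeZero b]
    (h : a < b) : jqNModC K a ≠ jqNModC K b := by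
  intro heq
  have h1 := coeff_jqN_neg_self K a
  rw [heq, jqNModC, qExpand_coeff_of_not_dvd b _ ?_] at h1
  · exact zero_ne_one h1
  · intro hd
    have h2 : (b : ℤ) ∣ (a : ℤ) := (dvd_neg.mp hd)
    have h3 : b ∣ a := Int.natCast_dvd_natCast.mp h2
    exact absurd (Nat.le_of_dvd (Nat.pos_of_ne_zero (NeZero.ne a)) h3) (not_le.mpr h)

/-- A root of a monic two-variable integral polynomial specialised in an intermediate field is
integral over that field, with a degree bound. -/
theorem isIntegral_of_ev2 {K L : Type*} [Field K] [Field L] [Algebra K L]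
    (F : IntermediateField K L) {x y : L} (hy : y ∈ F) {P : ℤ[X][X]} (hP : P.Monic)
    (h : ev2 x y P = 0) : IsIntegral F x ∧ (minpoly F x).natDegree ≤ P.natDegree := by
  set g : F[X] := polyAt (⟨y, hy⟩ : F) P with hg
  have hgmonic : g.Monic := polyAt_monic _ hP
  have hgdeg : g.natDegree = P.natDegree := natDegree_polyAt _ hP
  have hgL : g.map (algebraMap F L) = polyAt y P := map_polyAt _ _ _
  have hroot : aeval x g = 0 := by
    rw [aeval_def, ← eval_map, hgL, ← ev2_eq_eval]
    exact h
  refine ⟨⟨g, hgmonic, hroot⟩, ?_⟩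
  rw [← hgdeg]
  exact natDegree_le_of_dvd (minpoly.dvd F x hroot) hgmonic.ne_zero

section step

variable (hPL : ∀ (p : ℕ) [NeZero p], p.Prime → Nonempty (PrimeLevelData p))
  (K : Type*) [Field K] (M p : ℕ) [NeZero M] [NeZero p] [NeZero (M * p)]

include hPL in
/-- One step of the tower: the degree `[K(j_d : d ∣ M p) : K(j_d : d ∣ M)]` is positive, at most
`p + 1`, and at most `p` if `p ∣ M`. -/
theorem relfinrank_step (hp : p.Prime) (hN : ((M * p : ℕ) : K) ≠ 0) :
    0 < (modularFunctionFieldFullC K M).relfinrank (modularFunctionFieldFullC K (M * p)) ∧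
    (modularFunctionFieldFullC K M).relfinrank (modularFunctionFieldFullC K (M * p)) ≤ p + 1 ∧
    (p ∣ M →
      (modularFunctionFieldFullC K M).relfinrank (modularFunctionFieldFullC K (M * p)) ≤ p) := by
  obtain ⟨D⟩ := hPL p hp
  obtain ⟨k, M', hpM', hM⟩ := Nat.exists_eq_pow_mul_and_not_dvd (NeZero.ne M) p hp.ne_one
  have hk : p ^ k ∣ M := Dvd.intro M' hM.symm
  have hk' : ¬ p ^ (k + 1) ∣ M := by
    rintro ⟨c, hc⟩
    apply hpM'
    have h : p ^ k * M' = p ^ k * (p * c) := by rw [← hM, hc, pow_succ]; ring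
    exact ⟨c, Nat.eq_of_mul_eq_mul_left (pow_pos hp.pos k) h⟩
  have hpk : ∀ i : ℕ, NeZero (p ^ i) := fun i => ⟨pow_ne_zero i hp.ne_zero⟩
  have : NeZero (p ^ k * p) := ⟨mul_ne_zero (pow_ne_zero k hp.ne_zero) hp.ne_zero⟩
  rw [full_mul_prime_eq_sup hPL K M p k hp hk hk' hN]
  set F := modularFunctionFieldFullC K M with hF
  set x := jqNModC K (p ^ (k + 1)) with hx
  have hmemk : jqNModC K (p ^ k) ∈ F := jqN_mem_full K M hk
  set g₁ : F[X] := polyAt (⟨jqNModC K (p ^ k), hmemk⟩ : F) D.Φ with hg₁
  have hg₁monic : g₁.Monic := polyAt_monic _ D.Φ_monic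
  have hg₁deg : g₁.natDegree = p + 1 := by rw [natDegree_polyAt _ D.Φ_monic, D.Φ_natDegree]
  have hg₁L : g₁.map (algebraMap F (LaurentSeries K)) = polyAt (jqNModC K (p ^ k)) D.Φ :=
    map_polyAt _ _ _
  have hroot : aeval x g₁ = 0 := by
    rw [aeval_def, ← eval_map, hg₁L, ← ev2_eq_eval, hx, jqNModC_congr K (pow_succ p k)]
    exact D.root_jp_expand K (p ^ k)
  have hint : IsIntegral F x := ⟨g₁, hg₁monic, hroot⟩
  rw [relfinrank_sup_adjoin_simple F hint]
  refine ⟨minpoly.natDegree_pos hint, ?_, ?_⟩
  · rw [← hg₁deg]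
    exact natDegree_le_of_dvd (minpoly.dvd F x hroot) hg₁monic.ne_zero
  · intro hpM
    obtain ⟨k', rfl⟩ : ∃ k', k = k' + 1 := by
      rcases k with _ | k'
      · exfalso
        apply hpM'
        rw [pow_zero, one_mul] at hM
        rwa [← hM]
      · exact ⟨k', rfl⟩
    have : NeZero (p ^ k' * p) := ⟨mul_ne_zero (pow_ne_zero k' hp.ne_zero) hp.ne_zero⟩
    have hmemy : jqNModC K (p ^ k') ∈ F :=
      jqN_mem_full K M ((pow_dvd_pow p (Nat.le_succ k')).trans hk)
    set y : F := ⟨jqNModC K (p ^ k'), hmemy⟩ with hy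
    have hyroot : g₁.IsRoot y := by
      apply (algebraMap F (LaurentSeries K)).injective
      rw [map_zero, ← eval₂_at_apply, ← eval_map, hg₁L, ← ev2_eq_eval]
      show ev2 (jqNModC K (p ^ k')) (jqNModC K (p ^ (k' + 1))) D.Φ = 0
      rw [jqNModC_congr K (pow_succ p k')]
      exact D.root_j_expand K (p ^ k')
    have hfac : (X - C y) * (g₁ /ₘ (X - C y)) = g₁ := mul_divByMonic_eq_iff_isRoot.mpr hyroot
    set g₂ := g₁ /ₘ (X - C y) with hg₂
    have hg₂monic : g₂.Monic := by
      refine (monic_X_sub_C y).of_mul_monic_left ?_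
      rw [hfac]
      exact hg₁monic
    have hg₂deg : g₂.natDegree = p := by
      rw [hg₂, natDegree_divByMonic _ (monic_X_sub_C y), natDegree_X_sub_C, hg₁deg]
      rfl
    have hroot₂ : aeval x g₂ = 0 := by
      have h := hroot
      rw [← hfac, map_mul, map_sub, aeval_X, aeval_C] at h
      rcases mul_eq_zero.mp h with h | h
      · exfalso
        have hxy : jqNModC K (p ^ k') = jqNModC K (p ^ (k' + 1 + 1)) := (sub_eq_zero.mp h).symm
        refine jqN_ne_of_lt K ?_ hxy
        exact Nat.pow_lt_pow_right hp.one_lt (by omega)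
      · exact h
    rw [← hg₂deg]
    exact natDegree_le_of_dvd (minpoly.dvd F x hroot₂) hg₂monic.ne_zero

include hPL in
/-- The lower bound `[K(j_d : d ∣ M p) : K(j)] ≥ p [K(j_d : d ∣ M) : K(j)]`. -/
theorem relfinrank_full_mul_prime_ge (hp : p.Prime) (hN : ((M * p : ℕ) : K) ≠ 0) :
    p * (IntermediateField.adjoin K {jqModC K}).relfinrank (modularFunctionFieldFullC K M) ≤
      (IntermediateField.adjoin K {jqModC K}).relfinrank (modularFunctionFieldFullC K (M * p)) := by
  obtain ⟨D⟩ := hPL p hp
  have hpK : (p : K) ≠ 0 := natCast_ne_zero_of_dvd (Dvd.intro_left M rfl) hN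
  set J := jqModC K with hJ
  set Jp := jqNModC K p with hJp
  set A := IntermediateField.adjoin K {J} with hA
  set EM := modularFunctionFieldFullC K M with hEM
  set EN := modularFunctionFieldFullC K (M * p) with hEN
  have hJA : J ∈ A := IntermediateField.mem_adjoin_simple_self K J
  have hAM : A ≤ EM := IntermediateField.adjoin_simple_le_iff.mpr (jqModC_mem_full K M)
  have hMN : EM ≤ EN := full_degeneracyC_le K (Dvd.intro p rfl)
  obtain ⟨hcpos, -, -⟩ := relfinrank_step hPL K M p hp hN
  have htower : A.relfinrank EM * EM.relfinrank EN = A.relfinrank EN :=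
    IntermediateField.relfinrank_mul_relfinrank hAM hMN
  rcases Nat.eq_zero_or_pos (A.relfinrank EN) with h0 | hpos
  · rw [h0] at htower ⊢
    rcases Nat.mul_eq_zero.mp htower with h | h
    · rw [h, mul_zero]
    · rw [← hEM, ← hEN] at hcpos
      omega
  · let σ := qExpandAlgHomC K p
    set V := EM.map σ with hV
    set Ap := A.map σ with hAp
    have hApeq : Ap = IntermediateField.adjoin K {Jp} := by
      rw [hAp, hA, IntermediateField.adjoin_map, Set.image_singleton]
      rfl
    have hJpEN : Jp ∈ EN := jqN_mem_full K (M * p) (Dvd.intro_left M rfl)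
    have hJEN : J ∈ EN := jqModC_mem_full K (M * p)
    have hVN : V ≤ EN := full_degeneracyC_map_le K M p
    have hApV : Ap ≤ V := IntermediateField.map_mono σ hAM
    have h1 : Ap.relfinrank V = A.relfinrank EM := IntermediateField.relfinrank_map_map A EM σ
    set W := V ⊔ IntermediateField.adjoin K {J} with hW
    have hVW : V ≤ W := le_sup_left
    have hWN : W ≤ EN := sup_le hVN (IntermediateField.adjoin_simple_le_iff.mpr hJEN)
    set B := A ⊔ IntermediateField.adjoin K {Jp} with hB
    have hAB : A ≤ B := le_sup_left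
    have hBN : B ≤ EN :=
      sup_le (hAM.trans hMN) (IntermediateField.adjoin_simple_le_iff.mpr hJpEN)
    have hApB : Ap ≤ B := by rw [hApeq]; exact le_sup_right
    have hBeq : B = Ap ⊔ IntermediateField.adjoin K {J} := by rw [hApeq, hB, hA, sup_comm]
    have hJpAp : Jp ∈ Ap := by rw [hApeq]; exact IntermediateField.mem_adjoin_simple_self K Jp
    have hintJp := isIntegral_of_ev2 A hJA D.Φ_monic (ev2_jqN_jq K D)
    have hintJ := isIntegral_of_ev2 Ap hJpAp D.Φ_monic (ev2_jq_jqN K D)
    have hintJV := isIntegral_of_ev2 V (hApV hJpAp) D.Φ_monic (ev2_jq_jqN K D)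
    have hdegB : A.relfinrank B = p + 1 := by
      rw [hB, relfinrank_sup_adjoin_simple A hintJp.1]
      exact natDegree_minpoly_jqN_prime p hp D K hpK
    have hdegB' : Ap.relfinrank B ≤ p + 1 := by
      rw [hBeq, relfinrank_sup_adjoin_simple Ap hintJ.1, ← D.Φ_natDegree]
      exact hintJ.2
    have hdegB'' : 0 < Ap.relfinrank B := by
      rw [hBeq, relfinrank_sup_adjoin_simple Ap hintJ.1]
      exact minpoly.natDegree_pos hintJ.1
    have hdegW : p ≤ V.relfinrank W := by
      rw [hW, relfinrank_sup_adjoin_simple V hintJV.1]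
      by_contra hlt
      push Not at hlt
      refine eval_jqModC_ne_zero_of_range K p
        (g := (minpoly V J).map (algebraMap V (LaurentSeries K))) ?_ ?_ ?_ ?_
      · exact Polynomial.map_ne_zero (minpoly.ne_zero hintJV.1)
      · rw [natDegree_map]; exact hlt
      · intro i
        rw [coeff_map]
        obtain ⟨e, -, he⟩ :=
          (IntermediateField.mem_map (S := EM) (f := σ)).mp ((minpoly V J).coeff i).2
        exact ⟨e, he⟩
      · rw [eval_map, ← aeval_def]; exact minpoly.aeval V J
    have t1 : A.relfinrank B * B.relfinrank EN = A.relfinrank EN :=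
      IntermediateField.relfinrank_mul_relfinrank hAB hBN
    have t2 : Ap.relfinrank B * B.relfinrank EN = Ap.relfinrank EN :=
      IntermediateField.relfinrank_mul_relfinrank hApB hBN
    have t3 : Ap.relfinrank V * V.relfinrank EN = Ap.relfinrank EN :=
      IntermediateField.relfinrank_mul_relfinrank hApV hVN
    have t4 : V.relfinrank W * W.relfinrank EN = V.relfinrank EN :=
      IntermediateField.relfinrank_mul_relfinrank hVW hWN
    have hr : 0 < B.relfinrank EN := by
      rcases Nat.eq_zero_or_pos (B.relfinrank EN) with h | h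
      · rw [h, mul_zero] at t1; omega
      · exact h
    have hs : 1 ≤ W.relfinrank EN := by
      rcases Nat.eq_zero_or_pos (W.relfinrank EN) with h | h
      · rw [h, mul_zero] at t4
        rw [← t4, mul_zero] at t3
        rw [← t3] at t2
        rcases Nat.mul_eq_zero.mp t2 with h' | h' <;> omega
      · exact h
    calc p * A.relfinrank EM ≤ V.relfinrank W * A.relfinrank EM := Nat.mul_le_mul_right _ hdegW
      _ = V.relfinrank W * 1 * A.relfinrank EM := by rw [mul_one]
      _ ≤ V.relfinrank W * W.relfinrank EN * A.relfinrank EM :=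
          Nat.mul_le_mul_right _ (Nat.mul_le_mul_left _ hs)
      _ = Ap.relfinrank EN := by rw [← t3, t4, h1, mul_comm]
      _ = Ap.relfinrank B * B.relfinrank EN := t2.symm
      _ ≤ (p + 1) * B.relfinrank EN := Nat.mul_le_mul_right _ hdegB'
      _ = A.relfinrank EN := by rw [← t1, hdegB]

end step

end Fermat.Agent.S37.Deg
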